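import Fermat.Agent.EisensteinDescent.NLattice
import Fermat.Agent.GaloisBasics.Unramified
import Mathlib.RingTheory.AdicCompletion.Noetherian

/-!
# Eigen-components on which Galois acts by scalars

If Galois acts by scalars on an eigen-component, with the usual local conditions, the scalar is the
cyclotomic character, so the eigenvalue at a good prime `q` is `q + 1`.
-/

namespace Fermat.Agent.EisensteinDescent

open Module GaloisBasics

variable {p : ℕ} [Fact p.Prime] {T : Type*} [CommRing T] {Λ : Type} [AddCommGroup Λ]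
  [Module ℤ_[p] Λ] [DistribMulAction GalQ Λ] {act : T →+* Module.End ℤ_[p] Λ}
  {E : Type} [Field E] [Algebra ℤ_[p] E]

/-- A component with scalar Galois action is cyclotomic. -/
theorem rho_eq_chi_of_scalar [CharZero E] [Module.Finite ℤ_[p] Λ]
    [SMulCommClass GalQ ℤ_[p] Λ] (D : EigenData GalQ act E) (χ₀ : GalQ →* ℤ_[p]) {N : ℕ}
    (hN : N.Prime)
    (hcont : ∀ r : ℕ, ∃ L : IntermediateField ℚ Qbar, FiniteDimensional ℚ L ∧
      ∀ σ : GalQ, (∀ x ∈ L, σ x = x) →
        (∀ x : Λ, ∃ y, σ • x - x = p ^ r • y) ∧ (p : ℤ_[p]) ^ r ∣ χ₀ σ - 1)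
    (hχ : ∀ q : ℕ, q.Prime → q ≠ p → ∀ A : ValuationSubring Qbar, A.LiesOverPrime q →
      ∀ σ ∈ A.inertiaSubgroupIn ℚ, χ₀ σ = 1)
    (hΛ : ∀ q : ℕ, q.Prime → q ≠ p → q ≠ N → ∀ A : ValuationSubring Qbar, A.LiesOverPrime q →
      ∀ σ ∈ A.inertiaSubgroupIn ℚ, ∀ x : Λ, σ • x = x)
    (hpN : p ≠ N) {AN : ValuationSubring Qbar} (hAN : AN.LiesOverPrime N)
    (huni : ∀ σ ∈ AN.inertiaSubgroupIn ℚ, ∀ x : Λ, σ • (σ • x - x) = σ • x - x)
    {AP : ValuationSubring Qbar} (hAP : AP.LiesOverPrime p) (i : D.ι)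
    (hmult : ∃ v : Fin 2 → E, v ≠ 0 ∧
      ∀ σ ∈ AP.inertiaSubgroupIn ℚ, D.ρ i σ v = algebraMap ℤ_[p] E (χ₀ σ) • v)
    (hscalar : ∀ g, ∃ c : E, D.ρ i g = c • (1 : Module.End E (Fin 2 → E))) (g : GalQ) :
    D.ρ i g = algebraMap ℤ_[p] E (χ₀ g) • (1 : Module.End E (Fin 2 → E)) := by
  have hinv : ∀ σ : GalQ, χ₀ σ⁻¹ * χ₀ σ = 1 := fun σ => by
    rw [← map_mul, inv_mul_cancel, map_one]
  let ci : Λ →ₗ[ℤ_[p]] (Fin 2 → E) := (LinearMap.proj i) ∘ₗ D.coord
  let V : Submodule ℤ_[p] (Fin 2 → E) := LinearMap.range ci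
  let f : GalQ → Module.End ℤ_[p] (Fin 2 → E) := fun σ =>
    χ₀ σ⁻¹ • (D.ρ i σ).restrictScalars ℤ_[p]
  have hf : ∀ σ x, f σ (ci x) = ci (χ₀ σ⁻¹ • σ • x) := fun σ x => by
    simp [f, ci, D.coord_smul]
  have hstab : ∀ σ, ∀ v ∈ V, f σ v ∈ V := by
    rintro σ _ ⟨x, rfl⟩
    exact ⟨_, (hf σ x).symm⟩
  let μ : GalQ →* Module.End ℤ_[p] V :=
    { toFun := fun σ => (f σ).restrict (hstab σ)
      map_one' := LinearMap.ext fun v => Subtype.ext (by simp [f])
      map_mul' := fun σ τ => LinearMap.ext fun v => Subtype.ext (by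
        show f (σ * τ) (v : Fin 2 → E) = f σ (f τ (v : Fin 2 → E))
        simp only [f, LinearMap.smul_apply, LinearMap.coe_restrictScalars, map_mul,
          Module.End.mul_apply, mul_inv_rev, LinearMap.map_smul_of_tower, mul_smul]
        exact smul_comm _ _ _) }
  have hone : ∀ σ, μ σ = 1 ↔
      D.ρ i σ = algebraMap ℤ_[p] E (χ₀ σ) • (1 : Module.End E (Fin 2 → E)) := by
    intro σ
    constructor
    · intro h
      refine D.end_ext i fun x => ?_
      have h1 : f σ (ci x) = ci x :=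
        congrArg Subtype.val (LinearMap.congr_fun h ⟨ci x, LinearMap.mem_range_self _ x⟩)
      have h2 := congrArg (χ₀ σ • ·) h1
      simp only [f, LinearMap.smul_apply, LinearMap.coe_restrictScalars, smul_smul] at h2
      rw [mul_comm, hinv, one_smul] at h2
      rw [LinearMap.smul_apply, Module.End.one_apply, algebraMap_smul]
      exact h2
    · intro h
      refine LinearMap.ext fun v => Subtype.ext ?_
      show f σ (v : Fin 2 → E) = v
      simp only [f, LinearMap.smul_apply, LinearMap.coe_restrictScalars, h, Module.End.one_apply,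
        algebraMap_smul, smul_smul, hinv, one_smul]
  have hI : ∀ q : ℕ, q.Prime → ∀ A : ValuationSubring Qbar, A.LiesOverPrime q →
      ∀ σ ∈ A.inertiaSubgroupIn ℚ, μ σ = 1 := by
    intro q hq A hA
    by_cases hqN : q = N
    · subst hqN
      refine map_inertia_eq_one_of_one_place μ hAN hq (fun σ hσ => ?_) hA
      rw [hone, hχ q hq hpN.symm AN hAN σ hσ, map_one, one_smul]
      obtain ⟨c, hc⟩ := hscalar σ
      have h2 := D.rho_unipotent i (huni σ hσ)
      have h3 := LinearMap.congr_fun h2 (Pi.single 0 1)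
      rw [hc] at h3
      have h4 := congrFun h3 0
      simp only [Module.End.mul_apply, LinearMap.sub_apply, LinearMap.smul_apply,
        Module.End.one_apply, LinearMap.zero_apply, Pi.sub_apply, Pi.smul_apply, Pi.single_eq_same,
        Pi.zero_apply, smul_eq_mul, mul_one] at h4
      have h5 : (c - 1) * (c - 1) = 0 := by linear_combination h4
      rw [hc, sub_eq_zero.mp (mul_self_eq_zero.mp h5), one_smul]
    · by_cases hqp : q = p
      · subst hqp
        refine map_inertia_eq_one_of_one_place μ hAP hq (fun σ hσ => ?_) hA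
        rw [hone]
        obtain ⟨c, hc⟩ := hscalar σ
        obtain ⟨v, hv0, hv⟩ := hmult
        have h := hv σ hσ
        rw [hc, LinearMap.smul_apply, Module.End.one_apply] at h
        rw [hc, smul_left_injective E hv0 h]
      · intro σ hσ
        rw [hone, hχ q hq hqp A hA σ hσ, map_one, one_smul]
        exact D.end_ext i fun x => by
          rw [← D.coord_smul, hΛ q hq hqp hqN A hA σ hσ, Module.End.one_apply]
  have hadic : GaloisActionIsAdicContinuous ℤ_[p] μ := by
    intro r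
    obtain ⟨L, hL, hfix⟩ := hcont r
    refine ⟨L, hL, fun σ hσ v => ?_⟩
    obtain ⟨x, hx⟩ := v.2
    obtain ⟨y, hy⟩ := (hfix σ hσ).1 x
    have hσ' : ∀ z ∈ L, σ⁻¹ z = z := fun z hz => by
      conv_lhs => rw [← hσ z hz]
      exact σ.symm_apply_apply z
    obtain ⟨k, hk⟩ := (hfix σ⁻¹ hσ').2
    have hdiff : μ σ v - v =
        (p : ℤ_[p]) ^ r • (⟨ci (χ₀ σ⁻¹ • y + k • x), LinearMap.mem_range_self _ _⟩ : V) := by
      refine Subtype.ext ?_
      show f σ (v : Fin 2 → E) - v = (p : ℤ_[p]) ^ r • ci (χ₀ σ⁻¹ • y + k • x)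
      rw [← hx, hf, ← map_sub, ← map_smul, smul_add, smul_comm _ (χ₀ σ⁻¹) y,
        show (p : ℤ_[p]) ^ r • y = σ • x - x by rw [hy, ← Nat.cast_pow, Nat.cast_smul_eq_nsmul],
        smul_smul, ← hk, sub_smul, one_smul, smul_sub]
      congr 1
      abel
    rw [hdiff]
    refine Submodule.smul_mem_smul (Ideal.pow_mem_pow ?_ r) Submodule.mem_top
    rw [PadicInt.maximalIdeal_eq_span_p]
    exact Ideal.mem_span_singleton_self _
  have : Module.Finite ℤ_[p] V := Module.Finite.range ci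
  exact (hone g).mp (DFunLike.congr_fun (adic_eq_one_of_inertia μ hadic hI) g)

/-- A cyclotomic scalar component has Eisenstein eigenvalue `q + 1`. -/
theorem theta_eq_succ_of_rho_eq_chi [CharZero E] (D : EigenData GalQ act E)
    (χ₀ : GalQ →* ℤ_[p]) {q : ℕ} (hq : q ≠ 0) {φ : GalQ} {t : T} (hφ : χ₀ φ = q)
    (hrel : ∀ x : Λ, φ • φ • x - act t (φ • x) + q • x = 0) (i : D.ι)
    (hρ : D.ρ i φ = algebraMap ℤ_[p] E (χ₀ φ) • (1 : Module.End E (Fin 2 → E))) :
    D.θ i t = (q : E) + 1 := by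
  rw [hφ, map_natCast] at hρ
  have hq' : (q : E) ≠ 0 := Nat.cast_ne_zero.mpr hq
  have h : ((q : E) * q - D.θ i t * q + q) • (1 : Module.End E (Fin 2 → E)) = 0 := by
    refine D.end_ext i fun x => ?_
    have h1 := congrFun (congrArg D.coord (hrel x)) i
    simp only [map_add, map_sub, map_nsmul, map_zero, Pi.add_apply, Pi.sub_apply, Pi.smul_apply,
      Pi.zero_apply, D.coord_act, D.coord_smul, hρ, LinearMap.smul_apply,
      Module.End.one_apply] at h1
    rw [LinearMap.smul_apply, Module.End.one_apply, LinearMap.zero_apply, add_smul, sub_smul,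
      mul_smul, mul_smul, Nat.cast_smul_eq_nsmul E q (D.coord x i)]
    simpa only [Nat.cast_smul_eq_nsmul] using h1
  have h2 := congrFun (LinearMap.congr_fun h (Pi.single 0 1)) 0
  simp at h2
  have h3 : (D.θ i t) * q = ((q : E) + 1) * q := by linear_combination -h2
  exact mul_right_cancel₀ hq' h3

end Fermat.Agent.EisensteinDescent
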