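import Mathlib.RingTheory.RamificationInertia.Ramification
import Mathlib.NumberTheory.RamificationInertia.Galois
import Mathlib.FieldTheory.Normal.Closure
import Fermat.Agent.GlobalUnits.Places

/-!
# Valuations of elements fixed by inertia

An element of `ℚ̄` fixed by the inertia group of a place over `q` has the valuation of a power
of `q`.
-/


open scoped Pointwise NumberField
open IsDedekindDomain Fermat.Agent.GaloisBasics Fermat.Agent.GlobalUnits

namespace Fermat.Agent.EisensteinDescent

variable {A : ValuationSubring Qbar} {q : ℕ}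

/-- If inertia at `A` fixes the number field `M`, then `q` generates the maximal ideal of `M`
at the place below `A`. -/
theorem ramificationIdx_eq_one_of_inertia_le (hA : A.LiesOverPrime q) (hq : q.Prime)
    (M : IntermediateField ℚ Qbar) [FiniteDimensional ℚ M]
    (hM : A.inertiaSubgroupIn ℚ ≤ M.fixingSubgroup) :
    (intIdeal M A).ramificationIdx ℤ = 1 := by
  let K : IntermediateField ℚ Qbar := IntermediateField.normalClosure ℚ M Qbar
  have : FiniteDimensional ℚ K := normalClosure.is_finiteDimensional ℚ M Qbar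
  have : IsGalois ℚ K := IsGalois.normalClosure ℚ M Qbar
  have hMK : M ≤ K := M.le_normalClosure
  let : Algebra M K := (IntermediateField.inclusion hMK).toRingHom.toAlgebra
  have : IsScalarTower ℚ M K := IsScalarTower.of_algebraMap_eq fun x ↦ rfl
  have : FiniteDimensional M K := FiniteDimensional.right ℚ M K
  have : IsGalois M K := IsGalois.tower_top_of_isGalois ℚ M K
  set P := intIdeal K A with hP
  set P' := intIdeal M A with hP'
  have := intIdeal_isMaximal K hA hq
  have := intIdeal_isMaximal M hA hq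
  have hlie : P.LiesOver P' := ⟨by
    ext a
    rw [Ideal.mem_comap, hP, hP', mem_intIdeal, mem_intIdeal]
    rfl⟩
  have : IsGaloisGroup (K ≃ₐ[ℚ] K) ℤ (𝓞 K) := IsGaloisGroup.of_isFractionRing _ _ _ ℚ K
  have : IsGaloisGroup (K ≃ₐ[M] K) (𝓞 M) (𝓞 K) := IsGaloisGroup.of_isFractionRing _ _ _ M K
  -- the inertia group of `P` consists of `M`-linear automorphisms
  have hlin : ∀ σ ∈ P.inertia (K ≃ₐ[ℚ] K), ∀ m : M, σ (algebraMap M K m) = algebraMap M K m := by
    intro σ hσ m
    rw [hP, ← map_inertiaSubgroupIn K hA hq] at hσ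
    obtain ⟨g, hg, rfl⟩ := hσ
    apply Subtype.ext
    rw [coe_restrictK_apply]
    exact (IntermediateField.mem_fixingSubgroup_iff M g).mp (hM hg) m m.2
  have hcard : Nat.card (P.inertia (K ≃ₐ[M] K)) = Nat.card (P.inertia (K ≃ₐ[ℚ] K)) :=
    Nat.card_congr
      { toFun := fun σ ↦ ⟨σ.1.restrictScalars ℚ, fun x ↦ σ.2 x⟩
        invFun := fun σ ↦ ⟨AlgEquiv.ofRingEquiv (f := σ.1.toRingEquiv) (hlin σ.1 σ.2),
          fun x ↦ σ.2 x⟩
        left_inv := fun σ ↦ Subtype.ext (AlgEquiv.ext fun _ ↦ rfl)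
        right_inv := fun σ ↦ Subtype.ext (AlgEquiv.ext fun _ ↦ rfl) }
  rw [Ideal.card_inertia_eq_ramificationIdxIn P' P, Ideal.card_inertia_eq_ramificationIdxIn
      (P.under ℤ) P, Ideal.ramificationIdxIn_eq_ramificationIdx P' P (K ≃ₐ[M] K),
    Ideal.ramificationIdxIn_eq_ramificationIdx (P.under ℤ) P (K ≃ₐ[ℚ] K),
    Ideal.ramificationIdx_tower (R := ℤ) P' P] at hcard
  exact (Nat.eq_of_mul_eq_mul_right (Ideal.ramificationIdx_pos P (𝓞 M))
    ((one_mul _).trans hcard)).symm

/-- An element fixed by inertia has the valuation of a power of the prime below. -/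
theorem exists_valuation_eq_zpow_of_fixed (hA : A.LiesOverPrime q) (hq : q.Prime) {x : Qbar}
    (hx0 : x ≠ 0) (hx : ∀ σ ∈ A.inertiaSubgroupIn ℚ, σ x = x) :
    ∃ j : ℤ, A.valuation x = A.valuation (q : Qbar) ^ j := by
  let M : IntermediateField ℚ Qbar := IntermediateField.adjoin ℚ {x}
  have : FiniteDimensional ℚ M :=
    IntermediateField.adjoin.finiteDimensional (Algebra.IsIntegral.isIntegral x)
  have hM : A.inertiaSubgroupIn ℚ ≤ M.fixingSubgroup := fun σ hσ ↦ by
    have : IntermediateField.adjoin ℚ {x} ≤ IntermediateField.fixedField (Subgroup.zpowers σ) := by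
      rw [IntermediateField.adjoin_simple_le_iff, IntermediateField.mem_fixedField_iff]
      intro g hg
      have : Subgroup.zpowers σ ≤ MulAction.stabilizer GalQ x := by
        rw [Subgroup.zpowers_le, MulAction.mem_stabilizer_iff]
        exact hx σ hσ
      exact this hg
    rw [IntermediateField.mem_fixingSubgroup_iff]
    intro y hy
    exact (IntermediateField.mem_fixedField_iff _ y).mp (this hy) σ (Subgroup.mem_zpowers σ)
  have hram := ramificationIdx_eq_one_of_inertia_le hA hq M hM
  have := intIdeal_isMaximal M hA hq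
  set v := placeBelow M hA hq with hv
  have : (intIdeal M A).LiesOver (Ideal.span {(q : ℤ)}) :=
    ⟨(under_int_intIdeal M hA hq).symm⟩
  have hq0 : (Ideal.span {(q : ℤ)}).map (algebraMap ℤ (𝓞 M)) ≠ ⊥ := by
    simpa [Ideal.map_span] using hq.ne_zero
  rw [Ideal.IsDedekindDomain.ramificationIdx_eq_multiplicity (Ideal.span {(q : ℤ)}) _ hq0] at hram
  have hsq : (q : 𝓞 M) ∉ intIdeal M A ^ 2 := fun h ↦ by
    have hfin : FiniteMultiplicity (intIdeal M A)
        ((Ideal.span {(q : ℤ)}).map (algebraMap ℤ (𝓞 M))) :=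
      FiniteMultiplicity.of_prime_left (Ideal.prime_of_isPrime
        (intIdeal_ne_bot M hA hq) inferInstance) hq0
    have h2 : intIdeal M A ^ 2 ∣ (Ideal.span {(q : ℤ)}).map (algebraMap ℤ (𝓞 M)) := by
      rw [Ideal.dvd_iff_le, Ideal.map_span, Set.image_singleton, map_natCast, Ideal.span_le,
        Set.singleton_subset_iff]
      exact h
    have := hfin.le_multiplicity_of_pow_dvd h2
    omega
  have hqM : (q : M) ≠ 0 := Nat.cast_ne_zero.2 hq.ne_zero
  have hone : ord v (Additive.ofMul (Units.mk0 (q : M) hqM)) = 1 := by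
    have h1 := valuation_eq_exp_neg_ord v (Units.mk0 (q : M) hqM)
    rw [Units.val_mk0] at h1
    have h0 : v.valuation M (q : M) = v.intValuation (q : 𝓞 M) := by
      have h := HeightOneSpectrum.valuation_of_algebraMap (K := M) v (q : 𝓞 M)
      simpa using h
    rw [h0] at h1
    have hle : v.intValuation (q : 𝓞 M) ≤ WithZero.exp (-((1 : ℕ) : ℤ)) :=
      (HeightOneSpectrum.intValuation_le_pow_iff_mem v _ 1).2
        (by rw [pow_one]; exact natCast_mem_intIdeal M hA)
    have hnle : ¬ v.intValuation (q : 𝓞 M) ≤ WithZero.exp (-((2 : ℕ) : ℤ)) := fun h ↦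
      hsq ((HeightOneSpectrum.intValuation_le_pow_iff_mem v _ 2).1 h)
    rw [h1, WithZero.exp_le_exp] at hle hnle
    omega
  have hxM : x ∈ M := IntermediateField.mem_adjoin_simple_self ℚ x
  have hx' : (⟨x, hxM⟩ : M) ≠ 0 := fun h ↦ hx0 (congrArg Subtype.val h)
  refine ⟨ord v (Additive.ofMul (Units.mk0 _ hx')), ?_⟩
  have key := (ord_eq_iff M hA hq (Units.mk0 _ hx')
    (Units.mk0 (q : M) hqM ^ ord v (Additive.ofMul (Units.mk0 _ hx')))).1 (by
      rw [ofMul_zpow, map_zsmul, hone, smul_eq_mul, mul_one])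
  rw [Units.val_mk0, Units.val_zpow_eq_zpow_val, Units.val_mk0] at key
  have hc : (((q : M) ^ ord v (Additive.ofMul (Units.mk0 _ hx')) : M) : Qbar) =
      (q : Qbar) ^ ord v (Additive.ofMul (Units.mk0 _ hx')) := by
    exact map_zpow₀ M.val _ _ |>.trans (by rw [map_natCast])
  rw [hc, map_zpow₀] at key
  exact key

end Fermat.Agent.EisensteinDescent
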