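import Mathlib.GroupTheory.QuotientGroup.Finite
import Mathlib.GroupTheory.Coset.Card
import Mathlib.Data.ZMod.QuotientGroup
import Mathlib.GroupTheory.Divisible
import Mathlib.Algebra.Module.Injective
import Mathlib.Algebra.Category.Grp.Injective

/-!
# An abstract counting argument for Eisenstein descent

`Sys Γ D` packages local data: a family of inertia groups at which classes are unramified,
the inertia groups at the level `N` and at the residue characteristic `p`, and a module of
units inside a divisible module `D`, playing the role of the units of the `p`-adic place inside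
the multiplicative group of `ℚ̄`.

For a finite module `M` with a submodule `Mm` (the multiplicative part at `p`), `Rel` is the group
of pairs `(c, m)`: a cocycle with the local conditions, with a trivialisation `m` on inertia at
`N`, and `Coh` is its quotient by coboundaries. The main results are the half exactness of `Coh`
and the resulting bound for the group of classes with the local conditions.
-/

namespace Fermat.Agent.EisensteinDescent

/-- Local data for descent. -/
structure Sys (Γ : Type*) (D : Type*) [Group Γ] [AddCommGroup D] [DistribMulAction Γ D] where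
  /-- "finite level" subgroups. -/
  fin : Set (Subgroup Γ)
  fin_inter : ∀ H ∈ fin, ∀ H' ∈ fin, ∃ H'' ∈ fin, H'' ≤ H ∧ H'' ≤ H'
  fin_nonempty : fin.Nonempty
  /-- inertia groups at which classes are unramified. -/
  unram : Set (Subgroup Γ)
  /-- inertia group at `N`. -/
  atN : Subgroup Γ
  /-- inertia group at `p`. -/
  atP : Subgroup Γ
  /-- units at `p`. -/
  units : AddSubgroup D

variable {Γ D : Type*} [Group Γ] [AddCommGroup D] [DistribMulAction Γ D]

namespace Sys

variable (S : Sys Γ D) {M : Type*} [AddCommGroup M] [DistribMulAction Γ M]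

/-- `c` restricted to inertia at `p` is a unit Kummer class in the multiplicative part. -/
def PCond (Mm : AddSubgroup M) (c : Γ → M) : Prop :=
  ∃ h : ∀ σ ∈ S.atP, c σ ∈ Mm, ∀ φ : Mm →+ D, ∃ u ∈ S.units,
    ∀ σ, ∀ hσ : σ ∈ S.atP, φ ⟨c σ, h σ hσ⟩ = σ • u - u

/-- The cocycle and local conditions, with a trivialisation on inertia at `N`. -/
structure IsRel (Mm : AddSubgroup M) (x : (Γ → M) × M) : Prop where
  cocycle : ∀ σ τ, x.1 (σ * τ) = x.1 σ + σ • x.1 τ
  continuous : ∃ H ∈ S.fin, ∀ σ ∈ H, x.1 σ = 0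
  unramified : ∀ I ∈ S.unram, ∀ σ ∈ I, x.1 σ = 0
  pCond : S.PCond Mm x.1
  atN : ∀ σ ∈ S.atN, x.1 σ = σ • x.2 - x.2

omit [DistribMulAction Γ M] in
/-- The zero cochain satisfies the condition at `p`. -/
theorem pCond_zero (Mm : AddSubgroup M) : S.PCond Mm (0 : Γ → M) :=
  ⟨fun σ _ ↦ Mm.zero_mem, fun φ ↦ ⟨0, S.units.zero_mem, fun σ _ ↦ by
    rw [smul_zero, sub_zero]
    exact map_zero φ⟩⟩

omit [DistribMulAction Γ M] in
/-- The condition at `p` is closed under sums. -/
theorem PCond.add {Mm : AddSubgroup M} {c c' : Γ → M} (hc : S.PCond Mm c)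
    (hc' : S.PCond Mm c') : S.PCond Mm (c + c') := by
  obtain ⟨h, hc⟩ := hc
  obtain ⟨h', hc'⟩ := hc'
  refine ⟨fun σ hσ ↦ Mm.add_mem (h σ hσ) (h' σ hσ), fun φ ↦ ?_⟩
  obtain ⟨u, hu, hu'⟩ := hc φ
  obtain ⟨v, hv, hv'⟩ := hc' φ
  refine ⟨u + v, S.units.add_mem hu hv, fun σ hσ ↦ ?_⟩
  rw [show (⟨(c + c') σ, Mm.add_mem (h σ hσ) (h' σ hσ)⟩ : Mm) = ⟨c σ, h σ hσ⟩ + ⟨c' σ, h' σ hσ⟩
    from rfl, map_add, hu' σ hσ, hv' σ hσ, smul_add]
  abel

omit [DistribMulAction Γ M] in
/-- The condition at `p` is closed under negation. -/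
theorem PCond.neg {Mm : AddSubgroup M} {c : Γ → M} (hc : S.PCond Mm c) :
    S.PCond Mm (-c) := by
  obtain ⟨h, hc⟩ := hc
  refine ⟨fun σ hσ ↦ Mm.neg_mem (h σ hσ), fun φ ↦ ?_⟩
  obtain ⟨u, hu, hu'⟩ := hc φ
  refine ⟨-u, S.units.neg_mem hu, fun σ hσ ↦ ?_⟩
  rw [show (⟨(-c) σ, Mm.neg_mem (h σ hσ)⟩ : Mm) = -⟨c σ, h σ hσ⟩ from rfl, map_neg, hu' σ hσ,
    smul_neg]
  abel

/-- The group of pairs with the local conditions. -/
def Rel (Mm : AddSubgroup M) : AddSubgroup ((Γ → M) × M) where
  carrier := {x | S.IsRel Mm x}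
  zero_mem' :=
    { cocycle := fun σ τ ↦ by simp
      continuous := let ⟨H, hH⟩ := S.fin_nonempty; ⟨H, hH, fun _ _ ↦ rfl⟩
      unramified := fun _ _ _ _ ↦ rfl
      pCond := S.pCond_zero Mm
      atN := fun σ _ ↦ by simp }
  add_mem' := fun {x y} hx hy ↦
    { cocycle := fun σ τ ↦ by
        simp only [Prod.fst_add, Pi.add_apply, hx.cocycle, hy.cocycle, smul_add]
        abel
      continuous := by
        obtain ⟨H, hH, hx'⟩ := hx.continuous
        obtain ⟨H', hH', hy'⟩ := hy.continuous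
        obtain ⟨K, hK, h1, h2⟩ := S.fin_inter H hH H' hH'
        exact ⟨K, hK, fun σ hσ ↦ by simp [hx' σ (h1 hσ), hy' σ (h2 hσ)]⟩
      unramified := fun I hI σ hσ ↦ by
        simp [hx.unramified I hI σ hσ, hy.unramified I hI σ hσ]
      pCond := PCond.add S hx.pCond hy.pCond
      atN := fun σ hσ ↦ by
        simp only [Prod.fst_add, Prod.snd_add, Pi.add_apply, hx.atN σ hσ, hy.atN σ hσ, smul_add]
        abel }
  neg_mem' := fun {x} hx ↦
    { cocycle := fun σ τ ↦ by
        simp only [Prod.fst_neg, Pi.neg_apply, hx.cocycle, smul_neg]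
        abel
      continuous := by
        obtain ⟨H, hH, hx'⟩ := hx.continuous
        exact ⟨H, hH, fun σ hσ ↦ by simp [hx' σ hσ]⟩
      unramified := fun I hI σ hσ ↦ by simp [hx.unramified I hI σ hσ]
      pCond := PCond.neg S hx.pCond
      atN := fun σ hσ ↦ by
        simp only [Prod.fst_neg, Prod.snd_neg, Pi.neg_apply, hx.atN σ hσ, smul_neg]
        abel }

/-- Coboundaries. -/
def cobound : M →+ (Γ → M) × M where
  toFun v := (fun σ ↦ σ • v - v, v)
  map_zero' := by simp [Prod.ext_iff, funext_iff]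
  map_add' v w := by
    refine Prod.ext (funext fun σ ↦ ?_) rfl
    simp only [Prod.fst_add, Pi.add_apply, smul_add]
    abel

@[simp] theorem cobound_fst (v : M) (σ : Γ) : (cobound v : (Γ → M) × M).1 σ = σ • v - v := rfl
@[simp] theorem cobound_snd (v : M) : (cobound v : (Γ → M) × M).2 = v := rfl

/-- The hypotheses on a module: it is unramified, its local structure at `p` is the extension of
an unramified module by a multiplicative one and is flat. -/
structure IsGood (Mm : AddSubgroup M) : Prop where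
  unram_trivial : ∀ I ∈ S.unram, ∀ σ ∈ I, ∀ x : M, σ • x = x
  smooth : ∀ x : M, ∃ H ∈ S.fin, ∀ σ ∈ H, σ • x = x
  mem_of_atP : ∀ σ ∈ S.atP, ∀ x : M, σ • x - x ∈ Mm
  equivariant : ∀ σ ∈ S.atP, ∀ (φ : Mm →+ D) (x : M) (hx : x ∈ Mm) (hx' : σ • x ∈ Mm),
    φ ⟨σ • x, hx'⟩ = σ • φ ⟨x, hx⟩
  flat : ∀ v : M, S.PCond Mm fun σ ↦ σ • v - v

variable {S} in
/-- Coboundaries satisfy the local conditions. -/
theorem IsGood.cobound_mem {Mm : AddSubgroup M} (hM : S.IsGood Mm) (v : M) :
    cobound v ∈ S.Rel Mm :=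
  { cocycle := fun σ τ ↦ by
      simp only [cobound_fst, mul_smul, smul_sub]
      abel
    continuous := by
      obtain ⟨H, hH, h⟩ := hM.smooth v
      exact ⟨H, hH, fun σ hσ ↦ by simp [h σ hσ]⟩
    unramified := fun I hI σ hσ ↦ by simp [hM.unram_trivial I hI σ hσ]
    pCond := hM.flat v
    atN := fun σ _ ↦ rfl }

/-- Classes of pairs. -/
abbrev Coh (Mm : AddSubgroup M) : Type _ :=
  S.Rel Mm ⧸ (cobound (Γ := Γ) (M := M)).range.addSubgroupOf (S.Rel Mm)

section Exact

variable {S}
variable {M' M'' : Type*} [AddCommGroup M'] [DistribMulAction Γ M'] [AddCommGroup M'']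
  [DistribMulAction Γ M''] {Mm : AddSubgroup M}

omit [DistribMulAction Γ M] [DistribMulAction Γ M''] in
/-- The condition at `p` is preserved by homomorphisms. -/
theorem PCond.map (π : M →+ M'') {c : Γ → M} (hc : S.PCond Mm c) :
    S.PCond (Mm.map π) (π ∘ c) := by
  obtain ⟨h, hc⟩ := hc
  refine ⟨fun σ hσ ↦ ⟨c σ, h σ hσ, rfl⟩, fun φ ↦ ?_⟩
  let r : Mm →+ Mm.map π :=
    (π.comp Mm.subtype).codRestrict _ fun x ↦ ⟨x, x.2, rfl⟩
  obtain ⟨u, hu, hu'⟩ := hc (φ.comp r)
  exact ⟨u, hu, fun σ hσ ↦ hu' σ hσ⟩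

/-- Homomorphisms into a divisible group extend from subgroups. -/
theorem exists_extend [DivisibleBy D ℤ] {A B : Type*} [AddCommGroup A] [AddCommGroup B]
    (ι : A →+ B) (hι : Function.Injective ι) (f : A →+ D) :
    ∃ g : B →+ D, ∀ a, g (ι a) = f a := by
  obtain ⟨g, hg⟩ := (Module.Baer.of_divisible D).extension_property_addMonoidHom ι hι f
  exact ⟨g, fun a ↦ DFunLike.congr_fun hg a⟩

omit [DistribMulAction Γ M] [DistribMulAction Γ M'] in
/-- The condition at `p` descends along injective maps. -/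
theorem PCond.comap [DivisibleBy D ℤ] (i : M' →+ M) (hi : Function.Injective i) {c : Γ → M'}
    (hc : S.PCond Mm (i ∘ c)) : S.PCond (Mm.comap i) c := by
  obtain ⟨h, hc⟩ := hc
  refine ⟨h, fun φ ↦ ?_⟩
  let r : Mm.comap i →+ Mm := (i.comp (Mm.comap i).subtype).codRestrict _ fun x ↦ x.2
  have hr : Function.Injective r := fun a b hab ↦
    Subtype.ext (hi (congrArg Subtype.val hab))
  obtain ⟨g, hg⟩ := exists_extend r hr φ
  obtain ⟨u, hu, hu'⟩ := hc g
  exact ⟨u, hu, fun σ hσ ↦ (hg ⟨c σ, h σ hσ⟩).symm.trans (hu' σ hσ)⟩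

/-- Quotients of good modules are good. -/
theorem IsGood.map (hM : S.IsGood Mm) (π : M →+[Γ] M'') (hπ : Function.Surjective π) :
    S.IsGood (Mm.map π.toAddMonoidHom) where
  unram_trivial I hI σ hσ y := by
    obtain ⟨x, rfl⟩ := hπ y
    rw [← map_smul, hM.unram_trivial I hI σ hσ x]
  smooth y := by
    obtain ⟨x, rfl⟩ := hπ y
    obtain ⟨H, hH, h⟩ := hM.smooth x
    exact ⟨H, hH, fun σ hσ ↦ by rw [← map_smul, h σ hσ]⟩
  mem_of_atP σ hσ y := by
    obtain ⟨x, rfl⟩ := hπ y
    exact ⟨σ • x - x, hM.mem_of_atP σ hσ x, by simp [map_sub, map_smul]⟩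
  equivariant σ hσ φ y hy hy' := by
    obtain ⟨x, hx, rfl⟩ := hy
    have hx' : σ • x ∈ Mm := by
      simpa using Mm.add_mem (hM.mem_of_atP σ hσ x) hx
    let r : Mm →+ Mm.map π.toAddMonoidHom :=
      (π.toAddMonoidHom.comp Mm.subtype).codRestrict _ fun x ↦ ⟨x, x.2, rfl⟩
    have := hM.equivariant σ hσ (φ.comp r) x hx hx'
    refine Eq.trans ?_ this
    show _ = φ (r ⟨σ • x, hx'⟩)
    congr 1
    exact Subtype.ext (map_smul π σ x).symm
  flat y := by
    obtain ⟨x, rfl⟩ := hπ y
    have := (hM.flat x).map π.toAddMonoidHom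
    convert this using 1
    funext σ
    simp [map_sub, map_smul]

/-- Submodules of good modules are good. -/
theorem IsGood.comap [DivisibleBy D ℤ] (hM : S.IsGood Mm) (i : M' →+[Γ] M)
    (hi : Function.Injective i) : S.IsGood (Mm.comap i.toAddMonoidHom) where
  unram_trivial I hI σ hσ x := hi (by rw [map_smul, hM.unram_trivial I hI σ hσ])
  smooth x := by
    obtain ⟨H, hH, h⟩ := hM.smooth (i x)
    exact ⟨H, hH, fun σ hσ ↦ hi (by rw [map_smul, h σ hσ])⟩
  mem_of_atP σ hσ x := by
    show i (σ • x - x) ∈ Mm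
    rw [map_sub, map_smul]
    exact hM.mem_of_atP σ hσ _
  equivariant σ hσ φ x hx hx' := by
    let r : Mm.comap i.toAddMonoidHom →+ Mm :=
      (i.toAddMonoidHom.comp (Mm.comap _).subtype).codRestrict _ fun x ↦ x.2
    have hr : Function.Injective r := fun a b hab ↦
      Subtype.ext (hi (congrArg Subtype.val hab))
    obtain ⟨g, hg⟩ := exists_extend r hr φ
    rw [← hg, ← hg]
    have hx'' : σ • i x ∈ Mm := (map_smul i σ x) ▸ hx'
    refine Eq.trans ?_ (hM.equivariant σ hσ g (i x) hx hx'')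
    congr 1
    exact Subtype.ext (map_smul i σ x)
  flat v := by
    refine PCond.comap i.toAddMonoidHom hi ?_
    convert hM.flat (i v) using 1
    funext σ
    simp [map_sub, map_smul]

/-- The pushforward of pairs. -/
def pairMap (π : M →+ M'') : (Γ → M) × M →+ (Γ → M'') × M'' :=
  (AddMonoidHom.compLeft π Γ).prodMap π

/-- Pairs with the local conditions push forward. -/
theorem isRel_map (π : M →+[Γ] M'') {x : (Γ → M) × M} (hx : S.IsRel Mm x) :
    S.IsRel (Mm.map π.toAddMonoidHom) (pairMap π.toAddMonoidHom x) where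
  cocycle σ τ := by simp [pairMap, hx.cocycle, map_add, map_smul]
  continuous := by
    obtain ⟨H, hH, h⟩ := hx.continuous
    exact ⟨H, hH, fun σ hσ ↦ by simp [pairMap, h σ hσ]⟩
  unramified I hI σ hσ := by simp [pairMap, hx.unramified I hI σ hσ]
  pCond := hx.pCond.map _
  atN σ hσ := by simp [pairMap, hx.atN σ hσ, map_sub, map_smul]

/-- Pairs with the local conditions restrict along injective maps. -/
theorem isRel_comap [DivisibleBy D ℤ] (i : M' →+[Γ] M) (hi : Function.Injective i)
    {y : (Γ → M') × M'} (hy : S.IsRel Mm (pairMap i.toAddMonoidHom y)) :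
    S.IsRel (Mm.comap i.toAddMonoidHom) y where
  cocycle σ τ := hi (by simpa [pairMap, map_add, map_smul] using hy.cocycle σ τ)
  continuous := by
    obtain ⟨H, hH, h⟩ := hy.continuous
    exact ⟨H, hH, fun σ hσ ↦ hi (by simpa [pairMap] using h σ hσ)⟩
  unramified I hI σ hσ := hi (by simpa [pairMap] using hy.unramified I hI σ hσ)
  pCond := PCond.comap i.toAddMonoidHom hi hy.pCond
  atN σ hσ := hi (by simpa [pairMap, map_sub, map_smul] using hy.atN σ hσ)

/-- Half exactness: the bound multiplies along a short exact sequence. -/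
theorem finite_coh_and_card_le [DivisibleBy D ℤ] (hM : S.IsGood Mm) (i : M' →+[Γ] M)
    (π : M →+[Γ] M'') (hi : Function.Injective i) (hπ : Function.Surjective π)
    (hexact : ∀ x, π x = 0 ↔ x ∈ Set.range i)
    [Finite (S.Coh (Mm.comap i.toAddMonoidHom))]
    [Finite (S.Coh (Mm.map π.toAddMonoidHom))] :
    Finite (S.Coh Mm) ∧
      Nat.card (S.Coh Mm) ≤
        Nat.card (S.Coh (Mm.comap i.toAddMonoidHom)) *
          Nat.card (S.Coh (Mm.map π.toAddMonoidHom)) := by
  classical
  let P : S.Rel Mm →+ S.Coh (Mm.map π.toAddMonoidHom) :=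
    (QuotientAddGroup.mk' _).comp
      (((pairMap π.toAddMonoidHom).domRestrict _).codRestrict _ fun x ↦ isRel_map π x.2)
  set B := (cobound (Γ := Γ) (M := M)).range.addSubgroupOf (S.Rel Mm)
  have hB : B ≤ P.ker := by
    rintro x ⟨v, hv⟩
    refine (QuotientAddGroup.eq_zero_iff _).mpr ⟨π v, ?_⟩
    show cobound (π v) = pairMap π.toAddMonoidHom (x : (Γ → M) × M)
    rw [show (x : (Γ → M) × M) = cobound v from hv.symm]
    refine Prod.ext (funext fun σ ↦ ?_) rfl
    simp [pairMap, map_sub, map_smul]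
  let g : S.Coh Mm →+ S.Coh (Mm.map π.toAddMonoidHom) := QuotientAddGroup.lift B P hB
  have key : ∀ z : g.ker, ∃ y : S.Rel (Mm.comap i.toAddMonoidHom),
      ∃ hy : pairMap i.toAddMonoidHom y.1 ∈ S.Rel Mm,
        (QuotientAddGroup.mk (⟨_, hy⟩ : S.Rel Mm) : S.Coh Mm) = z.1 := by
    rintro ⟨z, hz⟩
    induction z using QuotientAddGroup.induction_on with
    | H x =>
      obtain ⟨v'', hv⟩ := (QuotientAddGroup.eq_zero_iff _).mp (show P x = 0 from hz)
      change cobound v'' = pairMap π.toAddMonoidHom (x : (Γ → M) × M) at hv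
      obtain ⟨v, rfl⟩ := hπ v''
      set x' : (Γ → M) × M := (x : (Γ → M) × M) - cobound v with hx'def
      have hx' : x' ∈ S.Rel Mm := (S.Rel Mm).sub_mem x.2 (hM.cobound_mem v)
      have h0 : pairMap π.toAddMonoidHom x' = 0 := by
        rw [hx'def, map_sub, ← hv, sub_eq_zero]
        refine Prod.ext (funext fun σ ↦ ?_) rfl
        simp [pairMap, map_sub, map_smul]
      have h1 : ∀ σ, x'.1 σ ∈ Set.range i := fun σ ↦
        (hexact _).mp (congrFun (congrArg Prod.fst h0) σ)
      have h2 : x'.2 ∈ Set.range i := (hexact _).mp (congrArg Prod.snd h0)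
      choose c hc using h1
      obtain ⟨m, hm⟩ := h2
      have hcm : pairMap i.toAddMonoidHom (c, m) = x' :=
        Prod.ext (funext hc) hm
      have hmem : pairMap i.toAddMonoidHom (c, m) ∈ S.Rel Mm := by rw [hcm]; exact hx'
      refine ⟨⟨(c, m), isRel_comap i hi hmem⟩, hmem, ?_⟩
      rw [QuotientAddGroup.eq]
      refine ⟨v, ?_⟩
      show cobound v = -pairMap i.toAddMonoidHom (c, m) + (x : (Γ → M) × M)
      rw [hcm, hx'def]
      abel
  choose y hy hyeq using key
  let f : g.ker → S.Coh (Mm.comap i.toAddMonoidHom) := fun z ↦ QuotientAddGroup.mk (y z)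
  have hf : Function.Injective f := by
    intro z w h
    obtain ⟨v, hv⟩ := QuotientAddGroup.eq.mp h
    change cobound v = -(y z).1 + (y w).1 at hv
    refine Subtype.ext ?_
    rw [← hyeq z, ← hyeq w, QuotientAddGroup.eq]
    refine ⟨i v, ?_⟩
    show cobound (i v) = -pairMap i.toAddMonoidHom (y z).1 + pairMap i.toAddMonoidHom (y w).1
    rw [← map_neg, ← map_add, ← hv]
    refine Prod.ext (funext fun σ ↦ ?_) rfl
    simp [pairMap, map_sub, map_smul]
  have : Finite g.ker := Finite.of_injective f hf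
  have : Finite g.range := inferInstance
  have : Finite (S.Coh Mm ⧸ g.ker) :=
    Finite.of_equiv _ (QuotientAddGroup.quotientKerEquivRange g).symm.toEquiv
  have hfin : Finite (S.Coh Mm) :=
    Finite.of_equiv _ (AddSubgroup.addGroupEquivQuotientProdAddSubgroup (s := g.ker)).symm
  refine ⟨hfin, ?_⟩
  rw [AddSubgroup.card_eq_card_quotient_mul_card_addSubgroup g.ker,
    Nat.card_congr (QuotientAddGroup.quotientKerEquivRange g).toEquiv, mul_comm]
  exact Nat.mul_le_mul (Nat.card_le_card_of_injective f hf)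
    (Nat.card_le_card_of_injective _ Subtype.val_injective)

end Exact

section Classes

variable {S} {Mm : AddSubgroup M}

/-- The fixed points of a subgroup. -/
def fixedBy (H : Subgroup Γ) (M : Type*) [AddCommGroup M] [DistribMulAction Γ M] :
    AddSubgroup M where
  carrier := {x | ∀ σ ∈ H, σ • x = x}
  zero_mem' σ _ := smul_zero σ
  add_mem' := fun {a b} ha hb σ hσ ↦ by rw [smul_add, ha σ hσ, hb σ hσ]
  neg_mem' := fun {a} ha σ hσ ↦ by rw [smul_neg, ha σ hσ]

/-- Cohomology classes of cocycles occurring in pairs. -/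
abbrev Classes (S : Sys Γ D) (Mm : AddSubgroup M) : Type _ :=
  ((S.Rel Mm).map (AddMonoidHom.fst (Γ → M) M)) ⧸
    ((AddMonoidHom.fst (Γ → M) M).comp (cobound (Γ := Γ) (M := M))).range.addSubgroupOf _

/-- The exact sequence `0 → M^Γ → M^{I_N} → Coh → Classes → 0`, as an inequality. -/
theorem card_classes_mul_le [Finite M] [Finite (S.Coh Mm)] :
    Finite (Classes S Mm) ∧
      Nat.card (Classes S Mm) * Nat.card (fixedBy S.atN M) ≤
        Nat.card (S.Coh Mm) * Nat.card (fixedBy (⊤ : Subgroup Γ) M) := by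
  classical
  set B := (cobound (Γ := Γ) (M := M)).range.addSubgroupOf (S.Rel Mm)
  let P : S.Rel Mm →+ Classes S Mm :=
    (QuotientAddGroup.mk' _).comp
      (((AddMonoidHom.fst (Γ → M) M).domRestrict _).codRestrict _ fun x ↦ ⟨x.1, x.2, rfl⟩)
  have hB : B ≤ P.ker := by
    rintro x ⟨v, hv⟩
    refine (QuotientAddGroup.eq_zero_iff _).mpr ⟨v, ?_⟩
    show (cobound v : (Γ → M) × M).1 = (x : (Γ → M) × M).1
    rw [hv]; rfl
  let g : S.Coh Mm →+ Classes S Mm := QuotientAddGroup.lift B P hB
  have hg : Function.Surjective g := by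
    intro z
    induction z using QuotientAddGroup.induction_on with
    | H w =>
      obtain ⟨c, hc⟩ := w
      obtain ⟨x, hx, rfl⟩ := hc
      exact ⟨QuotientAddGroup.mk (⟨x, hx⟩ : S.Rel Mm), rfl⟩
  have : Finite (Classes S Mm) := Finite.of_surjective g hg
  refine ⟨inferInstance, ?_⟩
  have hmem : ∀ m : fixedBy S.atN M, ((0 : Γ → M), (m : M)) ∈ S.Rel Mm := fun m ↦
    { cocycle := fun σ τ ↦ by simp
      continuous := let ⟨H, hH⟩ := S.fin_nonempty; ⟨H, hH, fun _ _ ↦ rfl⟩
      unramified := fun _ _ _ _ ↦ rfl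
      pCond := S.pCond_zero Mm
      atN := fun σ hσ ↦ by simp [m.2 σ hσ] }
  let h : fixedBy S.atN M →+ g.ker :=
    { toFun := fun m ↦ ⟨QuotientAddGroup.mk (⟨_, hmem m⟩ : S.Rel Mm),
        (QuotientAddGroup.eq_zero_iff _).mpr ⟨0, by
          show (cobound (0 : M) : (Γ → M) × M).1 = 0
          rw [map_zero]; rfl⟩⟩
      map_zero' := rfl
      map_add' := fun a b ↦ by
        refine Subtype.ext ?_
        show QuotientAddGroup.mk _ = QuotientAddGroup.mk _ + QuotientAddGroup.mk _
        rw [← QuotientAddGroup.mk_add]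
        congr 1
        exact Subtype.ext (Prod.ext (add_zero _).symm rfl) }
  have hker : Nat.card h.ker ≤ Nat.card (fixedBy (⊤ : Subgroup Γ) M) := by
    refine Nat.card_le_card_of_injective
      (fun m ↦ (⟨(m : M), fun σ _ ↦ ?_⟩ : fixedBy (⊤ : Subgroup Γ) M)) ?_
    · obtain ⟨v, hv⟩ := (QuotientAddGroup.eq_zero_iff _).mp (congrArg Subtype.val m.2)
      change cobound v = ((0 : Γ → M), ((m : fixedBy S.atN M) : M)) at hv
      have h2 : v = ((m : fixedBy S.atN M) : M) := congrArg Prod.snd hv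
      have h1 := congrFun (congrArg Prod.fst hv) σ
      rw [cobound_fst, h2] at h1
      exact sub_eq_zero.mp h1
    · intro a b hab
      exact Subtype.ext (Subtype.ext (congrArg Subtype.val hab :))
  have hle : Nat.card (fixedBy S.atN M) ≤
      Nat.card g.ker * Nat.card (fixedBy (⊤ : Subgroup Γ) M) := by
    rw [AddSubgroup.card_eq_card_quotient_mul_card_addSubgroup h.ker,
      Nat.card_congr (QuotientAddGroup.quotientKerEquivRange h).toEquiv]
    exact Nat.mul_le_mul (Nat.card_le_card_of_injective _ Subtype.val_injective) hker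
  calc Nat.card (Classes S Mm) * Nat.card (fixedBy S.atN M)
      ≤ Nat.card (Classes S Mm) * (Nat.card g.ker * Nat.card (fixedBy (⊤ : Subgroup Γ) M)) :=
        Nat.mul_le_mul_left _ hle
    _ = Nat.card (S.Coh Mm) * Nat.card (fixedBy (⊤ : Subgroup Γ) M) := by
        rw [AddSubgroup.card_eq_card_quotient_mul_card_addSubgroup g.ker,
          Nat.card_congr (QuotientAddGroup.quotientKerEquivOfSurjective g hg).toEquiv, mul_assoc]

end Classes

end Sys

end Fermat.Agent.EisensteinDescent
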