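import Mathlib.LinearAlgebra.LinearIndependent.Basic
import Mathlib.FieldTheory.IsAlgClosed.Basic
import Fermat.Agent.EisensteinDescent.Sys
import Fermat.Agent.EisensteinDescent.InertiaFixed

/-!
# The concrete descent data on the absolute Galois group of `ℚ`

The divisible module is `ℚ̄ˣ` written additively. We provide Hilbert 90 for a subgroup of the
Galois group and for cocycles of finite level.
-/


open scoped Pointwise
open Fermat.Agent.GaloisBasics

namespace Fermat.Agent.EisensteinDescent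

/-- The multiplicative group of `ℚ̄`, written additively. -/
abbrev Qmul : Type := Additive Qbarˣ

/-- The underlying algebraic number. -/
def qval (x : Qmul) : Qbar := ((Additive.toMul x : Qbarˣ) : Qbar)

/-- A nonzero algebraic number as an element of `Qmul`. -/
noncomputable def qmk (x : Qbar) (hx : x ≠ 0) : Qmul := Additive.ofMul (Units.mk0 x hx)

/-- The algebraic number underlying `qmk x hx` is `x`. -/
@[simp] theorem qval_qmk (x : Qbar) (hx : x ≠ 0) : qval (qmk x hx) = x := rfl

/-- The zero of `Qmul` is the number `1`. -/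
@[simp] theorem qval_zero : qval 0 = 1 := rfl
@[simp] theorem qval_add (x y : Qmul) : qval (x + y) = qval x * qval y := rfl
@[simp] theorem qval_neg (x : Qmul) : qval (-x) = (qval x)⁻¹ := Units.val_inv_eq_inv_val _

/-- Elements of `Qmul` are nonzero numbers. -/
theorem qval_ne_zero (x : Qmul) : qval x ≠ 0 := Units.ne_zero _

/-- Differences in `Qmul` are quotients of numbers. -/
@[simp] theorem qval_sub (x y : Qmul) : qval (x - y) = qval x / qval y := by
  rw [sub_eq_add_neg, qval_add, qval_neg, div_eq_mul_inv]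

/-- An element of `Qmul` is determined by its number. -/
theorem qval_injective : Function.Injective qval := fun _ _ h ↦
  Additive.toMul.injective (Units.ext h)

theorem qval_inj {x y : Qmul} : qval x = qval y ↔ x = y := qval_injective.eq_iff

/-- Multiples in `Qmul` are powers of numbers. -/
@[simp] theorem qval_nsmul (n : ℕ) (x : Qmul) : qval (n • x) = qval x ^ n :=
  Units.val_pow_eq_pow_val _ _

@[simp] theorem qval_zsmul (n : ℤ) (x : Qmul) : qval (n • x) = qval x ^ n :=
  Units.val_zpow_eq_zpow_val _ _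

/-- The Galois action on `ℚ̄ˣ`, written additively. -/
noncomputable instance qmulAction : DistribMulAction GalQ Qmul where
  smul σ x := Additive.ofMul (σ • Additive.toMul x)
  one_smul x := congrArg Additive.ofMul (one_smul GalQ (Additive.toMul x))
  mul_smul σ τ x := congrArg Additive.ofMul (mul_smul σ τ (Additive.toMul x))
  smul_zero σ := congrArg Additive.ofMul (smul_one σ)
  smul_add σ x y := congrArg Additive.ofMul (smul_mul' σ (Additive.toMul x) (Additive.toMul y))

/-- The Galois action on `Qmul` is the action on numbers. -/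
@[simp] theorem qval_smul (σ : GalQ) (x : Qmul) : qval (σ • x) = σ (qval x) := rfl

/-- The Kummer relation `y = σ x - x`, read on numbers. -/
theorem smul_sub_self_eq_iff {σ : GalQ} {x y : Qmul} :
    y = σ • x - x ↔ σ (qval x) = qval y * qval x := by
  rw [← qval_inj, qval_sub, qval_smul, eq_div_iff (qval_ne_zero x), eq_comm]

/-- `ℚ̄ˣ` is divisible. -/
noncomputable instance qmulDivisibleBy : DivisibleBy Qmul ℤ := by
  have h : ∀ {n : ℤ}, n ≠ 0 → Function.Surjective fun x : Qmul ↦ n • x := by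
    intro n hn y
    obtain ⟨z, hz⟩ := IsAlgClosed.exists_pow_nat_eq (qval y) (Int.natAbs_pos.2 hn)
    have hz0 : z ≠ 0 := by
      rintro rfl
      rw [zero_pow (Int.natAbs_ne_zero.2 hn)] at hz
      exact qval_ne_zero y hz.symm
    rcases Int.natAbs_eq n with h | h
    · exact ⟨qmk z hz0, qval_injective (by
        show qval (n • qmk z hz0) = qval y
        rw [qval_zsmul, qval_qmk, h, zpow_natCast, hz])⟩
    · exact ⟨-qmk z hz0, qval_injective (by
        show qval (n • -qmk z hz0) = qval y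
        rw [qval_zsmul, qval_neg, qval_qmk, h, zpow_neg, inv_zpow, inv_inv, zpow_natCast, hz])⟩
  exact divisibleByOfSMulRightSurj _ _ h

/-- The subgroups fixing a finite extension of `ℚ`. -/
def finLevels : Set (Subgroup GalQ) :=
  {H | ∃ L : IntermediateField ℚ Qbar, FiniteDimensional ℚ L ∧ L.fixingSubgroup = H}

/-- There is a subgroup of finite level. -/
theorem finLevels_nonempty : finLevels.Nonempty :=
  ⟨_, (⊥ : IntermediateField ℚ Qbar), inferInstance, rfl⟩

/-- Subgroups of finite level are directed downwards. -/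
theorem finLevels_inter {H H' : Subgroup GalQ} (hH : H ∈ finLevels) (hH' : H' ∈ finLevels) :
    ∃ H'' ∈ finLevels, H'' ≤ H ∧ H'' ≤ H' := by
  obtain ⟨L, hL, rfl⟩ := hH
  obtain ⟨L', hL', rfl⟩ := hH'
  exact ⟨_, ⟨L ⊔ L', inferInstance, rfl⟩, IntermediateField.fixingSubgroup_antitone le_sup_left,
    IntermediateField.fixingSubgroup_antitone le_sup_right⟩

/-- The valuation-one elements at a place. -/
def unitsAt (A : ValuationSubring Qbar) : AddSubgroup Qmul where
  carrier := {x | A.valuation (qval x) = 1}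
  zero_mem' := by simp
  add_mem' := by intro x y hx hy; simp_all
  neg_mem' := by intro x hx; simp_all

/-- Membership in the units at a place. -/
theorem mem_unitsAt {A : ValuationSubring Qbar} {x : Qmul} :
    x ∈ unitsAt A ↔ A.valuation (qval x) = 1 := Iff.rfl

/-- The descent data: classes are unramified outside `{p, N}`, with inertia groups at the chosen
places `AN`, `Ap`. -/
noncomputable def galSys (N p : ℕ) (AN Ap : ValuationSubring Qbar) : Sys GalQ Qmul where
  fin := finLevels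
  fin_inter _ hH _ hH' := finLevels_inter hH hH'
  fin_nonempty := finLevels_nonempty
  unram := {I | ∃ q : ℕ, q.Prime ∧ q ≠ p ∧ q ≠ N ∧
    ∃ A : ValuationSubring Qbar, A.LiesOverPrime q ∧ A.inertiaSubgroupIn ℚ = I}
  atN := AN.inertiaSubgroupIn ℚ
  atP := Ap.inertiaSubgroupIn ℚ
  units := unitsAt Ap

/-- Hilbert 90 for cocycles of finite level on a subgroup of the Galois group. -/
theorem exists_eq_smul_sub_of_cocycle (G : Subgroup GalQ) (c : GalQ → Qmul)
    (hc : ∀ σ ∈ G, ∀ τ ∈ G, c (σ * τ) = c σ + σ • c τ)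
    (hlev : ∃ H ∈ finLevels, ∀ σ ∈ G, σ ∈ H → c σ = 0) :
    ∃ x : Qmul, ∀ σ ∈ G, c σ = σ • x - x := by
  classical
  obtain ⟨H, ⟨F, hF, rfl⟩, hcF⟩ := hlev
  have := hF
  let rs : GalQ → (F →ₐ[ℚ] Qbar) := fun σ ↦ σ.toAlgHom.comp F.val
  let act : GalQ → (F →ₐ[ℚ] Qbar) → (F →ₐ[ℚ] Qbar) := fun σ h ↦ σ.toAlgHom.comp h
  let f : GalQ → Qbar := fun σ ↦ qval (c σ)
  have hf : ∀ σ ∈ G, ∀ τ ∈ G, f (σ * τ) = f σ * σ (f τ) := fun σ hσ τ hτ ↦ by
    show qval (c (σ * τ)) = qval (c σ) * σ (qval (c τ))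
    rw [hc σ hσ τ hτ, qval_add, qval_smul]
  have hwell : ∀ σ ∈ G, ∀ τ ∈ G, rs σ = rs τ → f σ = f τ := by
    intro σ hσ τ hτ h
    have h0 : c (σ⁻¹ * τ) = 0 := hcF _ (G.mul_mem (G.inv_mem hσ) hτ) (by
      rw [IntermediateField.mem_fixingSubgroup_iff]
      intro x hx
      have hx' : σ x = τ x := DFunLike.congr_fun h ⟨x, hx⟩
      rw [AlgEquiv.mul_apply, ← hx']
      exact σ.symm_apply_apply x)
    show qval (c σ) = qval (c τ)
    conv_rhs => rw [← mul_inv_cancel_left σ τ, hc σ hσ _ (G.mul_mem (G.inv_mem hσ) hτ), h0,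
      smul_zero, add_zero]
  let d : (F →ₐ[ℚ] Qbar) → Qbar := fun h ↦
    if hh : ∃ σ ∈ G, rs σ = h then f hh.choose else 0
  have hd : ∀ σ ∈ G, d (rs σ) = f σ := fun σ hσ ↦ by
    have hh : ∃ τ ∈ G, rs τ = rs σ := ⟨σ, hσ, rfl⟩
    simp only [d]
    rw [dif_pos hh]
    exact hwell _ hh.choose_spec.1 _ hσ hh.choose_spec.2
  have key : ∀ σ ∈ G, ∀ h : F →ₐ[ℚ] Qbar, d (act σ h) = f σ * σ (d h) := by
    intro σ hσ h
    by_cases hh : ∃ τ ∈ G, rs τ = h
    · obtain ⟨τ, hτ, rfl⟩ := hh
      rw [show act σ (rs τ) = rs (σ * τ) from AlgHom.ext fun x ↦ rfl,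
        hd _ (G.mul_mem hσ hτ), hd _ hτ, hf σ hσ τ hτ]
    · have h2 : ¬ ∃ τ ∈ G, rs τ = act σ h := by
        rintro ⟨τ, hτ, hτ'⟩
        refine hh ⟨σ⁻¹ * τ, G.mul_mem (G.inv_mem hσ) hτ, AlgHom.ext fun x ↦ ?_⟩
        have h3 := congrArg σ.symm (DFunLike.congr_fun hτ' x)
        exact h3.trans (σ.symm_apply_apply (h x))
      simp only [d]
      rw [dif_neg hh, dif_neg h2, map_zero, mul_zero]
  obtain ⟨x, hx⟩ : ∃ x : F, ∑ h : F →ₐ[ℚ] Qbar, d h * h x ≠ 0 := by
    by_contra! h0
    have hli := Fintype.linearIndependent_iff.1 (linearIndependent_toLinearMap ℚ F Qbar) d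
      (LinearMap.ext fun x ↦ by simpa [smul_eq_mul] using h0 x) (rs 1)
    rw [hd 1 G.one_mem] at hli
    exact qval_ne_zero _ hli
  set y := ∑ h : F →ₐ[ℚ] Qbar, d h * h x with hy
  refine ⟨-qmk y hx, fun σ hσ ↦ ?_⟩
  have hσy : f σ * σ y = y := by
    rw [hy, map_sum, Finset.mul_sum]
    let e : (F →ₐ[ℚ] Qbar) ≃ (F →ₐ[ℚ] Qbar) :=
      { toFun := act σ
        invFun := act σ.symm
        left_inv := fun h ↦ AlgHom.ext fun z ↦ σ.symm_apply_apply (h z)
        right_inv := fun h ↦ AlgHom.ext fun z ↦ σ.apply_symm_apply (h z) }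
    refine Fintype.sum_equiv e _ (fun h ↦ d h * h x) fun h ↦ ?_
    show f σ * σ (d h * h x) = d (act σ h) * σ (h x)
    rw [key σ hσ, map_mul, mul_assoc]
  rw [smul_sub_self_eq_iff, qval_neg, qval_qmk, map_inv₀]
  have hσy0 : σ y ≠ 0 := (map_ne_zero _).2 hx
  have hf0 : f σ = y / σ y := by rw [eq_div_iff hσy0, hσy]
  show (σ y)⁻¹ = f σ * y⁻¹
  rw [hf0]
  field_simp

end Fermat.Agent.EisensteinDescent
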