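import Mathlib.NumberTheory.Cyclotomic.CyclotomicCharacter
import Mathlib.RingTheory.RootsOfUnity.AlgebraicallyClosed
import Mathlib.NumberTheory.Padics.RingHoms
import Fermat.Agent.EisensteinDescent.GalSys
import Fermat.Agent.LocalInertia.Tame

/-!
# Facts on units and roots of unity used for flatness of the lattice

For the concrete descent data on `Gal(ℚ̄/ℚ)`: Kummer elements on inertia at `p`, the units
produced by the decomposition group, and the `p`-adic cyclotomic character.
-/


open scoped Pointwise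
open Fermat.Agent.GaloisBasics

namespace Fermat.Agent.EisensteinDescent

variable {N p : ℕ} {AN Ap : ValuationSubring Qbar}

/-- Kummer elements of cocycles of finite level on inertia at `p`. -/
theorem exists_kummer_atP (c : GalQ → Qmul)
    (hc : ∀ σ ∈ (galSys N p AN Ap).atP, ∀ τ ∈ (galSys N p AN Ap).atP,
      c (σ * τ) = c σ + σ • c τ)
    (hlev : ∃ H ∈ (galSys N p AN Ap).fin, ∀ σ ∈ (galSys N p AN Ap).atP, σ ∈ H → c σ = 0) :
    ∃ u : Qmul, ∀ σ ∈ (galSys N p AN Ap).atP, c σ = σ • u - u :=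
  exists_eq_smul_sub_of_cocycle _ c hc hlev

/-- Elements of the decomposition group move every element by a unit. -/
theorem smul_sub_mem_units {τ : GalQ} (hτ : τ ∈ Ap.decompositionSubgroup ℚ) (u : Qmul) :
    τ • u - u ∈ (galSys N p AN Ap).units := by
  show τ • u - u ∈ unitsAt Ap
  rw [mem_unitsAt, qval_sub, qval_smul, map_div₀, LocalInertia.valuation_apply hτ,
    div_self ((map_ne_zero Ap.valuation).2 (qval_ne_zero u))]

/-- Torsion elements are units. -/
theorem mem_units_of_nsmul_eq_zero {n : ℕ} (hn : n ≠ 0) {u : Qmul} (hu : n • u = 0) :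
    u ∈ (galSys N p AN Ap).units := by
  show u ∈ unitsAt Ap
  rw [mem_unitsAt]
  refine (pow_eq_one_iff_of_nonneg zero_le hn).1 ?_
  rw [← map_pow, ← qval_nsmul, hu, qval_zero, map_one]

/-- The decomposition group normalises inertia. -/
theorem inv_conj_mem_inertia {A : ValuationSubring Qbar} {τ σ : GalQ}
    (hτ : τ ∈ A.decompositionSubgroup ℚ) (hσ : σ ∈ A.inertiaSubgroupIn ℚ) :
    τ⁻¹ * σ * τ ∈ A.inertiaSubgroupIn ℚ := by
  simpa using LocalInertia.conj_mem_inertiaSubgroupIn (inv_mem hτ) hσ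

/-- The `p`-adic cyclotomic character of `Gal(ℚ̄/ℚ)`. -/
noncomputable def padicCyclo (p : ℕ) [Fact p.Prime] : GalQ →* ℤ_[p] :=
  (Units.coeHom ℤ_[p]).comp ((cyclotomicCharacter Qbar p).comp
    { toFun := fun σ => (σ : Qbar ≃+* Qbar)
      map_one' := rfl
      map_mul' := fun _ _ => rfl })

variable [Fact p.Prime]

/-- The cyclotomic character describes the action on roots of unity of `p`-power order. -/
theorem smul_eq_appr_nsmul (σ : GalQ) {n : ℕ} {d : Qmul} (hd : p ^ n • d = 0) :
    σ • d = (padicCyclo p σ).appr n • d := by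
  have : NeZero (p ^ n) := ⟨pow_ne_zero _ (Fact.out (p := p.Prime)).ne_zero⟩
  have hz : qval d ^ p ^ n = 1 := by rw [← qval_nsmul, hd, qval_zero]
  apply qval_injective
  rw [qval_smul, qval_nsmul]
  have : ∀ i, HasEnoughRootsOfUnity Qbar (p ^ i) := fun i ↦
    have : NeZero ((p ^ i : ℕ) : Qbar) :=
      ⟨Nat.cast_ne_zero.2 (pow_ne_zero _ (Fact.out (p := p.Prime)).ne_zero)⟩
    inferInstance
  have h := cyclotomicCharacter.spec p (σ : Qbar ≃+* Qbar) (qval d) hz
  rw [show
    PadicInt.toZModPow n (((cyclotomicCharacter Qbar p) (σ : Qbar ≃+* Qbar) : ℤ_[p]ˣ) : ℤ_[p])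
      = ((padicCyclo p σ).appr n : ZMod (p ^ n)) from rfl, ZMod.val_natCast,
    Nat.mod_eq_of_lt (PadicInt.appr_lt _ _)] at h
  exact h

/-- Compatibility with a mod `p` character. -/
theorem padicCyclo_toZMod_val (σ : GalQ) {z : Qbar} (hz : z ^ p = 1) :
    σ z = z ^ (PadicInt.toZMod (padicCyclo p σ)).val := by
  have : NeZero (p ^ 1) := ⟨pow_ne_zero _ (Fact.out (p := p.Prime)).ne_zero⟩
  have hz0 : z ≠ 0 := fun h => by
    rw [h, zero_pow (Fact.out (p := p.Prime)).ne_zero] at hz
    exact zero_ne_one hz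
  have h := smul_eq_appr_nsmul (p := p) σ (n := 1) (d := qmk z hz0)
    (qval_injective (by rw [qval_nsmul, qval_qmk, pow_one, hz, qval_zero]))
  have h' := congrArg qval h
  rw [qval_smul, qval_qmk, qval_nsmul, qval_qmk] at h'
  rw [h']
  congr 1
  have hlt : (padicCyclo p σ).appr 1 < p := by simpa using PadicInt.appr_lt (padicCyclo p σ) 1
  have := PadicInt.zmodRepr_spec (padicCyclo p σ)
  have he : PadicInt.toZMod (padicCyclo p σ) = ((padicCyclo p σ).appr 1 : ZMod p) := by
    rw [← map_natCast (PadicInt.toZMod (p := p)) ((padicCyclo p σ).appr 1), ← sub_eq_zero,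
      ← map_sub, ← RingHom.mem_ker, PadicInt.ker_toZMod, PadicInt.maximalIdeal_eq_span_p]
    simpa using PadicInt.appr_spec 1 (padicCyclo p σ)
  rw [he, ZMod.val_natCast, Nat.mod_eq_of_lt hlt]

/-- The mod `p` cyclotomic character. -/
noncomputable def modPCyclo (p : ℕ) [Fact p.Prime] : GalQ →* (ZMod p)ˣ :=
  (Units.map (PadicInt.toZMod (p := p)).toMonoidHom).comp (padicCyclo p).toHomUnits

/-- The mod `p` cyclotomic character is the reduction of the `p`-adic one. -/
theorem coe_modPCyclo (σ : GalQ) :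
    (modPCyclo p σ : ZMod p) = PadicInt.toZMod (padicCyclo p σ) := rfl

/-- The mod `p` cyclotomic character has the property needed for the bound on lines. -/
theorem modPCyclo_spec (σ : GalQ) (z : Qbar) (hz : z ^ p = 1) :
    σ z = z ^ (modPCyclo p σ : ZMod p).val :=
  padicCyclo_toZMod_val σ hz

end Fermat.Agent.EisensteinDescent
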