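import Fermat.Agent.EisensteinDescent.Devissage
import Fermat.Agent.Chebotarev.Basic
import Mathlib.RingTheory.Ideal.Maps

/-!
# From Frobenius relations to all of the Galois group

If the Frobenius elements `φ` at almost all primes `q` satisfy `φ² - t φ + q = 0` on a finite level
module, with `t - 1 - q` in an ideal `I`, then every `g` satisfies such a relation, with
`t - 1 - χ g ∈ I`; if `I` acts nilpotently, the module is Eisenstein.
-/

namespace Fermat.Agent.EisensteinDescent

variable {T : Type*} [CommRing T]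

/-- Power sums of the roots of `X² - t X + q`. -/
def powSum (t q : T) : ℕ → T
  | 0 => 2
  | 1 => t
  | a + 2 => t * powSum t q (a + 1) - q * powSum t q a

/-- `powSum t q a` is congruent to `1 + q ^ a` if `t` is congruent to `1 + q`. -/
theorem powSum_sub_mem (I : Ideal T) {t q : T} (h : t - (1 + q) ∈ I) (a : ℕ) :
    powSum t q a - (1 + q ^ a) ∈ I := by
  induction a using Nat.twoStepInduction with
  | zero => simp [powSum, one_add_one_eq_two]
  | one => simpa [powSum] using h
  | more a ih ih' =>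
    rw [← Ideal.Quotient.eq] at h ih ih' ⊢
    simp only [powSum, map_sub, map_mul, map_add, map_one, map_pow] at *
    rw [ih, ih', h]
    ring

/-- The quadratic relation for powers. -/
theorem pow_relation {R : Type*} [Ring R] [Algebra T R] {X : R} {t q : T}
    (h : X ^ 2 - t • X + q • (1 : R) = 0) (a : ℕ) :
    (X ^ a) ^ 2 - powSum t q a • X ^ a + (q ^ a) • (1 : R) = 0 := by
  suffices H : ∀ a : ℕ, (Polynomial.aeval X)
      ((Polynomial.X ^ a) ^ 2 - Polynomial.C (powSum t q a) * Polynomial.X ^ a +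
        Polynomial.C (q ^ a)) = 0 by
    simpa [Algebra.smul_def] using H a
  intro a
  have key : ∀ a : ℕ, (Polynomial.X : Polynomial T) ^ 2 - Polynomial.C t * Polynomial.X +
      Polynomial.C q ∣ (Polynomial.X ^ a) ^ 2 - Polynomial.C (powSum t q a) * Polynomial.X ^ a +
        Polynomial.C (q ^ a) := by
    intro a
    induction a using Nat.twoStepInduction with
    | zero =>
      refine ⟨0, ?_⟩
      simp only [powSum, pow_zero, map_ofNat, map_one]
      ring
    | one =>
      refine ⟨1, ?_⟩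
      simp only [powSum, pow_one, mul_one]
    | more a ih ih' =>
      obtain ⟨u, hu⟩ := ih
      obtain ⟨w, hw⟩ := ih'
      refine ⟨Polynomial.C t * Polynomial.X * w - Polynomial.C q * Polynomial.X ^ 2 * u +
        (Polynomial.X ^ (a + 1)) ^ 2 + Polynomial.C q ^ (a + 1), ?_⟩
      simp only [powSum, map_sub, map_mul, map_pow] at *
      linear_combination (Polynomial.C t * Polynomial.X) * hw -
        (Polynomial.C q * Polynomial.X ^ 2) * hu
  obtain ⟨u, hu⟩ := key a
  rw [hu, map_mul]
  have h0 : (Polynomial.aeval X) (Polynomial.X ^ 2 - Polynomial.C t * Polynomial.X +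
      Polynomial.C q) = 0 := by
    simpa [Algebra.smul_def] using h
  rw [h0, zero_mul]

open Chebotarev GaloisBasics

/-- Every Galois element satisfies a quadratic relation. -/
theorem exists_quadratic {M : Type} [AddCommGroup M] [DistribMulAction GalQ M] [Module T M]
    [SMulCommClass GalQ T M] {n : ℕ} (hn : (n : T) ∈ Module.annihilator T M)
    (I : Ideal T) (hnI : (n : T) ∈ I) (c : GalQ →* (ZMod n)ˣ)
    (hfin : ∃ L : IntermediateField ℚ Qbar, FiniteDimensional ℚ L ∧
      ∀ σ : GalQ, (∀ x ∈ L, σ x = x) → c σ = 1 ∧ ∀ x : M, σ • x = x)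
    (S : Finset ℕ)
    (hES : ∀ q : ℕ, q.Prime → q ∉ S → ∀ A : ValuationSubring Qbar, A.LiesOverPrime q →
      ∀ φ : GalQ, A.IsFrobeniusAt φ q → ((c φ : (ZMod n)ˣ) : ZMod n) = q ∧
        ∃ t : T, t - (1 + q) ∈ I ∧ ∀ x : M, φ • φ • x - t • φ • x + q • x = 0)
    (g : GalQ) {m : ℕ} (hm : (m : ZMod n) = c g) :
    ∃ t : T, t - (1 + m) ∈ I ∧ ∀ x : M, g • g • x - t • g • x + m • x = 0 := by
  obtain ⟨L, hL, hLfix⟩ := hfin
  let ρ : GalQ →* Module.End T M × (ZMod n)ˣ :=
    MonoidHom.prod
      { toFun := fun σ ↦ DistribSMul.toLinearMap T M σ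
        map_one' := LinearMap.ext fun x ↦ one_smul GalQ x
        map_mul' := fun σ τ ↦ LinearMap.ext fun x ↦ mul_smul σ τ x } c
  have hρ : GaloisFactorsThroughFiniteLevel ρ := ⟨L, hL, fun σ hσ ↦
    Prod.ext (LinearMap.ext fun x ↦ (hLfix σ hσ).2 x) (hLfix σ hσ).1⟩
  obtain ⟨q, hq, hqS, -, A, hA, φ, hφ, -, a, -, -, ha⟩ :=
    exists_frobenius_map_eq_pow ρ hρ g S
  obtain ⟨hcq, t, ht, hrel⟩ := hES q hq hqS A hA φ hφ
  set X : Module.End T M := (ρ φ).1 with hX
  have hX2 : X ^ 2 - t • X + (q : T) • (1 : Module.End T M) = 0 := LinearMap.ext fun x ↦ by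
    show φ • φ • x - t • φ • x + (q : T) • x = 0
    rw [Nat.cast_smul_eq_nsmul]
    exact hrel x
  have hg : (ρ g).1 = X ^ a := by rw [ha]; rfl
  have hmq : ((q : ℤ) ^ a - m : ZMod n) = 0 := by
    have : c g = c φ ^ a := congrArg Prod.snd ha
    rw [hm, this, Units.val_pow_eq_pow_val, hcq]
    simp
  obtain ⟨j, hj⟩ : (n : ℤ) ∣ (q : ℤ) ^ a - m :=
    (ZMod.intCast_zmod_eq_zero_iff_dvd _ n).mp (by simpa using hmq)
  have hjT : (q : T) ^ a - m = (n : T) * j := by exact_mod_cast congrArg (Int.cast (R := T)) hj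
  refine ⟨powSum t (q : T) a, ?_, fun x ↦ ?_⟩
  · have := I.add_mem (powSum_sub_mem I ht a) (I.mul_mem_right (j : T) hnI)
    rw [← hjT] at this
    convert this using 1
    ring
  · have h := LinearMap.congr_fun (pow_relation hX2 a) x
    rw [← hg] at h
    have hkill : ((q : T) ^ a - m) • x = 0 := by
      rw [hjT, mul_comm, mul_smul, Module.mem_annihilator.mp hn x, smul_zero]
    rw [sub_smul, sub_eq_zero, Nat.cast_smul_eq_nsmul] at hkill
    rw [← hkill]
    exact h

/-- Nilpotence of `I` turns the quadratic relations into the Eisenstein property. -/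
theorem isEisenstein_of_quadratic {Γ M : Type*} [Group Γ] [AddCommGroup M] [DistribMulAction Γ M]
    [Module T M] [SMulCommClass Γ T M] {p : ℕ} (χ : Γ →* (ZMod p)ˣ) (I : Ideal T) {k : ℕ}
    (hI : ∀ t ∈ I ^ k, ∀ x : M, t • x = 0)
    (h : ∀ g : Γ, ∃ (t : T) (m : ℕ), (m : T) - ((χ g : ZMod p).val : T) ∈ I ∧
      t - (1 + (m : T)) ∈ I ∧ ∀ x : M, g • g • x - t • g • x + m • x = 0) :
    IsEisenstein χ M := by
  intro g x
  obtain ⟨t, m, hm, ht, hrel⟩ := h g
  have hu : t - (1 + ((χ g : ZMod p).val : T)) ∈ I := by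
    convert I.add_mem ht hm using 1
    ring
  have hop : ∀ y : M, eisOp χ g y =
      (t - (1 + ((χ g : ZMod p).val : T))) • g • y - ((m : T) - ((χ g : ZMod p).val : T)) • y :=
    fun y ↦ by
      have h1 := hrel y
      simp only [eisOp_apply, sub_smul, add_smul, one_smul, Nat.cast_smul_eq_nsmul, smul_sub]
      rw [smul_comm g (χ g : ZMod p).val, ← sub_eq_zero, ← h1]
      abel
  have hiter : ∀ j : ℕ, (⇑(eisOp χ g))^[j] x ∈ (I ^ j • ⊤ : Submodule T M) := by
    intro j
    induction j with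
    | zero => simp
    | succ j ih =>
      rw [Function.iterate_succ_apply', hop, pow_succ', mul_smul]
      have hg : g • (⇑(eisOp χ g))^[j] x ∈ (I ^ j • ⊤ : Submodule T M) :=
        Submodule.smul_induction_on ih
          (fun a ha b _ ↦ by rw [smul_comm g a]; exact Submodule.smul_mem_smul ha trivial)
          fun a b ha hb ↦ by rw [smul_add]; exact add_mem ha hb
      exact sub_mem (Submodule.smul_mem_smul hu hg) (Submodule.smul_mem_smul hm ih)
  exact ⟨k, Submodule.smul_induction_on (hiter k) (fun a ha b _ ↦ hI a ha b)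
    fun a b ha hb ↦ by rw [ha, hb, add_zero]⟩

omit [CommRing T] in
/-- Fixed points are killed by `1 + q - t`. -/
theorem eisenstein_smul_eq_zero {Γ M : Type*} [CommRing T] [SMul Γ M] [AddCommGroup M] [Module T M]
    {φ : Γ} {t : T} {q : ℕ} {x : M} (hrel : φ • φ • x - t • φ • x + q • x = 0)
    (hx : φ • x = x) : (1 + q - t : T) • x = 0 := by
  rw [hx, hx] at hrel
  rw [sub_smul, add_smul, one_smul, Nat.cast_smul_eq_nsmul, ← hrel]
  abel

end Fermat.Agent.EisensteinDescent
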