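import Fermat.Agent.EisensteinDescent.Components
import Fermat.Agent.EisensteinDescent.Quadratic

/-!
# Systems of levels

A `LevelSystem` realises the reductions `Λ / p ^ r Λ` of a lattice inside a group `J`, equivariantly
for Galois and Hecke. `Lev S r` is the level module, with both actions.
-/

namespace Fermat.Agent.EisensteinDescent

open GaloisBasics

variable {p : ℕ} [Fact p.Prime] {T : Type} [CommRing T] {J : Type} [AddCommGroup J]
  [DistribMulAction GalQ J] [Module T J]
  {Λ : Type} [AddCommGroup Λ] [Module ℤ_[p] Λ] [DistribMulAction GalQ Λ]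
  {act : T →+* Module.End ℤ_[p] Λ}

/-- The reductions of a lattice inside `J`. -/
structure LevelSystem (act : T →+* Module.End ℤ_[p] Λ) (J : Type) [AddCommGroup J]
    [DistribMulAction GalQ J] [Module T J] where
  /-- the projections -/
  π : ℕ → Λ →+ J
  map_eq_zero : ∀ r x, π r x = 0 ↔ ∃ y, x = p ^ r • y
  map_smul : ∀ r (g : GalQ) x, π r (g • x) = g • π r x
  map_act : ∀ r (t : T) x, π r (act t x) = t • π r x

namespace LevelSystem

variable (S : LevelSystem act J) (r : ℕ)

/-- The level modules, as submodules. -/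
def carrier : Submodule T J where
  carrier := Set.range (S.π r)
  zero_mem' := ⟨0, map_zero _⟩
  add_mem' := by
    rintro _ _ ⟨a, rfl⟩ ⟨b, rfl⟩
    exact ⟨a + b, map_add _ a b⟩
  smul_mem' := by
    rintro t _ ⟨a, rfl⟩
    exact ⟨act t a, S.map_act r t a⟩

/-- The level module. -/
abbrev Lev : Type := S.carrier r

noncomputable instance : DistribMulAction GalQ (S.Lev r) where
  smul g x := ⟨g • (x : J), by
    obtain ⟨a, ha⟩ := x.2
    exact ⟨g • a, by rw [S.map_smul, ha]⟩⟩
  one_smul x := Subtype.ext (one_smul GalQ (x : J))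
  mul_smul g h x := Subtype.ext (mul_smul g h (x : J))
  smul_zero g := Subtype.ext (smul_zero g)
  smul_add g x y := Subtype.ext (smul_add g (x : J) (y : J))

@[simp] theorem coe_smul (g : GalQ) (x : S.Lev r) : ((g • x : S.Lev r) : J) = g • (x : J) := rfl

instance [SMulCommClass GalQ T J] : SMulCommClass GalQ T (S.Lev r) :=
  ⟨fun g t x ↦ Subtype.ext (smul_comm g t (x : J))⟩

/-- The projection onto the level module. -/
noncomputable def proj : Λ →+ S.Lev r where
  toFun a := ⟨S.π r a, a, rfl⟩
  map_zero' := Subtype.ext (map_zero _)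
  map_add' a b := Subtype.ext (map_add _ a b)

/-- The projection to a level is `π r`. -/
@[simp] theorem coe_proj (a : Λ) : ((S.proj r a : S.Lev r) : J) = S.π r a := rfl

/-- The projection exhibits the level module as `Λ / p ^ r Λ`. -/
theorem isLevel_proj : IsLevel GalQ act r (S.proj r) where
  surjective := by
    rintro ⟨x, a, rfl⟩
    exact ⟨a, rfl⟩
  map_eq_zero x := by
    rw [← Subtype.coe_inj]
    exact S.map_eq_zero r x
  map_smul g x := Subtype.ext (S.map_smul r g x)
  map_act t x := Subtype.ext (S.map_act r t x)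

/-- The projection to a level is surjective. -/
theorem proj_surjective : Function.Surjective (S.proj r) := (S.isLevel_proj r).surjective

/-- The inclusion into `J`. -/
noncomputable def incl : S.Lev r →+[GalQ] J where
  toFun := Subtype.val
  map_smul' _ _ := rfl
  map_zero' := rfl
  map_add' _ _ := rfl

/-- A level injects into `J`. -/
theorem incl_injective : Function.Injective (S.incl r) := Subtype.val_injective

/-- The part of a level coming from a sublattice. -/
noncomputable def sub (L : Submodule ℤ_[p] Λ) : AddSubgroup (S.Lev r) :=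
  L.toAddSubgroup.map (S.proj r)

/-- The level `r` is killed by `p ^ r`. -/
theorem pow_nsmul_lev (x : S.Lev r) : p ^ r • x = 0 := by
  obtain ⟨a, rfl⟩ := S.proj_surjective r x
  rw [← map_nsmul, (S.isLevel_proj r).map_eq_zero]
  exact ⟨a, rfl⟩

/-- The levels of a finite lattice are finite. -/
theorem finite_lev [Module.Finite ℤ_[p] Λ] : Finite (S.Lev r) := by
  classical
  obtain ⟨n, s, hs⟩ := Module.Finite.exists_fin (R := ℤ_[p]) (M := Λ)
  refine Finite.of_surjective
    (fun c : Fin n → ZMod (p ^ r) ↦ S.proj r (∑ i, (c i).val • s i)) fun x ↦ ?_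
  obtain ⟨a, rfl⟩ := S.proj_surjective r x
  have ha : a ∈ Submodule.span ℤ_[p] (Set.range s) := by rw [hs]; trivial
  rw [Submodule.mem_span_range_iff_exists_fun] at ha
  obtain ⟨c, hc⟩ := ha
  refine ⟨fun i ↦ PadicInt.toZModPow r (c i), ?_⟩
  simp only
  rw [← hc, ← sub_eq_zero, ← map_sub, ← Finset.sum_sub_distrib, map_sum]
  refine Finset.sum_eq_zero fun i _ ↦ ?_
  rw [(S.isLevel_proj r).map_eq_zero]
  have hmem : ((PadicInt.toZModPow r (c i)).val : ℤ_[p]) - c i ∈
      RingHom.ker (PadicInt.toZModPow r) := by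
    rw [RingHom.mem_ker, map_sub, map_natCast, ZMod.natCast_zmod_val, sub_self]
  rw [PadicInt.ker_toZModPow, Ideal.mem_span_singleton] at hmem
  obtain ⟨d, hd⟩ := hmem
  refine ⟨d • s i, ?_⟩
  rw [← Nat.cast_smul_eq_nsmul ℤ_[p] (p ^ r), smul_smul, Nat.cast_pow, ← hd, sub_smul,
    Nat.cast_smul_eq_nsmul]

/-- The levels are `p`-groups. -/
theorem exists_card_eq_pow [Module.Finite ℤ_[p] Λ] : ∃ k, Nat.card (S.Lev r) = p ^ k := by
  have := S.finite_lev r
  have hpg : IsPGroup p (Multiplicative (S.Lev r)) := fun x ↦ ⟨r, S.pow_nsmul_lev r x.toAdd⟩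
  obtain ⟨k, hk⟩ := IsPGroup.iff_card.mp hpg
  exact ⟨k, hk⟩

end LevelSystem

end Fermat.Agent.EisensteinDescent
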