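import Fermat.Agent.EisensteinDescent.PLattice
import Fermat.Agent.EisensteinDescent.GalUnits
import Fermat.Agent.EisensteinDescent.LevelSystem

/-!
# Flatness of the levels for the concrete descent data

The levels of a lattice that is ordinary at a place above `p` are good modules for `galSys`.
-/

open Fermat.Agent.GaloisBasics

namespace Fermat.Agent.EisensteinDescent

variable {p : ℕ} [Fact p.Prime] {T : Type} [CommRing T] {J : Type} [AddCommGroup J]
  [DistribMulAction GalQ J] [Module T J]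
  {Λ : Type} [AddCommGroup Λ] [Module ℤ_[p] Λ] [DistribMulAction GalQ Λ]
  {act : T →+* Module.End ℤ_[p] Λ} {E : Type*} [Field E] [Algebra ℤ_[p] E]

/-- Finite-level smoothness of `J` gives it on the lattice. -/
theorem LevelSystem.exists_level_sub (S : LevelSystem act J)
    (hsm : ∀ z : J, ∃ H ∈ finLevels, ∀ g ∈ H, g • z = z) (n : ℕ)
    (x : Λ) : ∃ H ∈ finLevels, ∀ g ∈ H, ∃ y : Λ, g • x - x = p ^ n • y := by
  obtain ⟨H, hH, hfix⟩ := hsm (S.π n x)
  refine ⟨H, hH, fun g hg ↦ (S.map_eq_zero n _).mp ?_⟩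
  rw [map_sub, S.map_smul, hfix g hg, sub_self]

/-- **The levels are good**, with the lattice at `p` as multiplicative part. -/
theorem Ordinary.isGood_lev [CharZero E] [Module.Finite ℤ_[p] Λ] {D : EigenData GalQ act E}
    {N : ℕ} {AN Ap : ValuationSubring Qbar} {τ : GalQ} (hτ : τ ∈ Ap.decompositionSubgroup ℚ)
    {A : Module.End ℤ_[p] Λ} {a : D.ι → E}
    (h : Ordinary D (padicCyclo p) (Ap.inertiaSubgroupIn ℚ) τ A a)
    (S : LevelSystem act J) (hsm : ∀ z : J, ∃ H ∈ finLevels, ∀ g ∈ H, g • z = z)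
    (hunram : ∀ I ∈ (galSys N p AN Ap).unram, ∀ g ∈ I, ∀ (n : ℕ) (z : J), p ^ n • z = 0 → g • z = z)
    (r : ℕ) :
    (galSys N p AN Ap).IsGood
      (S.sub r (Ordinary.lattice D (padicCyclo p) (Ap.inertiaSubgroupIn ℚ))) :=
  h.isGood (galSys N p AN Ap) rfl (S.isLevel_proj r) (fun n x ↦ S.exists_level_sub hsm n x)
    (fun I hI g hg v ↦ Subtype.ext
      (hunram I hI g hg r _ (congrArg Subtype.val (S.pow_nsmul_lev r v))))
    (fun _ c hc _ ⟨H, hH, hcH⟩ ↦ exists_kummer_atP c hc ⟨H, hH, fun s hs hsH ↦ hcH s hsH hs⟩)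
    (fun u ↦ smul_sub_mem_units hτ u)
    (fun _ _ hd ↦ mem_units_of_nsmul_eq_zero (pow_ne_zero _ (Fact.out : p.Prime).ne_zero) hd)
    (fun g _ _ hd ↦ smul_eq_appr_nsmul g hd)

end Fermat.Agent.EisensteinDescent
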