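import Fermat.Agent.EisensteinDescent.Core
import Fermat.Agent.EisensteinDescent.POrdinary
import Fermat.Agent.EisensteinDescent.NotScalar
import Fermat.Agent.EisensteinTate.Primary

/-!
# Assembly of Eisenstein descent

`DescentInputs` lists the properties of a Hecke-Galois group `J` used by the descent;
`nsmul_eq_zero_of_inputs` combines them with the eigen-decomposition of the primary Tate module,
the ordinary lattice at `p`, and a point `y` which specialises to `0` at one place and to a torsion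
point `C` at another, to kill the `p`-part of `C`.
-/

namespace Fermat.Agent.EisensteinDescent

open GaloisBasics EisensteinTate

/-- An injective endomorphism of a free lattice has image containing a power of `p`. -/
theorem exists_pow_nsmul_eq {p : ℕ} [Fact p.Prime] {Λ : Type*} [AddCommGroup Λ] [Module ℤ_[p] Λ]
    [Module.Free ℤ_[p] Λ] [Module.Finite ℤ_[p] Λ] (f : Module.End ℤ_[p] Λ)
    (hf : Function.Injective f) : ∃ K : ℕ, ∀ X : Λ, ∃ Y, p ^ K • X = f Y := by
  classical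
  let b := Module.Free.chooseBasis ℤ_[p] Λ
  set A := LinearMap.toMatrix b b f with hA
  have hdet : A.det ≠ 0 := by
    intro h0
    obtain ⟨v, hv, hAv⟩ := Matrix.exists_mulVec_eq_zero_iff.mpr h0
    apply hv
    set w := b.equivFun.symm v with hw
    have hrepr : ⇑(b.repr w) = v := b.equivFun.apply_symm_apply v
    have hfv : f w = f 0 := by
      rw [map_zero, ← Matrix.toLin_toMatrix b b f, ← hA, Matrix.toLin_apply]
      simp [hrepr, hAv]
    rw [← hrepr, hf hfv]
    simp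
  set g := Matrix.toLin b b A.adjugate with hg
  have hfg : f ∘ₗ g = A.det • LinearMap.id := by
    conv_lhs => rw [show f = Matrix.toLin b b A from (Matrix.toLin_toMatrix b b f).symm]
    rw [hg, ← Matrix.toLin_mul, Matrix.mul_adjugate, map_smul, Matrix.toLin_one]
  refine ⟨A.det.valuation, fun X ↦ ⟨((PadicInt.unitCoeff hdet)⁻¹ : ℤ_[p]ˣ).val • g X, ?_⟩⟩
  have h1 : f (g X) = A.det • X := LinearMap.congr_fun hfg X
  have key : ((PadicInt.unitCoeff hdet)⁻¹ : ℤ_[p]ˣ).val * A.det =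
      ((p ^ A.det.valuation : ℕ) : ℤ_[p]) := by
    rw [Nat.cast_pow]
    exact (congrArg (fun z ↦ ((PadicInt.unitCoeff hdet)⁻¹ : ℤ_[p]ˣ).val * z)
      (PadicInt.unitCoeff_spec hdet)).trans (Units.inv_mul_cancel_left _ _)
  rw [map_smul, h1, smul_smul, key, Nat.cast_smul_eq_nsmul]

variable {p : ℕ} [Fact p.Prime] {T : Type} [CommRing T] {J : Type} [AddCommGroup J]
  [DistribMulAction GalQ J] [Module T J] [SMulCommClass GalQ T J]

/-- The arithmetic facts about `J` used by the descent. -/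
structure DescentInputs (p : ℕ) (N : ℕ) (J : Type) [AddCommGroup J] [DistribMulAction GalQ J]
    [Module T J] (P : Ideal T) (tq : ℕ → T) : Prop where
  prime : N.Prime
  ne : p ≠ N
  natCast_mem : (p : T) ∈ P
  sub_mem : ∀ q : ℕ, q.Prime → q ≠ p → q ≠ N → tq q - (1 + (q : T)) ∈ P
  smooth : ∀ w : J, ∃ F : IntermediateField ℚ Qbar, FiniteDimensional ℚ F ∧
    ∀ σ : GalQ, (∀ x ∈ F, σ x = x) → σ • w = w
  unram : ∀ q : ℕ, q.Prime → q ≠ p → q ≠ N → ∀ A : ValuationSubring Qbar, A.LiesOverPrime q →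
    ∀ σ ∈ A.inertiaSubgroupIn ℚ, ∀ (r : ℕ) (w : J),
      (∀ g : GalQ, g • p ^ r • w = p ^ r • w) → σ • w = w
  relation : ∀ q : ℕ, q.Prime → q ≠ p → q ≠ N → ∀ A : ValuationSubring Qbar, A.LiesOverPrime q →
    ∀ φ : GalQ, A.IsFrobeniusAt φ q → ∀ (r : ℕ) (x : J), p ^ r • x = 0 →
      φ • φ • x - tq q • φ • x + q • x = 0
  unipotentN : ∀ A : ValuationSubring Qbar, A.LiesOverPrime N → ∀ σ ∈ A.inertiaSubgroupIn ℚ,
    ∀ (r : ℕ) (x : J), p ^ r • x = 0 → σ • (σ • x - x) = σ • x - x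

variable {P : Ideal T} {D : ℕ}

/-- The levels of the primary Tate module. -/
noncomputable def tateSystem (h : HasTorsionRank J p D) (P : Ideal T) :
    LevelSystem (primaryAct (J := J) (p := p) (P := P)) J where
  π r := ((primary J p P r).toAddSubgroup.subtype).comp (primaryProj J p P r)
  map_eq_zero r x := by
    rw [← h.primaryProj_eq_zero_iff P]
    exact ⟨fun hx ↦ Subtype.ext hx, fun hx ↦ congrArg Subtype.val hx⟩
  map_smul _ _ _ := rfl
  map_act _ _ _ := rfl

/-- The levels of the primary Tate module are the primary torsion subgroups. -/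
theorem mem_tateSystem_carrier (h : HasTorsionRank J p D) (P : Ideal T) {r : ℕ} {x : J} :
    x ∈ (tateSystem h P).carrier r ↔ x ∈ primary J p P r := by
  constructor
  · rintro ⟨a, rfl⟩
    exact (primaryProj J p P r a).2
  · intro hx
    obtain ⟨a, ha⟩ := h.primaryProj_surjective P r ⟨x, hx⟩
    exact ⟨a, congrArg Subtype.val ha⟩

variable {N : ℕ} {tq : ℕ → T}

omit [SMulCommClass GalQ T J] [Fact p.Prime] in
/-- Inertia at a good prime fixes the `p`-power torsion. -/
theorem DescentInputs.unram_torsion (H : DescentInputs p N J P tq) {q : ℕ} (hq : q.Prime)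
    (hqp : q ≠ p) (hqN : q ≠ N) {A : ValuationSubring Qbar} (hA : A.LiesOverPrime q) {σ : GalQ}
    (hσ : σ ∈ A.inertiaSubgroupIn ℚ) {r : ℕ} {x : J} (hx : p ^ r • x = 0) : σ • x = x :=
  H.unram q hq hqp hqN A hA σ hσ r x fun g ↦ by rw [hx, smul_zero]

/-- The levels of the primary Tate module satisfy `LevelFacts`. -/
theorem DescentInputs.levelFacts (H : DescentInputs p N J P tq) (h : HasTorsionRank J p D) :
    LevelFacts (tateSystem h P) P N tq := by
  have := h.primaryTate_finite P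
  refine ⟨H.natCast_mem, fun r ↦ ?_, H.sub_mem, fun q hq hqp hqN A hA φ hφ r x ↦ ?_, fun r ↦ ?_⟩
  · have := (tateSystem h P).finite_lev r
    have := Fintype.ofFinite ((tateSystem h P).Lev r)
    have hk : ∀ x : (tateSystem h P).Lev r, ∃ k, ∀ t ∈ P ^ k, t • x = 0 := fun x ↦ by
      obtain ⟨-, k, hk⟩ := (mem_tateSystem_carrier h P).mp x.2
      exact ⟨k, fun t ht ↦ Subtype.ext (hk t ht)⟩
    choose k hk using hk
    exact ⟨Finset.univ.sup k, fun t ht x ↦
      hk x t (Ideal.pow_le_pow_right (Finset.le_sup (Finset.mem_univ x)) ht)⟩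
  · exact Subtype.ext (H.relation q hq hqp hqN A hA φ hφ r _
      ((mem_tateSystem_carrier h P).mp x.2).1)
  · have := (tateSystem h P).finite_lev r
    choose F hF hFfix using fun x : (tateSystem h P).Lev r ↦ H.smooth (x : J)
    exact ⟨⨆ x, F x, IntermediateField.finiteDimensional_iSup_of_finite, fun σ hσ x ↦
      Subtype.ext (hFfix x σ fun y hy ↦ hσ y (le_iSup F x hy))⟩

variable {E : Type} [Field E] [CharZero E] [Algebra ℤ_[p] E]

/-- **Eisenstein descent.** -/
theorem nsmul_eq_zero_of_inputs (H : DescentInputs p N J P tq) (h : HasTorsionRank J p D)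
    (Eig : EigenData GalQ (primaryAct (J := J) (p := p) (P := P)) E)
    (hθ : ∀ i, ∀ q : ℕ, q.Prime → q ≠ N →
      Eig.θ i (tq q) ≠ (q : E) + 1 ∧ Eig.θ i (tq q) ≠ -((q : E) + 1))
    {AN Ap : ValuationSubring Qbar} (hAN : AN.LiesOverPrime N) (hAp : Ap.LiesOverPrime p)
    {τ : GalQ} (hτ : τ ∈ Ap.decompositionSubgroup ℚ)
    (hχp : ∃ s ∈ Ap.inertiaSubgroupIn ℚ, padicCyclo p s ≠ 1)
    (A : Module.End ℤ_[p] (primaryTate J p P)) (a : Eig.ι → E)
    (hA : ∀ x i, Eig.coord (A x) i = a i • Eig.coord x i)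
    (ha : ∀ i, a i ^ 2 - Eig.θ i (tq p) * a i + (p : E) = 0)
    (hline : ∀ i, ∃ x : primaryTate J p P,
      (∀ s ∈ Ap.inertiaSubgroupIn ℚ, s • x = padicCyclo p s • x) ∧
        A (τ • x) = padicCyclo p τ • x ∧ Eig.coord x i ≠ 0)
    {y C : J} (hy : ∀ g : GalQ, g • y = y)
    (hFG : ∃ F : AddSubgroup J, F.FG ∧ ∀ z : J, (∀ g : GalQ, g • z = z) → z ∈ F)
    (hpcond : ∀ r, ∃ w : J, p ^ r • w = y ∧ ∀ c : GalQ → (tateSystem h P).Lev r,
      (∀ σ, ((c σ : (tateSystem h P).Lev r) : J) = h.idem P r • (σ • w - w)) →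
        (galSys N p AN Ap).PCond
          ((tateSystem h P).sub r
            (Ordinary.lattice Eig (padicCyclo p) (Ap.inertiaSubgroupIn ℚ))) c)
    (N₀ N₁ : Submodule T J) (h₀y : y ∈ N₀) (h₁y : y - C ∈ N₁)
    (h₀inj : ∀ x ∈ N₀, ∀ k : ℕ, p ^ k • x = 0 → x = 0)
    (h₁inj : ∀ x ∈ N₁, ∀ k : ℕ, p ^ k • x = 0 → x = 0)
    {v n' : ℕ} (hC : p ^ v • n' • C = 0) (hCP : ∃ k, ∀ t ∈ P ^ k, t • n' • C = 0) :
    n' • C = 0 := by
  have hp : p.Prime := Fact.out
  have hN := H.prime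
  have := h.primaryTate_free P
  have := h.primaryTate_finite P
  set S := tateSystem h P with hS
  have hL := H.levelFacts h
  have hπ : ∀ r x, ((S.proj r x : S.Lev r) : J) = (x : CarayolReduction.tateModule J p).1 r :=
    fun _ _ ↦ rfl
  -- properties of the lattice read off from the levels
  have hext : ∀ {x y : primaryTate J p P}, (∀ r, S.π r x = S.π r y) → x = y := fun hxy ↦
    Subtype.ext (Subtype.ext (funext hxy))
  have htors : ∀ r x, p ^ r • S.π r x = 0 := fun r x ↦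
    ((mem_tateSystem_carrier h P).mp ⟨x, rfl⟩).1
  have huni : ∀ σ ∈ AN.inertiaSubgroupIn ℚ, ∀ X : primaryTate J p P,
      σ • (σ • X - X) = σ • X - X := fun σ hσ X ↦ hext fun r ↦ by
    simp only [map_sub, S.map_smul]
    exact H.unipotentN AN hAN σ hσ r _ (htors r X)
  have hΛunr : ∀ q : ℕ, q.Prime → q ≠ p → q ≠ N → ∀ B : ValuationSubring Qbar,
      B.LiesOverPrime q → ∀ σ ∈ B.inertiaSubgroupIn ℚ, ∀ X : primaryTate J p P, σ • X = X :=
    fun q hq hqp hqN B hB σ hσ X ↦ hext fun r ↦ by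
      rw [S.map_smul]; exact H.unram_torsion hq hqp hqN hB hσ (htors r X)
  -- a good prime
  obtain ⟨q₀, hq₀, hq₀p, hq₀N⟩ : ∃ q : ℕ, q.Prime ∧ q ≠ p ∧ q ≠ N := by
    obtain ⟨q, hq1, hq⟩ := Nat.exists_infinite_primes (p + N + 1)
    exact ⟨q, hq, by omega, by omega⟩
  obtain ⟨A₀, hA₀⟩ := GaloisBasics.exists_liesOverPrime hq₀
  obtain ⟨φ₀, hφ₀⟩ := exists_isFrobeniusAt hA₀ hq₀
  -- no component is scalar
  have hns : ∀ i, ∃ g, IsNonScalar (Eig.ρ i) g := by
    intro i
    by_contra hall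
    have hsc : ∀ g, ∃ c : E, Eig.ρ i g = c • (1 : Module.End E (Fin 2 → E)) := fun g ↦ by
      by_contra hc
      exact hall ⟨g, fun c hc' ↦ hc ⟨c, hc'⟩⟩
    obtain ⟨x, hx, -, hxi⟩ := hline i
    have hρ := rho_eq_chi_of_scalar Eig (padicCyclo p) hN (fun r ↦ by
        obtain ⟨F, hF, hFfix⟩ := hL.finiteLevel r
        obtain ⟨F', hF', hF'fix⟩ := levelCyclo_finiteLevel (p := p) r
        refine ⟨F ⊔ F', inferInstance, fun σ hσ ↦ ⟨fun X ↦ ?_, ?_⟩⟩
        · rw [← S.map_eq_zero r, map_sub, S.map_smul]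
          exact sub_eq_zero.mpr (congrArg Subtype.val
            (hFfix σ (fun y hy ↦ hσ y (le_sup_left (b := F') hy)) (S.proj r X)))
        · have h1 := congrArg Units.val (hF'fix σ fun y hy ↦ hσ y (le_sup_right (a := F) hy))
          rw [coe_levelCyclo, Units.val_one] at h1
          rw [← Ideal.mem_span_singleton, ← PadicInt.ker_toZModPow, RingHom.mem_ker, map_sub, h1,
            map_one, sub_self])
      (fun q hq hqp B hB σ hσ ↦ padicCyclo_inertia hB hq hqp hσ) hΛunr H.ne hAN huni hAp i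
      ⟨Eig.coord x i, hxi, fun σ hσ ↦ by
        rw [← Eig.coord_smul, hx σ hσ, map_smul, Pi.smul_apply, algebraMap_smul]⟩ hsc φ₀
    refine (hθ i q₀ hq₀ hq₀N).1 (theta_eq_succ_of_rho_eq_chi Eig (padicCyclo p) hq₀.ne_zero
      (padicCyclo_frobenius hA₀ hq₀ hq₀p hφ₀) (fun X ↦ hext fun r ↦ ?_) i hρ)
    simp only [map_add, map_sub, map_zero, map_nsmul, S.map_smul, S.map_act]
    exact H.relation q₀ hq₀ hq₀p hq₀N A₀ hA₀ φ₀ hφ₀ r _ (htors r X)
  -- the lattice at `p`
  have hord : Ordinary Eig (padicCyclo p) (Ap.inertiaSubgroupIn ℚ) τ A a :=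
    { det := fun i g ↦ hL.det_component Eig hns i g
      chi_ne := hχp
      coord_op := hA
      exists_line := hline
      normal := fun s hs ↦ inv_conj_mem_inertia hτ hs
      sq_ne := fun i h1 ↦ by
        have hroot := ha i
        obtain ⟨h2, h3⟩ := hθ i p hp H.ne
        rcases eq_or_ne (a i) 1 with h4 | h4
        · rw [h4] at hroot
          exact h2 (by linear_combination -hroot)
        · have h5 : a i = -1 := (sq_eq_one_iff.mp h1).resolve_left h4
          rw [h5] at hroot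
          exact h3 (by linear_combination hroot) }
  have hLsat : ∀ x, (p : ℤ_[p]) • x ∈ Ordinary.lattice Eig (padicCyclo p) (Ap.inertiaSubgroupIn ℚ)
      → x ∈ Ordinary.lattice Eig (padicCyclo p) (Ap.inertiaSubgroupIn ℚ) := fun x hx ↦
    Ordinary.mem_of_smul_mem (Nat.cast_ne_zero.mpr hp.ne_zero) hx
  have hgood := fun r ↦ Ordinary.isGood_lev (AN := AN) (N := N) hτ hord S (fun z ↦ by
      obtain ⟨F, hF, hFz⟩ := H.smooth z
      exact ⟨_, ⟨F, hF, rfl⟩, fun g hg ↦
        hFz g ((IntermediateField.mem_fixingSubgroup_iff _ _).mp hg)⟩)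
    (fun I hI g hg n z hz ↦ by
      obtain ⟨q, hq, hqp, hqN, B, hB, rfl⟩ := hI
      exact H.unram_torsion hq hqp hqN hB hg hz) r
  -- the Hecke element killing fixed points
  set u : T := 1 + (q₀ : T) - tq q₀ with hudef
  have hu : ∀ i, Eig.θ i u ≠ 0 := fun i h0 ↦ (hθ i q₀ hq₀ hq₀N).1 (by
    rw [hudef, map_sub, map_add, map_one, map_natCast, sub_eq_zero] at h0
    rw [← h0, add_comm])
  obtain ⟨K, hK⟩ := exists_pow_nsmul_eq _ (act_injective Eig hu)
  have hfix : ∀ r, ∀ x : S.Lev r, (∀ g : GalQ, g • x = x) → u • x = 0 := fun r x hx ↦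
    eisenstein_smul_eq_zero (hL.relation q₀ hq₀ hq₀p hq₀N A₀ hA₀ φ₀ hφ₀ r x) (hx φ₀)
  obtain ⟨K', hK'⟩ := exists_fixed_dvd hL Eig hns hN H.ne hAN hAp huni hu hK hfix _ hLsat
    hord.finrank_lattice hgood (fun r ↦ h.idem P r)
    (fun r x hx ↦ (mem_tateSystem_carrier h P).mpr (h.idem_mem P hx)) hy H.smooth
    (fun I hI σ hσ r w hw ↦ by
      obtain ⟨q, hq, hqp, hqN, B, hB, rfl⟩ := hI
      exact H.unram q hq hqp hqN B hB σ hσ r w fun g ↦ by rw [hw, hy]) hpcond
  obtain ⟨F, hF, hFfix⟩ := hFG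
  obtain ⟨M₀, hM₀⟩ := exists_torsion_bound hF N₀.toAddSubgroup p
  obtain ⟨M₁, hM₁⟩ := exists_torsion_bound hF N₁.toAddSubgroup p
  exact nsmul_eq_zero_of_descent K' M₀ M₁ v n' (fun r ↦ h.idem P r) hK' N₀ N₁ h₀y h₁y
    (fun z hz ↦ hM₀ z (hFfix z hz)) (fun z hz ↦ hM₁ z (hFfix z hz)) h₀inj h₁inj hC fun r hr ↦
      h.idem_eq P ⟨by rw [← Nat.sub_add_cancel hr, pow_add, mul_smul, hC, smul_zero], hCP⟩

end Fermat.Agent.EisensteinDescent
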