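import Fermat.Agent.EisensteinDescent.Devissage
import Mathlib.GroupTheory.Perm.Basic

/-!
# Bounded exponent for classes with the local conditions

`affineHom` turns a cocycle into an action by affine maps, so that a generator of the image of
inertia at `N` controls the restriction of the cocycle (`exists_trivialisation`);
`exists_eq_cobound` turns the counting bound into a bound for the exponent of a class.
-/

namespace Fermat.Agent.EisensteinDescent

variable {Γ : Type*} [Group Γ] {M : Type*} [AddCommGroup M] [DistribMulAction Γ M]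

/-- The affine action `x ↦ g • x + c g` attached to a cocycle. -/
def affineHom (c : Γ → M) (hc : ∀ σ τ, c (σ * τ) = c σ + σ • c τ) : Γ →* Equiv.Perm M :=
  MonoidHom.mk'
    (fun g ↦
      { toFun := fun x ↦ g • x + c g
        invFun := fun x ↦ g⁻¹ • (x - c g)
        left_inv := fun x ↦ by simp
        right_inv := fun x ↦ by simp })
    (fun g h ↦ Equiv.ext fun x ↦ by
      show (g * h) • x + c (g * h) = g • (h • x + c h) + c g
      rw [mul_smul, smul_add, hc]
      abel)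

/-- The affine action attached to a cocycle. -/
@[simp] theorem affineHom_apply (c : Γ → M) (hc : ∀ σ τ, c (σ * τ) = c σ + σ • c τ) (g : Γ)
    (x : M) : affineHom c hc g x = g • x + c g := rfl

/-- A cocycle vanishes at `1`. -/
theorem cocycle_one {c : Γ → M} (hc : ∀ σ τ, c (σ * τ) = c σ + σ • c τ) : c 1 = 0 := by
  have h := hc 1 1
  rw [one_mul, one_smul] at h
  exact add_right_cancel (h.symm.trans (zero_add (c 1)).symm)

/-- Equal affine maps have equal linear parts and translations. -/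
theorem eq_of_affineHom_eq {c : Γ → M} (hc : ∀ σ τ, c (σ * τ) = c σ + σ • c τ) {g h : Γ}
    (e : affineHom c hc g = affineHom c hc h) : c g = c h ∧ ∀ x : M, g • x = h • x := by
  have h0 : c g = c h := by
    simpa using DFunLike.congr_fun e (0 : M)
  refine ⟨h0, fun x ↦ ?_⟩
  have := DFunLike.congr_fun e x
  rw [affineHom_apply, affineHom_apply, h0] at this
  exact add_right_cancel this

/-- The multiples of a cocycle are cocycles. -/
theorem cocycle_nsmul {c : Γ → M} (hc : ∀ σ τ, c (σ * τ) = c σ + σ • c τ) (k : ℕ) :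
    ∀ σ τ, (fun g ↦ k • c g) (σ * τ) = (fun g ↦ k • c g) σ + σ • (fun g ↦ k • c g) τ :=
  fun σ τ ↦ by
    show k • c (σ * τ) = k • c σ + σ • (k • c τ)
    rw [hc, nsmul_add, smul_comm]

/-- In a group killed by `p ^ k`, an integer exactly divisible by at most `p ^ b` can be replaced
by `p ^ b`. -/
theorem pow_nsmul_mem_of_zsmul_mem {p : ℕ} (hp : p.Prime) {A : Type*} [AddCommGroup A]
    (H : AddSubgroup A) {d : ℤ} {b k : ℕ} (hd : ¬ ((p : ℤ) ^ (b + 1) ∣ d)) {x : A}
    (hk : p ^ k • x ∈ H) (hx : d • x ∈ H) : p ^ b • x ∈ H := by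
  obtain ⟨j, hj, hgcd⟩ : ∃ j ≤ k, Int.gcd d ((p ^ k : ℕ) : ℤ) = p ^ j :=
    (Nat.dvd_prime_pow hp).mp (Int.natCast_dvd_natCast.mp (Int.gcd_dvd_right d _))
  have hjb : j ≤ b := by
    by_contra h
    refine hd ((pow_dvd_pow (p : ℤ) (by omega : b + 1 ≤ j)).trans ?_)
    rw [← Nat.cast_pow, ← hgcd]
    exact Int.gcd_dvd_left d _
  have hmem : p ^ j • x ∈ H := by
    rw [← hgcd, ← natCast_zsmul, Int.gcd_eq_gcd_ab, add_smul, mul_comm d, mul_smul,
      mul_comm ((p ^ k : ℕ) : ℤ), mul_smul, natCast_zsmul]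
    exact H.add_mem (H.zsmul_mem hx _) (H.zsmul_mem hk _)
  rw [← Nat.sub_add_cancel hjb, pow_add, mul_smul]
  exact H.nsmul_mem hmem _

/-- Inertia at `N` acts through a line `ℓ` and `τ` is an involution modulo `ℓ`: the restriction
of a cocycle becomes a coboundary after multiplication by a bounded power of `p`. -/
theorem exists_trivialisation {p N : ℕ} (hp : p.Prime) (c : Γ → M)
    (hc : ∀ σ τ, c (σ * τ) = c σ + σ • c τ) (I : Subgroup Γ) {σr : Γ} (hσr : σr ∈ I)
    (hgen : ∀ σ ∈ I, ∃ j : ℕ, affineHom c hc σ = affineHom c hc σr ^ j) {τ : Γ}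
    (hconj : affineHom c hc τ * affineHom c hc σr * (affineHom c hc τ)⁻¹ =
      affineHom c hc σr ^ N)
    (ℓ : AddSubgroup M) (hsub : ∀ σ ∈ I, ∀ x : M, σ • x - x ∈ ℓ)
    (hτ : ∀ x : M, τ • (τ • x) - x ∈ ℓ)
    (hτℓ : ∀ x ∈ ℓ, τ • x ∈ ℓ)
    {σ₀ : Γ} (hσ₀ : σ₀ ∈ I) {a : ℕ} (ha : ∀ x ∈ ℓ, ∃ m, p ^ a • x = σ₀ • m - m)
    {b k : ℕ} (hb : ¬ ((p : ℤ) ^ (b + 1) ∣ (N : ℤ) ^ 2 - 1)) (hk : ∀ x : M, p ^ k • x = 0) :
    ∃ m : M, ∀ σ ∈ I, p ^ (a + b) • c σ = σ • m - m := by
  have hpow : ∀ j : ℕ, c (σr ^ j) - j • c σr ∈ ℓ := by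
    intro j
    induction j with
    | zero => simp [cocycle_one hc]
    | succ j ih =>
      rw [pow_succ, hc, succ_nsmul]
      have h1 := hsub _ (pow_mem hσr j) (c σr)
      convert ℓ.add_mem ih h1 using 1
      abel
  have e1 : affineHom c hc (τ * σr) = affineHom c hc (σr ^ N * τ) := by
    rw [map_mul, map_mul, map_pow, ← hconj, inv_mul_cancel_right]
  have e2 := (eq_of_affineHom_eq hc e1).1
  rw [hc, hc] at e2
  have key : τ • c σr - (N : ℤ) • c σr ∈ ℓ := by
    have h1 := hsub _ (pow_mem hσr N) (c τ)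
    convert ℓ.add_mem (hpow N) h1 using 1
    rw [natCast_zsmul, show τ • c σr = c (σr ^ N) + σr ^ N • c τ - c τ from by
      rw [← e2]; abel]
    abel
  have key2 : ((N : ℤ) ^ 2 - 1) • c σr ∈ ℓ := by
    have h1 := hτℓ _ key
    rw [smul_sub, smul_comm τ (N : ℤ)] at h1
    have h2 := ℓ.zsmul_mem key (N : ℤ)
    rw [smul_sub, smul_smul] at h2
    convert ℓ.sub_mem (hτ (c σr)) (ℓ.add_mem h1 h2) using 1
    rw [sub_smul, one_smul, pow_two]
    abel
  obtain ⟨m₀, hm₀⟩ := ha _ (pow_nsmul_mem_of_zsmul_mem hp ℓ hb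
    (by rw [hk]; exact ℓ.zero_mem) key2)
  obtain ⟨j, hj⟩ := hgen σ₀ hσ₀
  rw [← map_pow] at hj
  have hS : ∀ (j : ℕ) (m : M),
      σr ^ j • m - m = σr • (∑ i ∈ Finset.range j, σr ^ i • m) -
        ∑ i ∈ Finset.range j, σr ^ i • m := by
    intro j m
    induction j with
    | zero => simp
    | succ j ih =>
      rw [Finset.sum_range_succ, smul_add, pow_succ', mul_smul]
      calc σr • σr ^ j • m - m = σr • σr ^ j • m - σr ^ j • m + (σr ^ j • m - m) := by abel
        _ = _ := by rw [ih]; abel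
  set c' := fun g ↦ p ^ (a + b) • c g with hc'def
  have hc' : ∀ σ τ, c' (σ * τ) = c' σ + σ • c' τ := cocycle_nsmul hc (p ^ (a + b))
  set m := ∑ i ∈ Finset.range j, σr ^ i • m₀ with hmdef
  have h0 : c' σr = σr • m - m := by
    show p ^ (a + b) • c σr = _
    rw [pow_add, mul_smul, hm₀, (eq_of_affineHom_eq hc hj).2, hS, hmdef]
  refine ⟨m, fun σ hσ ↦ ?_⟩
  obtain ⟨i, hi⟩ := hgen σ hσ
  rw [← map_pow] at hi
  obtain ⟨hi1, hi2⟩ := eq_of_affineHom_eq hc hi
  rw [hi1, hi2]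
  clear hi hi1 hi2
  show c' (σr ^ i) = _
  induction i with
  | zero =>
    rw [pow_zero, one_smul, sub_self]
    exact cocycle_one hc'
  | succ i ih =>
    rw [pow_succ', hc', h0, ih, smul_sub, mul_smul]
    abel

universe u

variable {D : Type*} [AddCommGroup D] [DistribMulAction Γ D] [DivisibleBy D ℤ] {S : Sys Γ D}
  {p : ℕ} {χ : Γ →* (ZMod p)ˣ}

/-- A class whose multiple satisfies all local conditions has bounded order. -/
theorem exists_eq_cobound [Fact p.Prime] (hleaf : LineBound.{u} χ S) {M : Type u}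
    [AddCommGroup M] [DistribMulAction Γ M] {Mm : AddSubgroup M} {k : ℕ}
    (hcard : Nat.card M = p ^ k) (hEis : IsEisenstein χ M) (hgood : S.IsGood Mm)
    (hN : Nat.card Mm ≤ Nat.card (Sys.fixedBy S.atN M)) {B : ℕ}
    (hB : Nat.card (Sys.fixedBy (⊤ : Subgroup Γ) M) ≤ p ^ B) (c : Γ → M) (m : M)
    (hcm : S.IsRel Mm (c, m)) : ∃ v : M, ∀ σ, p ^ B • c σ = σ • v - v := by
  have hpp : p.Prime := Fact.out
  have : Finite M := Nat.finite_of_card_ne_zero (by rw [hcard]; exact pow_ne_zero _ hpp.ne_zero)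
  obtain ⟨hfin, hcoh⟩ := finite_coh_and_card_le_of_lineBound hleaf k M Mm hcard hEis hgood
  obtain ⟨hfin', hle⟩ := Sys.card_classes_mul_le (S := S) (Mm := Mm)
  have hclasses : Nat.card (Sys.Classes S Mm) ≤ p ^ B := by
    refine Nat.le_of_mul_le_mul_right ?_ (Nat.card_pos (α := Sys.fixedBy S.atN M))
    calc _ ≤ _ := hle
      _ ≤ Nat.card (Sys.fixedBy S.atN M) * p ^ B := Nat.mul_le_mul (hcoh.trans hN) hB
      _ = _ := mul_comm _ _
  set z : Sys.Classes S Mm := QuotientAddGroup.mk ⟨c, (c, m), hcm, rfl⟩ with hz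
  have hzk : p ^ k • z = 0 := by
    rw [hz, ← QuotientAddGroup.mk_nsmul]
    have : p ^ k • c = 0 := funext fun σ ↦ by
      show p ^ k • c σ = 0
      rw [← hcard]
      exact card_nsmul_eq_zero'
    rw [QuotientAddGroup.eq_zero_iff]
    exact ⟨0, by rw [map_zero]; exact this.symm⟩
  obtain ⟨i, -, hi⟩ := (Nat.dvd_prime_pow hpp).mp (addOrderOf_dvd_of_nsmul_eq_zero hzk)
  have hiB : i ≤ B := (Nat.pow_le_pow_iff_right hpp.one_lt).mp
    (hi ▸ (Nat.le_of_dvd Nat.card_pos (addOrderOf_dvd_natCard z)).trans hclasses)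
  have hB' : p ^ B • z = 0 :=
    addOrderOf_dvd_iff_nsmul_eq_zero.mp (hi ▸ pow_dvd_pow p hiB)
  rw [hz, ← QuotientAddGroup.mk_nsmul, QuotientAddGroup.eq_zero_iff] at hB'
  obtain ⟨v, hv⟩ := hB'
  exact ⟨v, fun σ ↦ (congrFun hv σ).symm⟩

end Fermat.Agent.EisensteinDescent
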