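import Fermat.Agent.EisensteinDescent.Setup
import Mathlib.RingTheory.Filtration
import Mathlib.LinearAlgebra.FreeModule.Finite.Matrix
import Mathlib.Tactic.Module

/-!
# Quadratic relations on the components

Approximate quadratic relations modulo every `p ^ r` with coefficients in the Hecke algebra give
exact quadratic relations with scalar coefficients on every eigencomponent.
-/

namespace Fermat.Agent.EisensteinDescent

open Module

variable {Γ : Type*} [Group Γ] {p : ℕ} [Fact p.Prime] {T : Type*} [CommRing T]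
  {Λ : Type*} [AddCommGroup Λ] [Module ℤ_[p] Λ] [DistribMulAction Γ Λ] [SMulCommClass Γ ℤ_[p] Λ]
  {act : T →+* Module.End ℤ_[p] Λ} {E : Type*} [Field E] [Algebra ℤ_[p] E]

/-- A submodule of a finite module over `ℤ_p` is closed in the `p`-adic topology. -/
theorem mem_of_forall_pow {M : Type*} [AddCommGroup M] [Module ℤ_[p] M] [Module.Finite ℤ_[p] M]
    (S : Submodule ℤ_[p] M) {x : M} (h : ∀ r : ℕ, ∃ s ∈ S, ∃ y, x - s = ((p : ℤ_[p]) ^ r) • y) :
    x ∈ S := by
  rw [← Submodule.Quotient.mk_eq_zero]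
  have hmax : Ideal.span {(p : ℤ_[p])} ≠ ⊤ := by
    rw [← PadicInt.maximalIdeal_eq_span_p]
    exact IsLocalRing.maximalIdeal.isMaximal _ |>.ne_top
  have hmem : (Submodule.Quotient.mk x : M ⧸ S) ∈
      ⨅ r : ℕ, Ideal.span {(p : ℤ_[p])} ^ r • (⊤ : Submodule ℤ_[p] (M ⧸ S)) := by
    refine Submodule.mem_iInf _ |>.mpr fun r ↦ ?_
    obtain ⟨s, hs, y, hy⟩ := h r
    have : (Submodule.Quotient.mk x : M ⧸ S) =
        ((p : ℤ_[p]) ^ r) • (Submodule.Quotient.mk y : M ⧸ S) := by
      rw [← Submodule.Quotient.mk_smul, ← hy, Submodule.Quotient.eq]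
      simpa using hs
    rw [this]
    exact Submodule.smul_mem_smul (Ideal.pow_mem_pow (Ideal.mem_span_singleton_self _) r) trivial
  rwa [Ideal.iInf_pow_smul_eq_bot_of_isLocalRing _ hmax, Submodule.mem_bot] at hmem

/-- An endomorphism with values in `c Λ` is `c` times an endomorphism, if `c ≠ 0`. -/
theorem exists_eq_smul_end [Module.Free ℤ_[p] Λ] {c : ℤ_[p]} (hc : c ≠ 0) (f : Module.End ℤ_[p] Λ)
    (h : ∀ x, ∃ y, f x = c • y) : ∃ f', f = c • f' := by
  let m : Λ →ₗ[ℤ_[p]] Λ := c • LinearMap.id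
  have hm : Function.Injective m := fun a b hab ↦ smul_right_injective Λ hc hab
  let g : Λ →ₗ[ℤ_[p]] LinearMap.range m :=
    f.codRestrict _ fun x ↦ let ⟨y, hy⟩ := h x; ⟨y, hy.symm⟩
  refine ⟨(LinearEquiv.ofInjective m hm).symm.toLinearMap ∘ₗ g, LinearMap.ext fun x ↦ ?_⟩
  have := (LinearEquiv.ofInjective m hm).apply_symm_apply (g x)
  exact (congrArg Subtype.val this).symm

/-- The action of a group element as a `ℤ_p`-linear map. -/
noncomputable def smulEnd (g : Γ) : Module.End ℤ_[p] Λ := DistribSMul.toLinearMap ℤ_[p] Λ g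

@[simp] theorem smulEnd_apply (g : Γ) (x : Λ) : smulEnd (p := p) g x = g • x := rfl

/-- Exact quadratic relations on the components. -/
theorem exists_component_trace [Module.Free ℤ_[p] Λ] [Module.Finite ℤ_[p] Λ]
    (D : EigenData Γ act E) (g : Γ) (χ : ℤ_[p])
    (h : ∀ r : ℕ, ∃ (t : T) (c : ℕ), (∃ d : ℤ_[p], χ - c = (p : ℤ_[p]) ^ r * d) ∧
      ∀ x : Λ, ∃ y, g • g • x - act t (g • x) + c • x = p ^ r • y) (i : D.ι) :
    ∃ t : E, D.ρ i g * D.ρ i g - t • D.ρ i g + algebraMap ℤ_[p] E χ • (1 : Module.End E (Fin 2 → E))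
      = 0 := by
  set S : Submodule ℤ_[p] (Module.End ℤ_[p] Λ) := Submodule.span ℤ_[p] (Set.range act) with hS
  set A : Module.End ℤ_[p] Λ := smulEnd g + χ • smulEnd g⁻¹ with hA
  have hAS : A ∈ S := by
    refine mem_of_forall_pow S fun r ↦ ?_
    obtain ⟨t, c, ⟨d, hd⟩, ht⟩ := h r
    refine ⟨act t, Submodule.subset_span ⟨t, rfl⟩, exists_eq_smul_end
      (pow_ne_zero _ (by exact_mod_cast (Fact.out : p.Prime).ne_zero)) _ fun x ↦ ?_⟩
    obtain ⟨y, hy⟩ := ht (g⁻¹ • x)
    rw [smul_inv_smul] at hy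
    refine ⟨y + d • (g⁻¹ • x), ?_⟩
    rw [smul_add, smul_smul, ← hd, ← Nat.cast_pow, Nat.cast_smul_eq_nsmul, ← hy, hA]
    simp only [LinearMap.sub_apply, LinearMap.add_apply, LinearMap.smul_apply, smulEnd_apply,
      sub_smul, Nat.cast_smul_eq_nsmul]
    abel
  obtain ⟨τ, hτ⟩ : ∃ τ : E, ∀ x : Λ, D.coord (A x) i = τ • D.coord x i := by
    clear_value A
    clear hA
    induction hAS using Submodule.span_induction with
    | mem f hf =>
      obtain ⟨t, rfl⟩ := hf
      exact ⟨D.θ i t, fun x ↦ D.coord_act t x i⟩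
    | zero => exact ⟨0, fun x ↦ by simp⟩
    | add f f' _ _ hf hf' =>
      obtain ⟨a, ha⟩ := hf
      obtain ⟨b, hb⟩ := hf'
      exact ⟨a + b, fun x ↦ by rw [LinearMap.add_apply, map_add, Pi.add_apply, ha, hb, add_smul]⟩
    | smul c f _ hf =>
      obtain ⟨a, ha⟩ := hf
      exact ⟨algebraMap ℤ_[p] E c * a, fun x ↦ by
        rw [LinearMap.smul_apply, map_smul, Pi.smul_apply, ha, mul_smul, algebraMap_smul]⟩
  refine ⟨τ, D.end_ext i fun x ↦ ?_⟩
  have h1 := hτ (g • x)
  rw [hA, LinearMap.add_apply, LinearMap.smul_apply, smulEnd_apply, smulEnd_apply, inv_smul_smul,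
    map_add, Pi.add_apply, D.coord.map_smul χ, Pi.smul_apply, D.coord_smul, D.coord_smul,
    ← algebraMap_smul E χ] at h1
  simp only [LinearMap.add_apply, LinearMap.sub_apply, Module.End.mul_apply, LinearMap.smul_apply,
    Module.End.one_apply, LinearMap.zero_apply]
  rw [← h1]
  abel

end Fermat.Agent.EisensteinDescent
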