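import Fermat.Agent.EisensteinDescent.GalUnits
import Fermat.Agent.GaloisBasics.Roots

/-!
# Finite levels and local values of the `p`-adic cyclotomic character
-/

namespace Fermat.Agent.EisensteinDescent

open GaloisBasics

variable {p : ℕ} [Fact p.Prime]

/-- The mod `p ^ r` cyclotomic character. -/
noncomputable def levelCyclo (p : ℕ) [Fact p.Prime] (r : ℕ) : GalQ →* (ZMod (p ^ r))ˣ :=
  (Units.map (PadicInt.toZModPow (p := p) r).toMonoidHom).comp (padicCyclo p).toHomUnits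

/-- The mod `p ^ r` character is the reduction of the `p`-adic one. -/
theorem coe_levelCyclo (r : ℕ) (σ : GalQ) :
    (levelCyclo p r σ : ZMod (p ^ r)) = PadicInt.toZModPow r (padicCyclo p σ) := rfl

/-- An element fixing a primitive `p ^ r`-th root of unity has trivial mod `p ^ r` character. -/
theorem levelCyclo_eq_one {r : ℕ} {ζ : Qbar} (hζ : IsPrimitiveRoot ζ (p ^ r)) {σ : GalQ}
    (hσ : σ ζ = ζ) : levelCyclo p r σ = 1 := by
  have hp0 : p ^ r ≠ 0 := pow_ne_zero _ (Fact.out (p := p.Prime)).ne_zero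
  set d := qmk ζ (hζ.ne_zero hp0)
  have h := congrArg qval (smul_eq_appr_nsmul (p := p) σ (n := r) (d := d)
    (qval_injective (by rw [qval_nsmul, qval_qmk, hζ.pow_eq_one, qval_zero])))
  rw [qval_smul, qval_nsmul, qval_qmk, hσ] at h
  refine Units.ext ?_
  rw [coe_levelCyclo, Units.val_one]
  show (((padicCyclo p σ).appr r : ℕ) : ZMod (p ^ r)) = 1
  rcases Nat.eq_zero_or_pos r with rfl | hr
  · have : Subsingleton (ZMod (p ^ 0)) := inferInstanceAs (Subsingleton (ZMod 1))
    exact Subsingleton.elim _ _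
  have hlt : 1 < p ^ r := Nat.one_lt_pow hr.ne' (Fact.out (p := p.Prime)).one_lt
  have := hζ.pow_inj hlt (PadicInt.appr_lt (padicCyclo p σ) r) (by rw [pow_one]; exact h)
  rw [← this, Nat.cast_one]

/-- The mod `p ^ r` cyclotomic character has finite level. -/
theorem levelCyclo_finiteLevel (r : ℕ) : ∃ L : IntermediateField ℚ Qbar, FiniteDimensional ℚ L ∧
    ∀ σ : GalQ, (∀ x ∈ L, σ x = x) → levelCyclo p r σ = 1 := by
  have hp0 : p ^ r ≠ 0 := pow_ne_zero _ (Fact.out (p := p.Prime)).ne_zero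
  have : NeZero (p ^ r) := ⟨hp0⟩
  obtain ⟨ζ, hζ⟩ := HasEnoughRootsOfUnity.exists_primitiveRoot Qbar (p ^ r)
  exact ⟨IntermediateField.adjoin ℚ {ζ}, IntermediateField.adjoin.finiteDimensional
    (hζ.isIntegral (Nat.pos_of_ne_zero hp0)).tower_top, fun σ hσ ↦
      levelCyclo_eq_one hζ (hσ ζ (IntermediateField.mem_adjoin_simple_self ℚ ζ))⟩

/-- The cyclotomic character sends a Frobenius at `q ≠ p` to `q`. -/
theorem padicCyclo_frobenius {A : ValuationSubring Qbar} {q : ℕ} (hA : A.LiesOverPrime q)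
    (hq : q.Prime) (hqp : q ≠ p) {φ : GalQ} (hφ : A.IsFrobeniusAt φ q) :
    padicCyclo p φ = q :=
  cyclotomicCharacter_frobenius hA hq hqp hφ

/-- The cyclotomic character is trivial on inertia at `q ≠ p`. -/
theorem padicCyclo_inertia {A : ValuationSubring Qbar} {q : ℕ} (hA : A.LiesOverPrime q)
    (hq : q.Prime) (hqp : q ≠ p) {σ : GalQ} (hσ : σ ∈ A.inertiaSubgroupIn ℚ) :
    padicCyclo p σ = 1 := by
  refine PadicInt.ext_of_toZModPow.mp fun r ↦ ?_
  have hp0 : p ^ r ≠ 0 := pow_ne_zero _ (Fact.out (p := p.Prime)).ne_zero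
  have : NeZero (p ^ r) := ⟨hp0⟩
  obtain ⟨ζ, hζ⟩ := HasEnoughRootsOfUnity.exists_primitiveRoot Qbar (p ^ r)
  have h := congrArg Units.val (levelCyclo_eq_one hζ (inertia_apply_of_pow_eq_one hA hq
    (fun h ↦ hqp ((Nat.prime_dvd_prime_iff_eq hq Fact.out).mp (hq.dvd_of_dvd_pow h))) hσ
    hζ.pow_eq_one))
  rwa [coe_levelCyclo, Units.val_one, ← map_one (PadicInt.toZModPow (p := p) r)] at h

end Fermat.Agent.EisensteinDescent
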