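import Mathlib.Algebra.Module.Submodule.Basic
import Mathlib.Algebra.Module.LinearMap.Defs
import Mathlib.Algebra.GroupWithZero.Action.Defs
import Mathlib.RingTheory.Noetherian.Basic
import Mathlib.GroupTheory.Finiteness
import Mathlib.RingTheory.Finiteness.Basic
import Mathlib.RingTheory.Int.Basic
import Mathlib.Tactic.Abel

/-!
# The endgame of Eisenstein descent

If `p ^ K • e y` is a `p ^ r`-th multiple of a fixed point for every `r`, then comparing the
kernels of two specialisations, one containing `y` and one containing `y - C`, kills the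
`p`-part of `C`.
-/

namespace Fermat.Agent.EisensteinDescent

variable {Γ T J : Type*} [Group Γ] [CommRing T] [AddCommGroup J] [DistribMulAction Γ J]
  [Module T J] [SMulCommClass Γ T J]

/-- A cocycle `e (σ w - w)` of a root `w` of `y`, killed by `p ^ K`, descends. -/
theorem exists_fixed_of_cobound {p r K : ℕ} {y w v : J} (hw : p ^ r • w = y) (hv : p ^ r • v = 0)
    (e : T) (h : ∀ σ : Γ, p ^ K • e • (σ • w - w) = σ • v - v) :
    ∃ z : J, (∀ σ : Γ, σ • z = z) ∧ p ^ r • z = p ^ K • e • y := by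
  refine ⟨p ^ K • e • w - v, fun σ ↦ ?_, ?_⟩
  · have h1 := h σ
    rw [smul_sub, smul_sub, ← smul_comm σ e w] at h1
    rw [smul_sub, smul_comm σ (p ^ K)]
    have : p ^ K • σ • e • w = p ^ K • e • w + (σ • v - v) := by rw [← h1]; abel
    rw [this]
    abel
  · rw [smul_sub, hv, sub_zero, smul_comm (p ^ r) (p ^ K), smul_comm (p ^ r) e, hw]

omit [SMulCommClass Γ T J] in
/-- The endgame: modulo each of the two kernels the `p`-power torsion of the fixed points has
bounded exponent (for instance because the fixed points are finitely generated). -/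
theorem nsmul_eq_zero_of_descent {p : ℕ} (K M₀ M₁ v n' : ℕ) {y C : J} (e : ℕ → T)
    (hdiv : ∀ r, ∃ z : J, (∀ σ : Γ, σ • z = z) ∧ p ^ r • z = p ^ K • e r • y)
    (N₀ N₁ : Submodule T J) (h₀y : y ∈ N₀) (h₁y : y - C ∈ N₁)
    (h₀bdd : ∀ z : J, (∀ σ : Γ, σ • z = z) → ∀ k : ℕ, p ^ k • z ∈ N₀ → p ^ M₀ • z ∈ N₀)
    (h₁bdd : ∀ z : J, (∀ σ : Γ, σ • z = z) → ∀ k : ℕ, p ^ k • z ∈ N₁ → p ^ M₁ • z ∈ N₁)
    (h₀inj : ∀ x ∈ N₀, ∀ k : ℕ, p ^ k • x = 0 → x = 0)
    (h₁inj : ∀ x ∈ N₁, ∀ k : ℕ, p ^ k • x = 0 → x = 0)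
    (hC : p ^ v • n' • C = 0) (heC : ∀ r, v ≤ r → e r • n' • C = n' • C) : n' • C = 0 := by
  obtain ⟨R, hR⟩ : ∃ R, M₀ + M₁ + v + K ≤ R := ⟨_, le_rfl⟩
  obtain ⟨z, hz, hzy⟩ := hdiv R
  set E := e R with hE
  set x := E • y - p ^ (R - K) • z with hx
  have hxK : p ^ K • x = 0 := by
    rw [hx, smul_sub, ← mul_smul (p ^ K) (p ^ (R - K)), ← pow_add, Nat.add_sub_cancel' (by omega),
      hzy, sub_self]
  have hpz : p ^ (R - K) • z ∈ N₀ := by
    have h1 : p ^ R • z ∈ N₀ := hzy ▸ nsmul_mem (N₀.smul_mem E h₀y) _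
    rw [show R - K = R - K - M₀ + M₀ by omega, pow_add, mul_smul]
    exact nsmul_mem (h₀bdd z hz R h1) _
  have hEy : E • y = p ^ (R - K) • z :=
    sub_eq_zero.mp (h₀inj x (N₀.sub_mem (N₀.smul_mem E h₀y) hpz) K hxK)
  have hEC : E • n' • C = n' • C := heC R (by omega)
  -- at the second place `n' z` is torsion modulo the kernel, hence of bounded exponent
  have h2 : p ^ (v + R) • n' • z ∈ N₁ := by
    have h3 : p ^ K • p ^ v • E • n' • (y - C) ∈ N₁ :=
      nsmul_mem (nsmul_mem (N₁.smul_mem E (nsmul_mem h₁y n')) _) _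
    convert h3 using 1
    rw [smul_sub n', smul_sub E, smul_sub (p ^ v), hEC, hC, sub_zero, smul_comm E n',
      pow_add, mul_smul, smul_comm (p ^ R) n', hzy, smul_comm (p ^ K) (p ^ v),
      smul_comm n' (p ^ K)]
  have h4 : p ^ (R - K) • n' • z ∈ N₁ := by
    rw [show R - K = R - K - M₁ + M₁ by omega, pow_add, mul_smul]
    exact nsmul_mem (h₁bdd _ (fun σ ↦ by rw [smul_comm σ n', hz]) (v + R) h2) _
  have h5 : n' • C ∈ N₁ := by
    have h6 := N₁.sub_mem h4 (N₁.smul_mem E (nsmul_mem h₁y n'))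
    rwa [smul_comm (p ^ (R - K)) n', ← hEy, smul_sub n', smul_sub E, hEC, smul_comm E n',
      sub_sub_cancel] at h6
  exact h₁inj _ h5 v hC

/-- Modulo any subgroup, the `p`-power torsion of a finitely generated group has bounded
exponent. -/
theorem exists_torsion_bound {A : Type*} [AddCommGroup A] {F : AddSubgroup A} (hF : F.FG)
    (N : AddSubgroup A) (p : ℕ) :
    ∃ M : ℕ, ∀ z ∈ F, ∀ k : ℕ, p ^ k • z ∈ N → p ^ M • z ∈ N := by
  have : AddGroup.FG F := (AddGroup.fg_iff_addSubgroup_fg F).mpr hF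
  have : Module.Finite ℤ F := Module.Finite.iff_addGroup_fg.mpr this
  have : IsNoetherian ℤ F := inferInstance
  let f : ℕ →o Submodule ℤ F :=
    ⟨fun k ↦ AddSubgroup.toIntSubmodule (((N.comap (nsmulAddMonoidHom (p ^ k))).comap F.subtype)),
      fun a b hab z hz ↦ by
        show p ^ b • (z : A) ∈ N
        rw [← Nat.sub_add_cancel hab, pow_add, mul_smul]
        exact N.nsmul_mem hz _⟩
  obtain ⟨M, hM⟩ := monotone_stabilizes_iff_noetherian.mpr this f
  refine ⟨M, fun z hz k hk ↦ ?_⟩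
  have hmem : (⟨z, hz⟩ : F) ∈ f (max M k) := f.mono (le_max_right M k) hk
  rw [← hM (max M k) (le_max_left M k)] at hmem
  exact hmem

end Fermat.Agent.EisensteinDescent
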