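import Fermat.Agent.EisensteinDescent.Bound
import Fermat.Agent.EisensteinDescent.Endgame

/-!
# Descent at one level

For a fixed point `y` of `J` and a finite Eisenstein piece `M` of the `p ^ r`-torsion, the local
conditions on the Kummer cocycle of `y` give a fixed point whose `p ^ r`-multiple is a bounded
`p`-power multiple of `e • y`.
-/

namespace Fermat.Agent.EisensteinDescent

universe u

variable {Γ : Type*} [Group Γ] {T : Type*} [CommRing T] {J : Type u} [AddCommGroup J]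
  [DistribMulAction Γ J] [Module T J] [SMulCommClass Γ T J]
variable {D : Type*} [AddCommGroup D] [DistribMulAction Γ D]

omit [Module T J] [SMulCommClass Γ T J] in
/-- The pushed cocycle of a root has values in `M`. -/
theorem exists_cocycle {M : Type u} [AddCommGroup M] [DistribMulAction Γ M] (i : M →+[Γ] J)
    (hi : Function.Injective i) (f : J →+[Γ] J) {p r : ℕ}
    (hf : ∀ x : J, p ^ r • x = 0 → f x ∈ Set.range i) {y w : J} (hw : p ^ r • w = y)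
    (hy : ∀ σ : Γ, σ • y = y) :
    ∃ c : Γ → M, (∀ σ, i (c σ) = f (σ • w - w)) ∧
      ∀ σ τ, c (σ * τ) = c σ + σ • c τ := by
  choose c hc using fun σ : Γ ↦ hf (σ • w - w)
    (by rw [smul_sub, ← smul_comm σ (p ^ r), hw, hy, sub_self])
  refine ⟨c, hc, fun σ τ ↦ hi ?_⟩
  rw [map_add, map_smul, hc, hc, hc, ← map_smul f, ← map_add, mul_smul, smul_sub]
  congr 1
  abel

/-- Descent at one level. -/
theorem exists_fixed_of_local [DivisibleBy D ℤ] (S : Sys Γ D) {p : ℕ} [Fact p.Prime]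
    {χ : Γ →* (ZMod p)ˣ} (hleaf : LineBound.{u} χ S)
    {M : Type u} [AddCommGroup M] [DistribMulAction Γ M] {Mm : AddSubgroup M} {k : ℕ}
    (hcard : Nat.card M = p ^ k) (hEis : IsEisenstein χ M) (hgood : S.IsGood Mm)
    {B : ℕ} (hB : Nat.card (Sys.fixedBy (⊤ : Subgroup Γ) M) ≤ p ^ B)
    (ℓ : AddSubgroup M) (hℓfix : ∀ σ ∈ S.atN, ∀ x ∈ ℓ, σ • x = x)
    (hℓcard : Nat.card Mm ≤ Nat.card ℓ) (hℓsub : ∀ σ ∈ S.atN, ∀ x : M, σ • x - x ∈ ℓ)
    {N : ℕ} {τ : Γ} (hτ : ∀ x : M, τ • (τ • x) - x ∈ ℓ) (hτℓ : ∀ x ∈ ℓ, τ • x ∈ ℓ)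
    {σ₀ : Γ} (hσ₀ : σ₀ ∈ S.atN) {a : ℕ} (ha : ∀ x ∈ ℓ, ∃ m, p ^ a • x = σ₀ • m - m)
    {b : ℕ} (hb : ¬ ((p : ℤ) ^ (b + 1) ∣ (N : ℤ) ^ 2 - 1))
    (hgen : ∀ (c : Γ → M) (hc : ∀ σ τ, c (σ * τ) = c σ + σ • c τ),
      (∃ H ∈ S.fin, ∀ σ ∈ H, c σ = 0) →
      ∃ σr ∈ S.atN, (∀ σ ∈ S.atN, ∃ j : ℕ, affineHom c hc σ = affineHom c hc σr ^ j) ∧
        affineHom c hc τ * affineHom c hc σr * (affineHom c hc τ)⁻¹ = affineHom c hc σr ^ N)
    (i : M →+[Γ] J) (hi : Function.Injective i) (e : T) {r : ℕ}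
    (he : ∀ x : J, p ^ r • x = 0 → e • x ∈ Set.range i) (hMr : ∀ x : M, p ^ r • x = 0)
    {y w : J} (hw : p ^ r • w = y) (hy : ∀ σ : Γ, σ • y = y)
    (hsmooth : ∃ H ∈ S.fin, ∀ σ ∈ H, σ • w = w)
    (hunram : ∀ I ∈ S.unram, ∀ σ ∈ I, e • (σ • w - w) = 0)
    (hp : ∀ c : Γ → M, (∀ σ, i (c σ) = e • (σ • w - w)) → S.PCond Mm c) :
    ∃ z : J, (∀ σ : Γ, σ • z = z) ∧ p ^ r • z = p ^ (B + (a + b)) • e • y := by
  have hpp : p.Prime := Fact.out
  have : Finite M := Nat.finite_of_card_ne_zero (by rw [hcard]; exact pow_ne_zero _ hpp.ne_zero)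
  let f : J →+[Γ] J :=
    { toFun := fun x ↦ e • x
      map_zero' := smul_zero e
      map_add' := smul_add e
      map_smul' := fun σ x ↦ (smul_comm σ e x).symm }
  obtain ⟨c, hci, hc⟩ := exists_cocycle i hi f he hw hy
  have hcont : ∃ H ∈ S.fin, ∀ σ ∈ H, c σ = 0 := by
    obtain ⟨H, hH, h⟩ := hsmooth
    refine ⟨H, hH, fun σ hσ ↦ hi ?_⟩
    rw [hci, h σ hσ, sub_self, map_zero, map_zero]
  obtain ⟨σr, hσr, hg, hconj⟩ := hgen c hc hcont
  obtain ⟨m, hm⟩ := exists_trivialisation hpp c hc S.atN hσr hg hconj ℓ hℓsub hτ hτℓ hσ₀ ha hb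
    (k := k) (fun x ↦ by rw [← hcard]; exact card_nsmul_eq_zero')
  have hP : S.PCond Mm c := hp c hci
  have hmul : ∀ n : ℕ, S.PCond Mm (n • c) := by
    intro n
    induction n with
    | zero => simpa using S.pCond_zero Mm
    | succ n ih => rw [succ_nsmul]; exact ih.add S hP
  have hrel : S.IsRel Mm (p ^ (a + b) • c, m) :=
    { cocycle := cocycle_nsmul hc _
      continuous := by
        obtain ⟨H, hH, h⟩ := hcont
        exact ⟨H, hH, fun σ hσ ↦ by simp [h σ hσ]⟩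
      unramified := fun I hI σ hσ ↦ by
        have h0 : c σ = 0 := hi (by rw [hci, map_zero]; exact hunram I hI σ hσ)
        simp [h0]
      pCond := hmul _
      atN := hm }
  have hN : Nat.card Mm ≤ Nat.card (Sys.fixedBy S.atN M) :=
    hℓcard.trans (Nat.card_le_card_of_injective
      (fun x : ℓ ↦ (⟨x.1, fun σ hσ ↦ hℓfix σ hσ x.1 x.2⟩ : Sys.fixedBy S.atN M))
      fun a b hab ↦ Subtype.ext (congrArg Subtype.val hab :))
  obtain ⟨v, hv⟩ := exists_eq_cobound hleaf hcard hEis hgood hN hB _ m hrel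
  refine exists_fixed_of_cobound (v := i v) hw (by rw [← map_nsmul, hMr, map_zero]) e fun σ ↦ ?_
  show p ^ (B + (a + b)) • f (σ • w - w) = _
  rw [← map_smul i, ← map_sub, ← hv, ← hci, ← map_nsmul, pow_add, mul_smul]
  rfl

end Fermat.Agent.EisensteinDescent
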