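import Fermat.Agent.EisensteinDescent.Bound
import Fermat.Agent.LocalInertia.Corollaries

/-!
# Inertia at `N` acting unipotently on a finite `p`-group

The affine action attached to a cocycle has `p`-power orders on inertia at `N`, so its image there
is generated by one element which a Frobenius conjugates to its `N`-th power.
-/

namespace Fermat.Agent.EisensteinDescent

open GaloisBasics LocalInertia

/-- A unipotent map to `Perm` of exponent `p ^ (2 * k)`. -/
theorem affineHom_pow_eq_one {Γ M : Type*} [Group Γ] [AddCommGroup M] [DistribMulAction Γ M]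
    {n : ℕ} (hn : ∀ x : M, n • x = 0) (c : Γ → M) (hc : ∀ σ τ, c (σ * τ) = c σ + σ • c τ)
    {σ : Γ} (hσ : ∀ x : M, σ • (σ • x - x) = σ • x - x) :
    affineHom c hc σ ^ (n * n) = 1 := by
  have hlin : ∀ (j : ℕ) (x : M), σ ^ j • x = x + j • (σ • x - x) := by
    intro j x
    induction j with
    | zero => simp
    | succ j ih =>
      rw [pow_succ', mul_smul, ih, smul_add, smul_comm σ j, hσ, succ_nsmul]
      abel
  have htriv : ∀ x : M, σ ^ n • x = x := fun x ↦ by rw [hlin, hn, add_zero]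
  have hj : ∀ j : ℕ, c ((σ ^ n) ^ j) = j • c (σ ^ n) := by
    intro j
    induction j with
    | zero => simp [cocycle_one hc]
    | succ j ih => rw [pow_succ', hc, ih, htriv, succ_nsmul']
  rw [← map_pow, pow_mul]
  refine Equiv.ext fun x ↦ ?_
  rw [affineHom_apply, hj, hn, add_zero, Equiv.Perm.one_apply]
  have : ∀ j : ℕ, (σ ^ n) ^ j • x = x := by
    intro j
    induction j with
    | zero => simp
    | succ j ih => rw [pow_succ', mul_smul, ih, htriv]
  exact this n

/-- The generator hypothesis of the descent, for inertia at `N` acting quadratically unipotently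
on a module killed by `p ^ k`. -/
theorem exists_inertia_affine_generator {N : ℕ} (hN : N.Prime) {A : ValuationSubring Qbar}
    (hA : A.LiesOverPrime N) {p k : ℕ} (hp : p.Prime) (hpN : p ≠ N) {M : Type*} [AddCommGroup M]
    [DistribMulAction GalQ M] (hk : ∀ x : M, p ^ k • x = 0)
    (hfin : ∃ F : IntermediateField ℚ Qbar, FiniteDimensional ℚ F ∧
      ∀ σ : GalQ, (∀ x ∈ F, σ x = x) → ∀ x : M, σ • x = x)
    (huni : ∀ σ ∈ A.inertiaSubgroupIn ℚ, ∀ x : M, σ • (σ • x - x) = σ • x - x)
    {τ : GalQ} (hτ : A.IsFrobeniusAt τ N)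
    (c : GalQ → M) (hc : ∀ σ τ, c (σ * τ) = c σ + σ • c τ)
    (hcont : ∃ F : IntermediateField ℚ Qbar, FiniteDimensional ℚ F ∧
      ∀ σ : GalQ, (∀ x ∈ F, σ x = x) → c σ = 0) :
    ∃ σr ∈ A.inertiaSubgroupIn ℚ,
      (∀ σ ∈ A.inertiaSubgroupIn ℚ, ∃ j : ℕ, affineHom c hc σ = affineHom c hc σr ^ j) ∧
        affineHom c hc τ * affineHom c hc σr * (affineHom c hc τ)⁻¹ = affineHom c hc σr ^ N := by
  obtain ⟨F, hF, hFM⟩ := hfin
  obtain ⟨F', hF', hFc⟩ := hcont
  obtain ⟨σr, hσr, hgen, hconj⟩ := exists_inertia_image_generator hA hN (affineHom c hc)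
    ⟨F ⊔ F', inferInstance, fun σ hσ ↦ Equiv.ext fun x ↦ by
      rw [affineHom_apply, hFc σ fun y hy ↦ hσ y (le_sup_right (a := F) hy),
        hFM σ (fun y hy ↦ hσ y (le_sup_left (b := F') hy)) x, add_zero, Equiv.Perm.one_apply]⟩
    fun σ hσ ↦ by
      refine (Nat.Coprime.coprime_dvd_left
        (orderOf_dvd_of_pow_eq_one (affineHom_pow_eq_one hk c hc (huni σ hσ))) ?_)
      rw [← pow_add]
      exact ((Nat.coprime_primes hp hN).mpr hpN).pow_left _
  exact ⟨σr, hσr, hgen, hconj τ hτ⟩

end Fermat.Agent.EisensteinDescent
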