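import Fermat.Agent.EisensteinDescent.Sys
import Mathlib.GroupTheory.PGroup
import Mathlib.Algebra.CharP.Lemmas
import Mathlib.Algebra.Field.ZMod
import Mathlib.Algebra.Module.ZMod
import Mathlib.RingTheory.IntegralDomain
import Mathlib.Algebra.Algebra.Basic
import Mathlib.Algebra.Module.LinearMap.End
import Mathlib.Algebra.CharP.Algebra

/-!
# Dévissage of modules whose semisimplification is trivial plus cyclotomic

If every element `g` is annihilated by a power of `(g - 1)(g - χ g)` on a finite `p`-group `M`,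
then `M` is filtered by stable lines; hence the counting bound for lines gives the bound for `M`.
-/

namespace Fermat.Agent.EisensteinDescent

variable {Γ : Type*} [Group Γ] {p : ℕ} (χ : Γ →* (ZMod p)ˣ)
variable {M : Type*} [AddCommGroup M] [DistribMulAction Γ M]

/-- The operator `(g - 1)(g - χ g)`. -/
def eisOp (g : Γ) : M →+ M :=
  AddMonoidHom.mk' (fun x ↦ g • (g • x - ((χ g : ZMod p).val) • x) -
      (g • x - ((χ g : ZMod p).val) • x))
    (fun a b ↦ by simp only [smul_add, smul_sub]; abel)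

/-- `eisOp χ g` is `(g - 1) (g - χ g)`, evaluated at `x`. -/
theorem eisOp_apply (g : Γ) (x : M) :
    eisOp χ g x = g • (g • x - ((χ g : ZMod p).val) • x) -
      (g • x - ((χ g : ZMod p).val) • x) := rfl

variable (M) in
/-- Every `(g - 1)(g - χ g)` is nilpotent on `M`. -/
def IsEisenstein : Prop := ∀ (g : Γ) (x : M), ∃ k : ℕ, (⇑(eisOp χ g))^[k] x = 0

theorem map_eisOp {M' : Type*} [AddCommGroup M'] [DistribMulAction Γ M'] (f : M →+[Γ] M')
    (g : Γ) (x : M) : f (eisOp χ g x) = eisOp χ g (f x) := by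
  simp only [eisOp_apply, map_sub, map_smul, map_nsmul]

theorem map_eisOp_iterate {M' : Type*} [AddCommGroup M'] [DistribMulAction Γ M'] (f : M →+[Γ] M')
    (g : Γ) (k : ℕ) (x : M) : f ((⇑(eisOp χ g))^[k] x) = (⇑(eisOp χ g))^[k] (f x) := by
  induction k generalizing x with
  | zero => rfl
  | succ k ih => rw [Function.iterate_succ_apply, Function.iterate_succ_apply, ih, map_eisOp]

/-- Subobjects of Eisenstein modules are Eisenstein. -/
theorem IsEisenstein.of_injective (hM : IsEisenstein χ M) {M' : Type*} [AddCommGroup M']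
    [DistribMulAction Γ M'] (f : M' →+[Γ] M) (hf : Function.Injective f) :
    IsEisenstein χ M' := fun g x ↦ by
  obtain ⟨k, hk⟩ := hM g (f x)
  exact ⟨k, hf (by rw [map_eisOp_iterate, hk, map_zero])⟩

/-- Quotients of Eisenstein modules are Eisenstein. -/
theorem IsEisenstein.of_surjective (hM : IsEisenstein χ M) {M' : Type*} [AddCommGroup M']
    [DistribMulAction Γ M'] (f : M →+[Γ] M') (hf : Function.Surjective f) :
    IsEisenstein χ M' := fun g y ↦ by
  obtain ⟨x, rfl⟩ := hf y
  obtain ⟨k, hk⟩ := hM g x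
  exact ⟨k, by rw [← map_eisOp_iterate, hk, map_zero]⟩

section Linear

variable {V : Type*} [AddCommGroup V] [Module (ZMod p) V]

/-- In characteristic `p` a unipotent endomorphism has `p`-power order. -/
theorem exists_pow_eq_one_of_isNilpotent_sub_one [Fact p.Prime] [Nontrivial V]
    {u : Module.End (ZMod p) V} (hu : IsNilpotent (u - 1)) : ∃ n : ℕ, u ^ p ^ n = 1 := by
  obtain ⟨n, hn⟩ := hu
  have : CharP (Module.End (ZMod p) V) p :=
    charP_of_injective_algebraMap (algebraMap (ZMod p) (Module.End (ZMod p) V)).injective p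
  refine ⟨n, ?_⟩
  have h0 : (u - 1) ^ p ^ n = 0 :=
    pow_eq_zero_of_le (Nat.lt_pow_self (Fact.out : p.Prime).one_lt).le hn
  rwa [sub_pow_char_pow_of_commute _ _ (Commute.one_right _), one_pow, sub_eq_zero] at h0

/-- A subgroup acting by endomorphisms of `p`-power order fixes a nonzero vector. -/
theorem exists_fixed_ne_zero [Fact p.Prime] [Finite V] [Nontrivial V]
    (ρ : Γ →* Module.End (ZMod p) V) (H : Subgroup Γ) (hpow : ∀ h ∈ H, ∃ n : ℕ, ρ h ^ p ^ n = 1) :
    ∃ v : V, v ≠ 0 ∧ ∀ h ∈ H, ρ h v = v := by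
  let G : Subgroup (Module.End (ZMod p) V)ˣ := H.map ρ.toHomUnits
  have hG : IsPGroup p G := by
    rintro ⟨u, h, hh, rfl⟩
    obtain ⟨n, hn⟩ := hpow h hh
    exact ⟨n, Subtype.ext (Units.ext (by simpa using hn))⟩
  let _ : MulAction G V :=
    { smul := fun u x ↦ ((u : (Module.End (ZMod p) V)ˣ) : Module.End (ZMod p) V) x
      one_smul := fun x ↦ rfl
      mul_smul := fun u w x ↦ rfl }
  have hdvd : p ∣ Nat.card V := by
    obtain ⟨x, hx⟩ := exists_ne (0 : V)
    exact addOrderOf_eq_prime (ZModModule.char_nsmul_eq_zero p x) hx ▸ addOrderOf_dvd_natCard x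
  obtain ⟨w, hw, hw0⟩ := hG.exists_fixed_point_of_prime_dvd_card_of_fixed_point
    (α := V) hdvd (a := 0)
    (fun u ↦ map_zero ((u : (Module.End (ZMod p) V)ˣ) : Module.End (ZMod p) V))
  exact ⟨w, hw0.symm, fun h hh ↦ hw ⟨ρ.toHomUnits h, ⟨h, hh, rfl⟩⟩⟩

/-- If `(f - 1) (f - c)` is nilpotent, every nonzero `f`-stable subspace contains an eigenvector
of `f` with a natural eigenvalue. -/
theorem exists_eigenvector_nat {W : Submodule (ZMod p) V} {f : Module.End (ZMod p) V} {c : ℕ}
    (hW : ∀ x ∈ W, f x ∈ W)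
    (hnil : IsNilpotent ((f - 1) * (f - (c : Module.End (ZMod p) V))))
    {v : V} (hv : v ≠ 0) (hvW : v ∈ W) :
    ∃ y ∈ W, y ≠ 0 ∧ ∃ a : ℕ, f y = a • y := by
  have hc : ∀ x ∈ W, (f - (c : Module.End (ZMod p) V)) x ∈ W := fun x hx ↦ by
    rw [LinearMap.sub_apply, Module.End.natCast_apply]
    exact W.sub_mem (hW x hx) (nsmul_mem hx _)
  obtain ⟨n, hn⟩ := hnil
  -- a vector of `W` killed by `(f - 1) (f - c)`
  obtain ⟨w, hw0, hwW, hw⟩ : ∃ w : V, w ≠ 0 ∧ w ∈ W ∧
      ((f - 1) * (f - (c : Module.End (ZMod p) V))) w = 0 := by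
    replace hn := LinearMap.congr_fun hn v
    induction n generalizing v with
    | zero => exact absurd (by simpa using hn) hv
    | succ n ih =>
      by_cases h0 : ((f - 1) * (f - (c : Module.End (ZMod p) V))) v = 0
      · exact ⟨v, hv, hvW, h0⟩
      · refine ih h0 ?_ (by rwa [pow_succ, Module.End.mul_apply] at hn)
        exact W.sub_mem (hW _ (hc v hvW)) (hc v hvW)
  by_cases h0 : (f - (c : Module.End (ZMod p) V)) w = 0
  · rw [LinearMap.sub_apply, Module.End.natCast_apply, sub_eq_zero] at h0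
    exact ⟨w, hwW, hw0, c, h0⟩
  · refine ⟨_, hc w hwW, h0, 1, ?_⟩
    rw [Module.End.mul_apply, LinearMap.sub_apply, Module.End.one_apply, sub_eq_zero] at hw
    rw [hw, one_smul]

/-- A representation on which every `(g - 1) (g - χ g)` is nilpotent has a stable line. -/
theorem exists_stable_vector [Fact p.Prime] [Finite V] [Nontrivial V]
    (ρ : Γ →* Module.End (ZMod p) V)
    (hnil : ∀ g : Γ,
      IsNilpotent ((ρ g - 1) * (ρ g - ((χ g : ZMod p).val : Module.End (ZMod p) V)))) :
    ∃ y : V, y ≠ 0 ∧ ∀ g : Γ, ∃ a : ℕ, ρ g y = a • y := by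
  have hpow : ∀ h ∈ χ.ker, ∃ n : ℕ, ρ h ^ p ^ n = 1 := fun h hh ↦ by
    refine exists_pow_eq_one_of_isNilpotent_sub_one ?_
    obtain ⟨n, hn⟩ := hnil h
    rw [MonoidHom.mem_ker.mp hh, Units.val_one, ZMod.val_one, Nat.cast_one, ← pow_two,
      ← pow_mul] at hn
    exact ⟨_, hn⟩
  obtain ⟨v, hv0, hvH⟩ := exists_fixed_ne_zero ρ χ.ker hpow
  obtain ⟨⟨c, g₀, rfl⟩, hgen⟩ := IsCyclic.exists_generator (α := χ.range)
  let V₀ : Submodule (ZMod p) V := ⨅ h ∈ χ.ker, LinearMap.ker (ρ h - 1)
  have hV₀ : ∀ {x : V}, x ∈ V₀ ↔ ∀ h ∈ χ.ker, ρ h x = x := fun {x} ↦ by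
    simp [V₀, sub_eq_zero]
  -- the kernel of `χ` is normal, so `g₀` preserves its fixed vectors
  have hg₀ : ∀ x ∈ V₀, ρ g₀ x ∈ V₀ := fun x hx ↦ hV₀.mpr fun h hh ↦ by
    have h' : g₀⁻¹ * h * g₀ ∈ χ.ker := by simpa using χ.normal_ker.conj_mem h hh g₀⁻¹
    rw [← Module.End.mul_apply, ← map_mul, show h * g₀ = g₀ * (g₀⁻¹ * h * g₀) by group,
      map_mul, Module.End.mul_apply, hV₀.mp hx _ h']
  obtain ⟨y, hyV, hy0, a, hya⟩ :=
    exists_eigenvector_nat hg₀ (hnil g₀) hv0 (hV₀.mpr hvH)
  refine ⟨y, hy0, fun g ↦ ?_⟩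
  obtain ⟨n, hn⟩ :=
    (isOfFinOrder_of_finite (⟨χ g₀, g₀, rfl⟩ : χ.range)).mem_powers_iff_mem_zpowers.mpr
      (hgen ⟨χ g, g, rfl⟩)
  have hn' : (g₀ ^ n)⁻¹ * g ∈ χ.ker := by
    have := congrArg Subtype.val hn
    simp only [SubmonoidClass.coe_pow] at this
    rw [MonoidHom.mem_ker, map_mul, map_inv, map_pow, this, inv_mul_cancel]
  refine ⟨a ^ n, ?_⟩
  rw [← mul_inv_cancel_left (g₀ ^ n) g, map_mul, Module.End.mul_apply, hV₀.mp hyV _ hn', map_pow]
  clear hn' hn
  induction n with
  | zero => simp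
  | succ n ih => rw [pow_succ, Module.End.mul_apply, hya, map_nsmul, ih, smul_smul, pow_succ']

end Linear

/-- A nontrivial finite Eisenstein `p`-group has a stable subgroup of order `p`. -/
theorem exists_stable_line [Fact p.Prime] [Finite M] (hM : IsEisenstein χ M)
    (hp : ∃ k, Nat.card M = p ^ k) [Nontrivial M] :
    ∃ y : M, addOrderOf y = p ∧ ∀ g : Γ, g • y ∈ AddSubgroup.zmultiples y := by
  let T : AddSubgroup M := (nsmulAddMonoidHom p).ker
  have hTstable : ∀ (g : Γ) (x : M), x ∈ T → g • x ∈ T := fun g x hx ↦ by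
    show p • g • x = 0
    rw [← smul_comm g p x, show p • x = 0 from hx, smul_zero]
  have hTp : ∀ x : T, p • x = 0 := fun x ↦ Subtype.ext x.2
  have : Nontrivial T := by
    obtain ⟨k, hk⟩ := hp
    have hk0 : k ≠ 0 := by
      rintro rfl
      exact (Finite.one_lt_card (α := M)).ne' (by simpa using hk)
    obtain ⟨x, hx⟩ := exists_prime_addOrderOf_dvd_card' p
      (show p ∣ Nat.card M from hk ▸ dvd_pow_self p hk0)
    refine ⟨⟨x, show p • x = 0 from hx ▸ addOrderOf_nsmul_eq_zero x⟩, 0, fun h ↦ ?_⟩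
    rw [show x = 0 from congrArg Subtype.val h, addOrderOf_zero] at hx
    exact (Fact.out : p.Prime).ne_one hx.symm
  obtain ⟨modT⟩ : Nonempty (Module (ZMod p) T) := ⟨AddCommGroup.zmodModule hTp⟩
  let ρ : Γ →* Module.End (ZMod p) T :=
    { toFun := fun g ↦
        (AddMonoidHom.mk' (fun x : T ↦ (⟨g • (x : M), hTstable g x x.2⟩ : T))
          (fun a b ↦ Subtype.ext (smul_add g (a : M) b))).toZModLinearMap p
      map_one' := LinearMap.ext fun x ↦ by simp
      map_mul' := fun g h ↦ LinearMap.ext fun x ↦ by simp [mul_smul] }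
  obtain ⟨y, hy0, hy⟩ := exists_stable_vector χ ρ fun g ↦ by
    choose k hk using fun x : M ↦ hM g x
    have : Fintype M := Fintype.ofFinite M
    refine ⟨Finset.univ.sup k, LinearMap.ext fun x ↦ Subtype.ext ?_⟩
    have key : ∀ (j : ℕ) (z : T),
        (((((ρ g - 1) * (ρ g - ((χ g : ZMod p).val : Module.End (ZMod p) T))) ^ j) z : T) : M) =
          (⇑(eisOp χ g))^[j] (z : M) := by
      intro j
      induction j with
      | zero => intro z; rfl
      | succ j ih =>
        intro z
        rw [pow_succ, Module.End.mul_apply, ih, Function.iterate_succ_apply]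
        congr 1
    rw [key]
    obtain ⟨j, hj⟩ := Nat.exists_eq_add_of_le (Finset.le_sup (f := k) (Finset.mem_univ (x : M)))
    rw [hj, add_comm, Function.iterate_add_apply, hk (x : M), iterate_map_zero]
    rfl
  refine ⟨y, addOrderOf_eq_prime y.2 fun h ↦ hy0 (Subtype.ext h), fun g ↦ ?_⟩
  obtain ⟨a, ha⟩ := hy g
  rw [show g • (y : M) = ((a • y : T) : M) from congrArg Subtype.val ha, AddSubgroup.coe_nsmul,
    ← natCast_zsmul]
  exact ⟨_, rfl⟩

section Bound

universe u

variable {D : Type*} [AddCommGroup D] [DistribMulAction Γ D] [DivisibleBy D ℤ] (S : Sys Γ D)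

/-- The bound for lines: what Minkowski's theorem and the units of `ℤ` provide. -/
def LineBound : Prop :=
  ∀ (W : Type u) [AddCommGroup W] [DistribMulAction Γ W] (Wm : AddSubgroup W),
    Nat.card W = p → IsEisenstein χ W → S.IsGood Wm →
      Finite (S.Coh Wm) ∧ Nat.card (S.Coh Wm) ≤ Nat.card Wm

variable {χ S}

/-- The action on a stable subgroup. -/
@[implicit_reducible] def subAction {M : Type*} [AddCommGroup M] [DistribMulAction Γ M]
    (W : AddSubgroup M) (hW : ∀ (g : Γ) (x : M), x ∈ W → g • x ∈ W) :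
    DistribMulAction Γ W where
  smul g x := ⟨g • (x : M), hW g x x.2⟩
  one_smul x := Subtype.ext (one_smul Γ (x : M))
  mul_smul g h x := Subtype.ext (mul_smul g h (x : M))
  smul_zero g := Subtype.ext (smul_zero g)
  smul_add g a b := Subtype.ext (smul_add g (a : M) b)

/-- The action on the quotient by a stable subgroup. -/
@[implicit_reducible] def quotAction {M : Type*} [AddCommGroup M] [DistribMulAction Γ M]
    (W : AddSubgroup M) (hW : ∀ (g : Γ) (x : M), x ∈ W → g • x ∈ W) :
    DistribMulAction Γ (M ⧸ W) where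
  smul g := QuotientAddGroup.map W W (DistribSMul.toAddMonoidHom M g) fun x hx ↦ hW g x hx
  one_smul q := QuotientAddGroup.induction_on q fun x ↦
    congrArg (QuotientAddGroup.mk (s := W)) (one_smul Γ x)
  mul_smul g h q := QuotientAddGroup.induction_on q fun x ↦
    congrArg (QuotientAddGroup.mk (s := W)) (mul_smul g h x)
  smul_zero g := congrArg (QuotientAddGroup.mk (s := W)) (smul_zero g)
  smul_add g a b := map_add
    (QuotientAddGroup.map W W (DistribSMul.toAddMonoidHom M g) fun x hx ↦ hW g x hx) a b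

/-- Dévissage: the bound for lines gives the bound for all Eisenstein `p`-groups. -/
theorem finite_coh_and_card_le_of_lineBound [Fact p.Prime] (hleaf : LineBound.{u} χ S)
    (k : ℕ) : ∀ (M : Type u) [AddCommGroup M] [DistribMulAction Γ M] (Mm : AddSubgroup M),
      Nat.card M = p ^ k → IsEisenstein χ M → S.IsGood Mm →
        Finite (S.Coh Mm) ∧ Nat.card (S.Coh Mm) ≤ Nat.card Mm := by
  induction k using Nat.strong_induction_on with
  | _ k ih =>
    intro M _ _ Mm hcard hEis hgood
    have hpp : p.Prime := Fact.out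
    have : Finite M := Nat.finite_of_card_ne_zero (by rw [hcard]; exact pow_ne_zero _ hpp.ne_zero)
    rcases Nat.eq_zero_or_pos k with rfl | hk
    · have : Subsingleton M := (Nat.card_eq_one_iff_unique.mp (by simpa using hcard)).1
      have : Subsingleton ((Γ → M) × M) := inferInstance
      have : Subsingleton (S.Rel Mm) := ⟨fun a b ↦ Subtype.ext (Subsingleton.elim _ _)⟩
      have : Subsingleton (S.Coh Mm) := Function.Surjective.subsingleton
        (QuotientAddGroup.mk_surjective)
      refine ⟨inferInstance, ?_⟩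
      rw [Nat.card_unique (α := S.Coh Mm)]
      exact Nat.card_pos
    · have : Nontrivial M := Finite.one_lt_card_iff_nontrivial.mp
        (by rw [hcard]; exact Nat.one_lt_pow hk.ne' hpp.one_lt)
      obtain ⟨y, hy, hyst⟩ := exists_stable_line χ hEis ⟨k, hcard⟩
      set W := AddSubgroup.zmultiples y with hWdef
      have hWst : ∀ (g : Γ) (x : M), x ∈ W → g • x ∈ W := by
        rintro g x ⟨n, rfl⟩
        show g • n • y ∈ W
        rw [show g • n • y = n • g • y from map_zsmul (DistribSMul.toAddMonoidHom M g) n y]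
        exact W.zsmul_mem (hyst g) n
      let := subAction W hWst
      let := quotAction W hWst
      let i : W →+[Γ] M :=
        { toFun := Subtype.val
          map_smul' := fun _ _ ↦ rfl
          map_zero' := rfl
          map_add' := fun _ _ ↦ rfl }
      let π : M →+[Γ] M ⧸ W :=
        { toFun := QuotientAddGroup.mk
          map_smul' := fun _ _ ↦ rfl
          map_zero' := rfl
          map_add' := fun _ _ ↦ rfl }
      have hWcard : Nat.card W = p := by rw [Nat.card_zmultiples, hy]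
      have hQcard : Nat.card (M ⧸ W) = p ^ (k - 1) := by
        have h1 := AddSubgroup.card_eq_card_quotient_mul_card_addSubgroup W
        rw [hWcard, hcard, show k = k - 1 + 1 by omega, pow_succ] at h1
        exact (Nat.eq_of_mul_eq_mul_right hpp.pos h1).symm
      have hi : Function.Injective i := Subtype.val_injective
      have hπ : Function.Surjective π := QuotientAddGroup.mk_surjective
      obtain ⟨f1, b1⟩ := hleaf W _ hWcard (hEis.of_injective χ i hi) (hgood.comap i hi)
      obtain ⟨f2, b2⟩ := ih (k - 1) (by omega) (M ⧸ W) _ hQcard (hEis.of_surjective χ π hπ)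
        (hgood.map π hπ)
      obtain ⟨f3, b3⟩ := Sys.finite_coh_and_card_le hgood i π hi hπ fun x ↦ by
        show ((x : M ⧸ W) = 0) ↔ _
        rw [QuotientAddGroup.eq_zero_iff]
        exact ⟨fun h ↦ ⟨⟨x, h⟩, rfl⟩, fun ⟨w, hw⟩ ↦ hw ▸ w.2⟩
      refine ⟨f3, b3.trans ((Nat.mul_le_mul b1 b2).trans (le_of_eq ?_))⟩
      let r : Mm →+ Mm.map π.toAddMonoidHom :=
        (π.toAddMonoidHom.comp Mm.subtype).codRestrict _ fun x ↦ ⟨x, x.2, rfl⟩
      have hr : Function.Surjective r := by
        rintro ⟨_, x, hx, rfl⟩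
        exact ⟨⟨x, hx⟩, rfl⟩
      rw [AddSubgroup.card_eq_card_quotient_mul_card_addSubgroup r.ker,
        Nat.card_congr (QuotientAddGroup.quotientKerEquivOfSurjective r hr).toEquiv, mul_comm]
      congr 1
      refine Nat.card_congr
        { toFun := fun w ↦ ⟨⟨(w.1 : M), w.2⟩,
            Subtype.ext ((QuotientAddGroup.eq_zero_iff _).mpr w.1.2)⟩
          invFun := fun x ↦ ⟨⟨(x.1 : M),
            (QuotientAddGroup.eq_zero_iff _).mp (congrArg Subtype.val x.2)⟩, x.1.2⟩
          left_inv := fun _ ↦ rfl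
          right_inv := fun _ ↦ rfl }

end Bound

end Fermat.Agent.EisensteinDescent
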