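import Mathlib.Data.Nat.Factorization.Defs
import Mathlib.GroupTheory.SpecificGroups.Cyclic
import Mathlib.Data.Rat.Lemmas
import Fermat.Agent.EisensteinDescent.Devissage
import Fermat.Agent.EisensteinDescent.GalSys
import Fermat.Agent.GaloisBasics.Unramified
import Fermat.Agent.LocalInertia.Basic
import Fermat.Agent.LocalInertia.Cyclotomic

/-!
# The bound for lines

For a line the classes with the local conditions come from Minkowski's theorem (trivial local
part at `p`) and from the units `±1` of `ℤ` (multiplicative local part).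
-/


open scoped Pointwise
open Fermat.Agent.GaloisBasics Fermat.Agent.LocalInertia

namespace Fermat.Agent.EisensteinDescent

variable {A : ValuationSubring Qbar} {q : ℕ}

/-- The valuation of a natural number through its factorization. -/
theorem valuation_natCast_eq_factorization (hA : A.LiesOverPrime q) (hq : q.Prime) {n : ℕ}
    (hn : n ≠ 0) : A.valuation (n : Qbar) = A.valuation (q : Qbar) ^ n.factorization q := by
  conv_lhs => rw [← Nat.ordProj_mul_ordCompl_eq_self n q]
  rw [Nat.cast_mul, Nat.cast_pow, map_mul, map_pow,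
    valuation_natCast_of_coprime hA (Nat.coprime_ordCompl hq hn).symm, mul_one]

/-- A natural number with all exponents divisible by `p` is a `p`-th power. -/
theorem exists_eq_pow_of_dvd_factorization (p : ℕ) {n : ℕ} (hn : n ≠ 0)
    (h : ∀ q : ℕ, q.Prime → p ∣ n.factorization q) : ∃ m : ℕ, n = m ^ p := by
  refine ⟨n.factorization.prod fun q e ↦ q ^ (e / p), ?_⟩
  conv_lhs => rw [← Nat.prod_factorization_pow_eq_self hn]
  rw [Finsupp.prod, Finsupp.prod, ← Finset.prod_pow]
  refine Finset.prod_congr rfl fun q hq ↦ ?_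
  rw [← pow_mul, Nat.div_mul_cancel (h q (Nat.prime_of_mem_primeFactors (by simpa using hq)))]

/-- A rational number with all valuations divisible by `p` is a `p`-th power up to sign. -/
theorem exists_eq_pow_or_eq_neg_pow {p : ℕ} (hp : p ≠ 0) {a : ℚ} (ha : a ≠ 0)
    (h : ∀ q : ℕ, q.Prime → ∃ B : ValuationSubring Qbar, B.LiesOverPrime q ∧
      ∃ k : ℤ, B.valuation (a : Qbar) = B.valuation (q : Qbar) ^ ((p : ℤ) * k)) :
    ∃ s : ℚ, s ≠ 0 ∧ (a = s ^ p ∨ a = -s ^ p) := by
  have hnum0 : a.num.natAbs ≠ 0 := Int.natAbs_ne_zero.2 (Rat.num_ne_zero.2 ha)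
  have key : ∀ q : ℕ, q.Prime →
      p ∣ a.num.natAbs.factorization q ∧ p ∣ a.den.factorization q := by
    intro q hq
    obtain ⟨B, hB, k, hk⟩ := h q hq
    have hv0 : B.valuation (q : Qbar) ≠ 0 :=
      (map_ne_zero B.valuation).2 (Nat.cast_ne_zero.2 hq.ne_zero)
    rw [Rat.cast_def, map_div₀,
      show B.valuation ((a.num : ℤ) : Qbar) = B.valuation ((a.num.natAbs : ℕ) : Qbar) by
        rcases Int.natAbs_eq a.num with e | e
        · conv_lhs => rw [e, Int.cast_natCast]
        · conv_lhs => rw [e, Int.cast_neg, Int.cast_natCast, Valuation.map_neg],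
      valuation_natCast_eq_factorization hB hq hnum0,
      valuation_natCast_eq_factorization hB hq a.den_nz, ← zpow_natCast, ← zpow_natCast,
      ← zpow_sub₀ hv0] at hk
    have hk' := (zpow_right_strictAnti₀ (zero_lt_iff.2 hv0)
      ((ValuationSubring.mem_nonunits_iff B).1 hB)).injective hk
    by_cases hd : q ∣ a.den
    · have hn : ¬ q ∣ a.num.natAbs := fun hn ↦
        hq.not_dvd_one (a.reduced ▸ Nat.dvd_gcd hn hd)
      have he : a.num.natAbs.factorization q = 0 := Nat.factorization_eq_zero_of_not_dvd hn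
      refine ⟨he ▸ dvd_zero p, Int.natCast_dvd_natCast.1 ⟨-k, ?_⟩⟩
      rw [he] at hk'
      push_cast at hk'
      linarith
    · have he : a.den.factorization q = 0 := Nat.factorization_eq_zero_of_not_dvd hd
      refine ⟨Int.natCast_dvd_natCast.1 ⟨k, ?_⟩, he ▸ dvd_zero p⟩
      rw [he] at hk'
      push_cast at hk'
      linarith
  obtain ⟨m, hm⟩ := exists_eq_pow_of_dvd_factorization p hnum0 fun q hq ↦ (key q hq).1
  obtain ⟨d, hd⟩ := exists_eq_pow_of_dvd_factorization p a.den_nz fun q hq ↦ (key q hq).2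
  have hm0 : m ≠ 0 := by rintro rfl; exact hnum0 (by rw [hm, zero_pow hp])
  have hd0 : d ≠ 0 := by rintro rfl; exact a.den_nz (by rw [hd, zero_pow hp])
  refine ⟨(m : ℚ) / d, div_ne_zero (Nat.cast_ne_zero.2 hm0) (Nat.cast_ne_zero.2 hd0), ?_⟩
  have hden : (a.den : ℚ) = (d : ℚ) ^ p := by exact_mod_cast hd
  rcases Int.natAbs_eq a.num with e | e
  · left
    conv_lhs => rw [← Rat.num_div_den a, e, hm]
    rw [div_pow, hden]
    push_cast
    rfl
  · right
    conv_lhs => rw [← Rat.num_div_den a, e, hm]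
    rw [div_pow, hden]
    push_cast
    ring

variable {N p : ℕ} {AN Ap : ValuationSubring Qbar} (χ : GalQ →* (ZMod p)ˣ)

/-- On a line with the Eisenstein property Galois acts trivially, or through the character. -/
theorem forall_smul_eq_self_or_char [Fact p.Prime] {W : Type*} [AddCommGroup W]
    [DistribMulAction GalQ W] (hcard : Nat.card W = p) (hEis : IsEisenstein χ W) :
    (∀ (σ : GalQ) (x : W), σ • x = x) ∨
      ∀ (σ : GalQ) (x : W), σ • x = (χ σ : ZMod p).val • x := by
  have hp : p.Prime := Fact.out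
  have : Finite W := Nat.finite_of_card_ne_zero (hcard ▸ hp.ne_zero)
  have : Nontrivial W := Finite.one_lt_card_iff_nontrivial.mp (hcard ▸ hp.one_lt)
  have hWprime : Fact (Nat.card W).Prime := ⟨hcard ▸ hp⟩
  have hpW : ∀ x : W, p • x = 0 := fun x ↦ hcard ▸ card_nsmul_eq_zero'
  let K1 : Subgroup GalQ :=
    { carrier := {σ | ∀ x : W, σ • x = x}
      one_mem' := fun x ↦ one_smul _ x
      mul_mem' := fun {a b} ha hb x ↦ by rw [mul_smul, hb, ha]
      inv_mem' := fun {a} ha x ↦ by
        conv_lhs => rw [← ha x]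
        rw [inv_smul_smul] }
  have hval : ∀ (u v : (ZMod p)ˣ) (x : W),
      ((u * v : (ZMod p)ˣ) : ZMod p).val • x = (u : ZMod p).val • (v : ZMod p).val • x := by
    intro u v x
    rw [smul_smul, Units.val_mul, ZMod.val_mul]
    conv_rhs => rw [← Nat.mod_add_div ((u : ZMod p).val * (v : ZMod p).val) p, add_smul, mul_comm p,
      mul_smul, hpW, smul_zero, add_zero]
  have hone : ∀ x : W, ((1 : (ZMod p)ˣ) : ZMod p).val • x = x := fun x ↦ by
    rw [Units.val_one, ZMod.val_one, one_smul]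
  let K2 : Subgroup GalQ :=
    { carrier := {σ | ∀ x : W, σ • x = (χ σ : ZMod p).val • x}
      one_mem' := fun x ↦ by rw [one_smul, map_one, hone]
      mul_mem' := fun {a b} ha hb x ↦ by
        rw [mul_smul, hb x, ha, map_mul, hval]
      inv_mem' := fun {a} ha x ↦ by
        rw [inv_smul_eq_iff, ha, ← hval, ← map_mul, mul_inv_cancel, map_one, hone] }
  have hdich : ∀ σ : GalQ, σ ∈ K1 ∨ σ ∈ K2 := by
    intro σ
    have hzero : eisOp (M := W) χ σ = 0 := by
      rcases (eisOp (M := W) χ σ).ker.eq_bot_or_eq_top_of_prime_card with hk | hk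
      · obtain ⟨x, hx⟩ := exists_ne (0 : W)
        obtain ⟨k, hk'⟩ := hEis σ x
        have hinj := (AddMonoidHom.ker_eq_bot_iff _).1 hk
        exact absurd ((hinj.iterate k) (hk'.trans (iterate_map_zero _ k).symm)) hx
      · exact AddMonoidHom.ker_eq_top_iff.1 hk
    let f : W →+ W := DistribSMul.toAddMonoidHom W σ - nsmulAddMonoidHom (χ σ : ZMod p).val
    have hf : ∀ x, σ • f x = f x := fun x ↦ by
      have := DFunLike.congr_fun hzero x
      rw [eisOp_apply, AddMonoidHom.zero_apply, sub_eq_zero] at this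
      exact this
    rcases f.range.eq_bot_or_eq_top_of_prime_card with hr | hr
    · right
      intro x
      have : f x = 0 := by
        have h0 : f x ∈ f.range := ⟨x, rfl⟩
        rwa [hr, AddSubgroup.mem_bot] at h0
      exact sub_eq_zero.1 this
    · left
      intro x
      obtain ⟨y, rfl⟩ := AddMonoidHom.mem_range.1 (hr ▸ AddSubgroup.mem_top x : x ∈ f.range)
      exact hf y
  have hcases : (∀ σ, σ ∈ K1) ∨ (∀ σ, σ ∈ K2) := by
    by_contra! h
    obtain ⟨⟨a, ha⟩, ⟨b, hb⟩⟩ := h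
    have ha2 : a ∈ K2 := (hdich a).resolve_left ha
    have hb1 : b ∈ K1 := (hdich b).resolve_right hb
    rcases hdich (a * b) with h' | h'
    · exact ha ((K1.mul_mem_cancel_right hb1).1 h')
    · exact hb ((K2.mul_mem_cancel_left ha2).1 h')
  exact hcases

/-- Inertia at `p` reaches every value of the cyclotomic character. -/
theorem exists_mem_inertia_char_eq (hp : p.Prime) (hAp : Ap.LiesOverPrime p)
    (hχ : ∀ (σ : GalQ) (z : Qbar), z ^ p = 1 → σ z = z ^ (χ σ : ZMod p).val) :
    ∀ u : (ZMod p)ˣ, ∃ σ ∈ Ap.inertiaSubgroupIn ℚ, χ σ = u := by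
  have : NeZero p := ⟨hp.ne_zero⟩
  obtain ⟨ζ, hζ⟩ := HasEnoughRootsOfUnity.exists_primitiveRoot Qbar p
  intro u
  obtain ⟨σ, hσ, h⟩ := exists_inertia_pow_on_rootsOfUnity hAp hp 1
    (a := (u : ZMod p).val) (ZMod.val_coe_unit_coprime u)
  refine ⟨σ, hσ, Units.ext (ZMod.val_injective p ?_)⟩
  exact hζ.pow_inj (ZMod.val_lt _) (ZMod.val_lt _)
    ((hχ σ ζ hζ.pow_eq_one).symm.trans (h ζ (by rw [pow_one]; exact hζ.pow_eq_one)))

/-- The bound for a line with trivial action and trivial multiplicative part, by Minkowski's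
theorem. -/
theorem coh_bound_of_trivial {W : Type} [AddCommGroup W] [DistribMulAction GalQ W]
    {Wm : AddSubgroup W} [Finite W] (hN : N.Prime) (hAN : AN.LiesOverPrime N)
    (hAp : Ap.LiesOverPrime p) (hWm : Wm = ⊥) (htriv : ∀ (σ : GalQ) (x : W), σ • x = x) :
    Finite ((galSys N p AN Ap).Coh Wm) ∧
      Nat.card ((galSys N p AN Ap).Coh Wm) ≤ Nat.card Wm := by
  classical
  have hzero : ∀ x ∈ (galSys N p AN Ap).Rel Wm, x.1 = 0 := by
    intro x hx
    let h : GalQ →* Multiplicative W :=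
      MonoidHom.mk' (fun σ ↦ Multiplicative.ofAdd (x.1 σ)) fun a b ↦ by
        rw [hx.cocycle, htriv]
        rfl
    have hfin : GaloisFactorsThroughFiniteLevel h := by
      obtain ⟨H, ⟨L, hL, rfl⟩, hc⟩ := hx.continuous
      exact ⟨L, hL, fun σ hσ ↦ by
        show Multiplicative.ofAdd (x.1 σ) = 1
        rw [hc σ ((IntermediateField.mem_fixingSubgroup_iff L σ).2 hσ), ofAdd_zero]⟩
    have hh : h = 1 := eq_one_of_inertia h hfin fun q hq B hB σ hσ ↦ by
      show Multiplicative.ofAdd (x.1 σ) = 1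
      rcases eq_or_ne q p with rfl | hqp
      · refine map_inertia_eq_one_of_one_place h hAp hq (fun τ hτ ↦ ?_) hB σ hσ
        have := hx.pCond.1 τ hτ
        rw [hWm, AddSubgroup.mem_bot] at this
        show Multiplicative.ofAdd (x.1 τ) = 1
        rw [this, ofAdd_zero]
      rcases eq_or_ne q N with rfl | hqN
      · refine map_inertia_eq_one_of_one_place h hAN hq (fun τ hτ ↦ ?_) hB σ hσ
        show Multiplicative.ofAdd (x.1 τ) = 1
        rw [hx.atN τ hτ, htriv, sub_self, ofAdd_zero]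
      · rw [hx.unramified _ ⟨q, hq, hqp, hqN, B, hB, rfl⟩ σ hσ, ofAdd_zero]
    funext σ
    exact Multiplicative.ofAdd.injective (DFunLike.congr_fun hh σ)
  have : Subsingleton ((galSys N p AN Ap).Coh Wm) := ⟨fun a b ↦ by
    suffices ∀ z : (galSys N p AN Ap).Coh Wm, z = 0 from (this a).trans (this b).symm
    intro z
    induction z using QuotientAddGroup.induction_on with
    | H x =>
      refine (QuotientAddGroup.eq_zero_iff _).2 ⟨(x : (GalQ → W) × W).2, ?_⟩
      refine Prod.ext (funext fun σ ↦ ?_) rfl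
      show σ • _ - _ = (x : (GalQ → W) × W).1 σ
      rw [hzero x x.2, htriv, sub_self]
      rfl⟩
  refine ⟨inferInstance, ?_⟩
  rw [Nat.card_unique]
  exact Nat.card_pos

/-- The odd case of `coh_bound_of_cyclotomic`: only the trivialisations at `N` remain. -/
private theorem coh_bound_of_odd (hodd : Odd p) {W : Type} [AddCommGroup W]
    [DistribMulAction GalQ W] [Finite W] (hgood : (galSys N p AN Ap).IsGood (⊤ : AddSubgroup W))
    (φ : W →+ Qmul) (hφinj : Function.Injective φ)
    (hφsurj : ∀ z : Qbar, z ^ p = 1 → ∃ w, qval (φ w) = z)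
    (hequiv : ∀ (σ : GalQ) (w : W), φ (σ • w) = σ • φ w)
    (hKummer : ∀ x ∈ (galSys N p AN Ap).Rel (⊤ : AddSubgroup W),
      ∃ (b : Qmul) (s : ℚ), s ≠ 0 ∧ (∀ σ, φ (x.1 σ) = σ • b - b) ∧
        (qval b ^ p = (s : Qbar) ^ p ∨ qval b ^ p = -(s : Qbar) ^ p)) :
    Finite ((galSys N p AN Ap).Coh (⊤ : AddSubgroup W)) ∧
      Nat.card ((galSys N p AN Ap).Coh (⊤ : AddSubgroup W)) ≤
        Nat.card (⊤ : AddSubgroup W) := by
  have hrep : ∀ z : (galSys N p AN Ap).Coh (⊤ : AddSubgroup W),
      ∃ w : W, ∃ h : ((0, w) : (GalQ → W) × W) ∈ (galSys N p AN Ap).Rel ⊤,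
        QuotientAddGroup.mk (⟨_, h⟩ : (galSys N p AN Ap).Rel (⊤ : AddSubgroup W)) = z := by
    intro z
    induction z using QuotientAddGroup.induction_on with
    | H x =>
      obtain ⟨b, s, hs0, hb, hbs⟩ := hKummer x x.2
      obtain ⟨t, ht0, hbt⟩ : ∃ t : ℚ, t ≠ 0 ∧ qval b ^ p = (t : Qbar) ^ p := by
        rcases hbs with h | h
        · exact ⟨s, hs0, h⟩
        · exact ⟨-s, neg_ne_zero.2 hs0, by rw [h, Rat.cast_neg, hodd.neg_pow]⟩
      obtain ⟨v, hv⟩ := hφsurj (qval b / (t : Qbar)) (by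
        rw [div_pow, hbt, div_self (pow_ne_zero _ (Rat.cast_ne_zero.2 ht0))])
      have hc : ∀ σ, (x : (GalQ → W) × W).1 σ = σ • v - v := fun σ ↦ by
        refine hφinj (qval_injective ?_)
        rw [hb, map_sub, hequiv, qval_sub, qval_sub, qval_smul, qval_smul, hv, map_div₀,
          map_ratCast]
        field_simp [Rat.cast_ne_zero.2 ht0, qval_ne_zero b]
      have heq : ((0, (x : (GalQ → W) × W).2 - v) : (GalQ → W) × W) =
          (x : (GalQ → W) × W) - Sys.cobound v := by
        refine Prod.ext (funext fun σ ↦ ?_) rfl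
        simp [hc σ]
      refine ⟨(x : (GalQ → W) × W).2 - v,
        heq ▸ ((galSys N p AN Ap).Rel ⊤).sub_mem x.2 (hgood.cobound_mem v), ?_⟩
      rw [QuotientAddGroup.eq]
      refine ⟨v, ?_⟩
      show Sys.cobound v = -((0, (x : (GalQ → W) × W).2 - v) : (GalQ → W) × W) +
        (x : (GalQ → W) × W)
      rw [heq]
      abel
  choose w hw hweq using hrep
  have hwinj : Function.Injective w := fun a b h ↦ by
    rw [← hweq a, ← hweq b]
    exact congrArg _ (Subtype.ext (congrArg (fun w ↦ ((0 : GalQ → W), w)) h))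
  have := Finite.of_injective w hwinj
  refine ⟨inferInstance, ?_⟩
  rw [AddSubgroup.card_top]
  exact Nat.card_le_card_of_injective w hwinj

/-- The case `p = 2` of `coh_bound_of_cyclotomic`: the cocycle is trivial or that of `√-1`. -/
private theorem coh_bound_of_two {W : Type} [AddCommGroup W] [DistribMulAction GalQ W]
    (hcard : Nat.card W = 2) (htriv : ∀ (σ : GalQ) (x : W), σ • x = x)
    (φ : W →+ Qmul) (hφinj : Function.Injective φ)
    (hKummer : ∀ x ∈ (galSys N 2 AN Ap).Rel (⊤ : AddSubgroup W),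
      ∃ (b : Qmul) (s : ℚ), s ≠ 0 ∧ (∀ σ, φ (x.1 σ) = σ • b - b) ∧
        (qval b ^ 2 = (s : Qbar) ^ 2 ∨ qval b ^ 2 = -(s : Qbar) ^ 2)) :
    Finite ((galSys N 2 AN Ap).Coh (⊤ : AddSubgroup W)) ∧
      Nat.card ((galSys N 2 AN Ap).Coh (⊤ : AddSubgroup W)) ≤
        Nat.card (⊤ : AddSubgroup W) := by
  classical
  obtain ⟨i, hi⟩ := IsAlgClosed.exists_pow_nat_eq (-1 : Qbar) two_pos
  have hclass : ∀ x ∈ (galSys N 2 AN Ap).Rel (⊤ : AddSubgroup W),
      (∀ σ, qval (φ (x.1 σ)) = 1) ∨ (∀ σ, qval (φ (x.1 σ)) = σ i / i) := by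
    intro x hx
    obtain ⟨b, s, hs0, hb, hbs⟩ := hKummer x hx
    have hs0' : (s : Qbar) ≠ 0 := Rat.cast_ne_zero.2 hs0
    rcases hbs with h | h
    · left
      intro σ
      rw [hb, qval_sub, qval_smul, div_eq_one_iff_eq (qval_ne_zero b)]
      rcases sq_eq_sq_iff_eq_or_eq_neg.1 h with h' | h' <;>
        simp [h']
    · right
      intro σ
      have h' : qval b ^ 2 = ((s : Qbar) * i) ^ 2 := by rw [h, mul_pow, hi]; ring
      rw [hb, qval_sub, qval_smul]
      rcases sq_eq_sq_iff_eq_or_eq_neg.1 h' with h'' | h'' <;> rw [h'']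
      · rw [map_mul, map_ratCast, mul_div_mul_left _ _ hs0']
      · rw [map_neg, map_mul, map_ratCast, neg_div_neg_eq, mul_div_mul_left _ _ hs0']
  let r : (galSys N 2 AN Ap).Coh (⊤ : AddSubgroup W) →+ (GalQ → W) :=
    QuotientAddGroup.lift _
      ((AddMonoidHom.fst (GalQ → W) W).comp ((galSys N 2 AN Ap).Rel ⊤).subtype) (by
      rintro x ⟨v, hv⟩
      show (x : (GalQ → W) × W).1 = 0
      rw [show (x : (GalQ → W) × W) = Sys.cobound v from hv.symm]
      funext σ
      simp [htriv])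
  have hrinj : Function.Injective r := by
    refine (injective_iff_map_eq_zero r).2 fun z ↦ ?_
    induction z using QuotientAddGroup.induction_on with
    | H x =>
      intro hx
      refine (QuotientAddGroup.eq_zero_iff _).2 ⟨(x : (GalQ → W) × W).2, ?_⟩
      refine Prod.ext (funext fun σ ↦ ?_) rfl
      show σ • _ - _ = (x : (GalQ → W) × W).1 σ
      rw [show (x : (GalQ → W) × W).1 = 0 from hx, htriv, sub_self]
      rfl
  let c₁ : GalQ → W := fun σ ↦
    if h : ∃ w, qval (φ w) = σ i / i then h.choose else 0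
  have hrange : Set.range r ⊆ {0, c₁} := by
    rintro _ ⟨z, rfl⟩
    induction z using QuotientAddGroup.induction_on with
    | H x =>
      show (x : (GalQ → W) × W).1 ∈ _
      rcases hclass x x.2 with h | h
      · left
        funext σ
        exact hφinj (qval_injective (by rw [h σ, Pi.zero_apply, map_zero, qval_zero]))
      · right
        funext σ
        have hex' : ∃ w, qval (φ w) = σ i / i := ⟨_, h σ⟩
        refine hφinj (qval_injective ?_)
        rw [h σ]
        simp only [c₁]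
        rw [dif_pos hex', hex'.choose_spec]
  have hfin : ({0, c₁} : Set (GalQ → W)).Finite := Set.toFinite _
  have := hfin.to_subtype
  have : Finite (Set.range r) := (hfin.subset hrange).to_subtype
  have : Finite ((galSys N 2 AN Ap).Coh (⊤ : AddSubgroup W)) :=
    Finite.of_injective (Set.rangeFactorization r) fun a b h ↦
      hrinj (congrArg Subtype.val h)
  refine ⟨inferInstance, ?_⟩
  rw [← Nat.card_range_of_injective hrinj, AddSubgroup.card_top, hcard]
  refine (Nat.card_mono hfin hrange).trans ?_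
  rw [Nat.card_coe_set_eq]
  exact Set.ncard_insert_le _ _ |>.trans (by simp)

/-- The bound for a line on which Galois acts through the character and which is its own
multiplicative part, by the units `±1` of `ℤ`. -/
theorem coh_bound_of_cyclotomic (hp : p.Prime) (hAN : AN.LiesOverPrime N)
    (hAp : Ap.LiesOverPrime p)
    (hχ : ∀ (σ : GalQ) (z : Qbar), z ^ p = 1 → σ z = z ^ (χ σ : ZMod p).val)
    {W : Type} [AddCommGroup W] [DistribMulAction GalQ W] (hcard : Nat.card W = p)
    (hEis : IsEisenstein χ W) (hgood : (galSys N p AN Ap).IsGood (⊤ : AddSubgroup W)) :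
    Finite ((galSys N p AN Ap).Coh (⊤ : AddSubgroup W)) ∧
      Nat.card ((galSys N p AN Ap).Coh (⊤ : AddSubgroup W)) ≤
        Nat.card (⊤ : AddSubgroup W) := by
  classical
  have : Fact p.Prime := ⟨hp⟩
  have hWprime : Fact (Nat.card W).Prime := ⟨hcard ▸ hp⟩
  have : Finite W := Nat.finite_of_card_ne_zero (hcard ▸ hp.ne_zero)
  have hone : ∀ x : W, ((1 : (ZMod p)ˣ) : ZMod p).val • x = x := fun x ↦ by
    rw [Units.val_one, ZMod.val_one, one_smul]
  have hcases := forall_smul_eq_self_or_char χ hcard hEis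
  have hsurj := exists_mem_inertia_char_eq χ hp hAp hχ
  obtain ⟨ζ, hζ⟩ : ∃ ζ : Qbar, IsPrimitiveRoot ζ p :=
    have : NeZero p := ⟨hp.ne_zero⟩
    HasEnoughRootsOfUnity.exists_primitiveRoot Qbar p
  have : IsAddCyclic W := isAddCyclic_of_prime_card hcard
  let e : ZMod p ≃+ W :=
    (ZMod.ringEquivCongr hcard.symm).toAddEquiv.trans (zmodAddCyclicAddEquiv inferInstance)
  have hzpow : ∀ a b : ZMod p, ζ ^ (a + b).val = ζ ^ a.val * ζ ^ b.val := fun a b ↦ by
    rw [← pow_add, pow_eq_pow_mod (a.val + b.val) hζ.pow_eq_one, ZMod.val_add]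
  let φ : W →+ Qmul := AddMonoidHom.mk'
    (fun w ↦ qmk (ζ ^ (e.symm w).val) (pow_ne_zero _ (hζ.ne_zero hp.ne_zero)))
    fun v w ↦ qval_injective (by simp [hzpow])
  have hqφ : ∀ w, qval (φ w) = ζ ^ (e.symm w).val := fun _ ↦ rfl
  have hφinj : Function.Injective φ := fun v w h ↦ by
    have := congrArg qval h
    rw [hqφ, hqφ] at this
    exact e.symm.injective (ZMod.val_injective p
      (hζ.pow_inj (ZMod.val_lt _) (ZMod.val_lt _) this))
  have hφpow : ∀ w, qval (φ w) ^ p = 1 := fun w ↦ by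
    rw [hqφ, pow_right_comm, hζ.pow_eq_one, one_pow]
  have hφsurj : ∀ z : Qbar, z ^ p = 1 → ∃ w, qval (φ w) = z := fun z hz ↦ by
    have : NeZero p := ⟨hp.ne_zero⟩
    obtain ⟨i, hi, rfl⟩ := hζ.eq_pow_of_pow_eq_one hz
    exact ⟨e i, by rw [hqφ, AddEquiv.symm_apply_apply, ZMod.val_natCast, Nat.mod_eq_of_lt hi]⟩
  have hφσ : ∀ (σ : GalQ) (w : W), σ • φ w = (χ σ : ZMod p).val • φ w := fun σ w ↦
    qval_injective (by rw [qval_smul, qval_nsmul, hχ σ _ (hφpow w)])
  have hchi : ∀ (σ : GalQ) (x : W), σ • x = (χ σ : ZMod p).val • x := by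
    rcases hcases with h | h
    · intro σ x
      obtain ⟨τ, hτ, hτσ⟩ := hsurj (χ σ)
      have := hgood.equivariant τ hτ (φ.comp (⊤ : AddSubgroup W).subtype) x
        (AddSubgroup.mem_top _) (AddSubgroup.mem_top _)
      simp only [AddMonoidHom.comp_apply, AddSubgroup.coe_subtype] at this
      rw [hφσ, ← map_nsmul] at this
      rw [← hτσ, ← hφinj this, h τ, h σ]
    · exact h
  have hequiv : ∀ (σ : GalQ) (w : W), φ (σ • w) = σ • φ w := fun σ w ↦ by
    rw [hchi, map_nsmul, hφσ]
  -- the Kummer element of a class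
  have hKummer : ∀ x ∈ (galSys N p AN Ap).Rel (⊤ : AddSubgroup W),
      ∃ (b : Qmul) (s : ℚ), s ≠ 0 ∧ (∀ σ, φ (x.1 σ) = σ • b - b) ∧
        (qval b ^ p = (s : Qbar) ^ p ∨ qval b ^ p = -(s : Qbar) ^ p) := by
    intro x hx
    obtain ⟨b, hb⟩ := exists_eq_smul_sub_of_cocycle ⊤ (φ ∘ x.1)
      (fun σ _ τ _ ↦ by simp [hx.cocycle, hequiv])
      (by
        obtain ⟨H, hH, h⟩ := hx.continuous
        exact ⟨H, hH, fun σ _ hσ ↦ by simp [h σ hσ]⟩)
    have hb' : ∀ σ, φ (x.1 σ) = σ • b - b := fun σ ↦ hb σ (Subgroup.mem_top σ)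
    have hfix : ∀ σ : GalQ, σ (qval b ^ p) = qval b ^ p := fun σ ↦ by
      have h1 := smul_sub_self_eq_iff.1 (hb' σ)
      rw [map_pow, h1, mul_pow, hφpow, one_mul]
    obtain ⟨a, ha⟩ := (InfiniteGalois.mem_range_algebraMap_iff_fixed (qval b ^ p)).2 hfix
    rw [eq_ratCast] at ha
    have ha0 : a ≠ 0 := by
      rintro rfl
      rw [Rat.cast_zero] at ha
      exact pow_ne_zero _ (qval_ne_zero b) ha.symm
    obtain ⟨s, hs0, hs⟩ := exists_eq_pow_or_eq_neg_pow hp.ne_zero ha0 fun q hq ↦ by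
      -- the valuation of `b` at one place over `q` is that of a power of `q`
      obtain ⟨B, hB, z, hz, hBz⟩ : ∃ B : ValuationSubring Qbar, B.LiesOverPrime q ∧
          ∃ z : Qmul, B.valuation (qval z) = 1 ∧
            ∀ σ ∈ B.inertiaSubgroupIn ℚ, σ • (b - z) = b - z := by
        rcases eq_or_ne q p with rfl | hqp
        · obtain ⟨u, hu, hu'⟩ := hx.pCond.2 (φ.comp (⊤ : AddSubgroup W).subtype)
          refine ⟨Ap, hAp, u, hu, fun σ hσ ↦ ?_⟩
          have := (hb' σ).symm.trans (hu' σ hσ)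
          rw [smul_sub, sub_eq_sub_iff_sub_eq_sub.1 this]
        rcases eq_or_ne q N with rfl | hqN
        · refine ⟨AN, hAN, φ x.2, ?_, fun σ hσ ↦ ?_⟩
          · refine (pow_eq_one_iff_of_nonneg zero_le hp.ne_zero).1 ?_
            rw [← map_pow, hφpow, map_one]
          · have := (hb' σ).symm.trans (congrArg φ (hx.atN σ hσ))
            rw [map_sub, hequiv] at this
            rw [smul_sub, sub_eq_sub_iff_sub_eq_sub.1 this]
        · obtain ⟨B, hB⟩ := exists_liesOverPrime hq
          refine ⟨B, hB, 0, by simp, fun σ hσ ↦ ?_⟩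
          have := hb' σ
          rw [hx.unramified _ ⟨q, hq, hqp, hqN, B, hB, rfl⟩ σ hσ, map_zero, eq_comm,
            sub_eq_zero] at this
          rw [sub_zero, this]
      obtain ⟨k, hk⟩ := exists_valuation_eq_zpow_of_fixed hB hq (qval_ne_zero (b - z))
        fun σ hσ ↦ by rw [← qval_smul, hBz σ hσ]
      refine ⟨B, hB, k, ?_⟩
      rw [qval_sub, map_div₀, hz, div_one] at hk
      rw [ha, map_pow, hk, ← zpow_natCast, ← zpow_mul, mul_comm]
    refine ⟨b, s, hs0, hb', ?_⟩
    rcases hs with rfl | rfl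
    · left; rw [← ha]; push_cast; rfl
    · right; rw [← ha]; push_cast; rfl
  rcases hp.eq_two_or_odd' with rfl | hodd
  · exact coh_bound_of_two hcard (fun σ x ↦ by rw [hchi, Subsingleton.elim (χ σ) 1, hone]) φ hφinj
      hKummer
  · exact coh_bound_of_odd hodd hgood φ hφinj hφsurj hequiv hKummer

/-- The bound for lines holds for the descent data of the Galois group of `ℚ`. -/
theorem lineBound (hp : p.Prime) (hN : N.Prime) (hAN : AN.LiesOverPrime N)
    (hAp : Ap.LiesOverPrime p)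
    (hχ : ∀ (σ : GalQ) (z : Qbar), z ^ p = 1 → σ z = z ^ (χ σ : ZMod p).val) :
    LineBound.{0} χ (galSys N p AN Ap) := by
  intro W _ _ Wm hcard hEis hgood
  have : Fact p.Prime := ⟨hp⟩
  have : Finite W := Nat.finite_of_card_ne_zero (hcard ▸ hp.ne_zero)
  have hWprime : Fact (Nat.card W).Prime := ⟨hcard ▸ hp⟩
  rcases Wm.eq_bot_or_eq_top_of_prime_card with hWm | hWm
  · have hIp : ∀ σ ∈ Ap.inertiaSubgroupIn ℚ, ∀ x : W, σ • x = x := fun σ hσ x ↦ by
      have := hgood.mem_of_atP σ hσ x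
      rwa [hWm, AddSubgroup.mem_bot, sub_eq_zero] at this
    refine coh_bound_of_trivial hN hAN hAp hWm fun σ x ↦ ?_
    rcases forall_smul_eq_self_or_char χ hcard hEis with h | h
    · exact h σ x
    · obtain ⟨τ, hτ, hτσ⟩ := exists_mem_inertia_char_eq χ hp hAp hχ (χ σ)
      rw [h σ x, ← hτσ, ← h τ x, hIp τ hτ]
  · subst hWm
    exact coh_bound_of_cyclotomic χ hp hAN hAp hχ hcard hEis hgood

end Fermat.Agent.EisensteinDescent
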