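import Mathlib.LinearAlgebra.Charpoly.Basic
import Mathlib.LinearAlgebra.Charpoly.ToMatrix
import Mathlib.LinearAlgebra.FiniteDimensional.Basic
import Mathlib.LinearAlgebra.Determinant
import Mathlib.LinearAlgebra.Matrix.Charpoly.Coeff
import Mathlib.Algebra.CharZero.Defs
import Mathlib.LinearAlgebra.Trace
import Mathlib.Tactic

/-!
# Rational linear algebra for Eisenstein descent

A two-dimensional representation satisfying a quadratic relation `g² - t g + χ g = 0`: its
determinant, the line at the residue characteristic, and the line at the level.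
-/

namespace Fermat.Agent.EisensteinDescent

open Module

variable {E V : Type*} [Field E] [AddCommGroup V] [Module E V]

/-- A map acting by a scalar on a line acts by a scalar on the quotient, and the determinant is
the product of the two. -/
theorem exists_quotScalar (hV : finrank E V = 2) (f : Module.End E V) {L : Submodule E V}
    (hL : finrank E L = 1) {b : E} (hb : ∀ v ∈ L, f v = b • v) :
    ∃ c : E, (∀ w, f w - c • w ∈ L) ∧ LinearMap.det f = b * c := by
  have : FiniteDimensional E V := FiniteDimensional.of_finrank_pos (by omega)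
  obtain ⟨v, hv, hspan⟩ := finrank_eq_one_iff'.mp hL
  have hv0 : (v : V) ≠ 0 := fun h => hv (Subtype.ext h)
  obtain ⟨w, hw⟩ : ∃ w, w ∉ L := by
    by_contra h
    push Not at h
    rw [show L = ⊤ from eq_top_iff.mpr fun x _ => h x, finrank_top, hV] at hL
    omega
  have hli : LinearIndependent E ![(v : V), w] := by
    refine (LinearIndependent.pair_iff' hv0).mpr fun a ha => hw ?_
    rw [← ha]
    exact L.smul_mem a v.2
  let B : Basis (Fin 2) E V :=
    basisOfLinearIndependentOfCardEqFinrank hli (by simp [hV])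
  have hB0 : B 0 = (v : V) := by simp [B]
  have hB1 : B 1 = w := by simp [B]
  refine ⟨B.repr (f w) 1, fun u => ?_, ?_⟩
  · have hu := B.sum_repr u
    have hfw := B.sum_repr (f w)
    rw [Fin.sum_univ_two, hB0, hB1] at hu hfw
    set r := B.repr (f w) 0
    set c := B.repr (f w) 1
    set p := B.repr u 0
    set q := B.repr u 1
    have key : f u - c • u = (p * b + q * r - c * p) • (v : V) := by
      conv_lhs => rw [← hu]
      rw [map_add, map_smul, map_smul, hb _ v.2, ← hfw]
      module
    rw [key]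
    exact L.smul_mem _ v.2
  · rw [← LinearMap.det_toMatrix B, Matrix.det_fin_two]
    simp only [LinearMap.toMatrix_apply]
    have h0 : f (B 0) = b • B 0 := by rw [hB0]; exact hb _ v.2
    rw [h0, hB1]
    simp

/-- Cayley–Hamilton in dimension two. -/
theorem mul_self_sub_trace (hV : finrank E V = 2) (f : Module.End E V) :
    f * f - LinearMap.trace E V f • f + LinearMap.det f • (1 : Module.End E V) = 0 := by
  have : FiniteDimensional E V := FiniteDimensional.of_finrank_pos (by omega)
  let B := Module.finBasisOfFinrankEq E V hV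
  have hdeg : f.charpoly = Polynomial.X ^ 2 - Polynomial.C (LinearMap.trace E V f) * Polynomial.X
      + Polynomial.C (LinearMap.det f) := by
    rw [← LinearMap.charpoly_toMatrix f B, Matrix.charpoly_fin_two,
      LinearMap.trace_eq_matrix_trace E B, LinearMap.det_toMatrix B]
  have := f.aeval_self_charpoly
  rw [hdeg] at this
  simpa [pow_two, Algebra.algebraMap_eq_smul_one, smul_mul_assoc] using this

variable {Γ : Type*} [Group Γ] {ρ : Γ →* Module.End E V} {χ : Γ →* E}

/-- A multiplicative map from a group to a field has nonzero values. -/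
theorem hom_ne_zero (χ : Γ →* E) (g : Γ) : χ g ≠ 0 :=
  (IsUnit.map χ (Group.isUnit g)).ne_zero

/-- `ρ g` is not a scalar. -/
def IsNonScalar (ρ : Γ →* Module.End E V) (g : Γ) : Prop :=
  ∀ c : E, ρ g ≠ c • (1 : Module.End E V)

/-- A non-scalar element has trace `t` and determinant `χ`. -/
theorem IsNonScalar.trace_det {g : Γ} (hg : IsNonScalar ρ g) (hV : finrank E V = 2) {t : E}
    (h : ρ g * ρ g - t • ρ g + χ g • (1 : Module.End E V) = 0) :
    LinearMap.trace E V (ρ g) = t ∧ LinearMap.det (ρ g) = χ g := by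
  have h' := mul_self_sub_trace hV (ρ g)
  set T := LinearMap.trace E V (ρ g)
  set D := LinearMap.det (ρ g)
  have hlin : (T - t) • ρ g + (χ g - D) • (1 : Module.End E V) = 0 := by
    rw [sub_smul, sub_smul]
    linear_combination (norm := module) h - h'
  have hT : T = t := by
    by_contra hne
    have hne' : T - t ≠ 0 := sub_ne_zero.mpr hne
    apply hg (-(T - t)⁻¹ * (χ g - D))
    have := congrArg ((T - t)⁻¹ • ·) hlin
    simp only [smul_add, smul_smul, inv_mul_cancel₀ hne', one_smul, smul_zero] at this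
    rw [eq_neg_of_add_eq_zero_left this, neg_mul, neg_smul]
  refine ⟨hT, ?_⟩
  rw [hT, sub_self, zero_smul, zero_add] at hlin
  have : Nontrivial V := Module.nontrivial_of_finrank_eq_succ hV
  obtain ⟨v, hv⟩ := exists_ne (0 : V)
  have := LinearMap.congr_fun hlin v
  simp only [LinearMap.smul_apply, Module.End.one_apply, LinearMap.zero_apply, smul_eq_zero, hv,
    or_false, sub_eq_zero] at this
  exact this.symm

/-- If `ρ` is not everywhere scalar, its determinant is `χ`. -/
theorem det_eq (hV : finrank E V = 2) {t : Γ → E}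
    (h : ∀ g, ρ g * ρ g - t g • ρ g + χ g • (1 : Module.End E V) = 0)
    (hns : ∃ g, IsNonScalar ρ g) (g : Γ) : LinearMap.det (ρ g) = χ g := by
  by_cases hg : IsNonScalar ρ g
  · exact (hg.trace_det hV (h g)).2
  · simp only [IsNonScalar, not_forall, not_not] at hg
    obtain ⟨c, hc⟩ := hg
    obtain ⟨k, hk⟩ := hns
    have hmul : ρ (g * k) = c • ρ k := by rw [map_mul, hc, smul_mul_assoc, one_mul]
    have hc0 : c ≠ 0 := by
      rintro rfl
      have h1 : ρ g * ρ g⁻¹ = 1 := by rw [← map_mul, mul_inv_cancel, map_one]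
      rw [hc, zero_smul, zero_mul] at h1
      have : Nontrivial V := Module.nontrivial_of_finrank_eq_succ hV
      exact zero_ne_one h1
    have hgk : IsNonScalar ρ (g * k) := fun d hd => hk (c⁻¹ * d) (by
      rw [← smul_smul, ← hd, hmul, smul_smul, inv_mul_cancel₀ hc0, one_smul])
    have := (hgk.trace_det hV (h _)).2
    rw [map_mul, map_mul, map_mul, (hk.trace_det hV (h k)).2] at this
    exact mul_right_cancel₀ (hom_ne_zero χ k) this

/-- A nonzero subspace on which inertia at `p` acts through `χ` is a line. -/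
theorem finrank_line_eq_one (hV : finrank E V = 2) (hdet : ∀ g, LinearMap.det (ρ g) = χ g)
    {IP : Subgroup Γ} {L : Submodule E V} (hL : L ≠ ⊥)
    (hLχ : ∀ s ∈ IP, ∀ v ∈ L, ρ s v = χ s • v) (hχ : ∃ s ∈ IP, χ s ≠ 1) : finrank E L = 1 := by
  have : FiniteDimensional E V := FiniteDimensional.of_finrank_pos (by omega)
  have h1 : 1 ≤ finrank E L := Submodule.one_le_finrank_iff.mpr hL
  have h2 : finrank E L ≤ 2 := hV ▸ L.finrank_le
  by_contra hne
  have htop : L = ⊤ := Submodule.eq_top_of_finrank_eq (by omega)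
  obtain ⟨s, hs, hs1⟩ := hχ
  have hρ : ρ s = χ s • (1 : Module.End E V) := by
    ext v
    simpa using hLχ s hs v (by rw [htop]; trivial)
  have := hdet s
  rw [hρ, LinearMap.det_smul, map_one, hV, mul_one, pow_two] at this
  exact hs1 (mul_left_cancel₀ (hom_ne_zero χ s) (this.trans (mul_one _).symm))

/-- Inertia at `p` acts trivially on the quotient by the line. -/
theorem sub_mem_line (hV : finrank E V = 2) (hdet : ∀ g, LinearMap.det (ρ g) = χ g)
    {IP : Subgroup Γ} {L : Submodule E V} (hL : finrank E L = 1)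
    (hLχ : ∀ s ∈ IP, ∀ v ∈ L, ρ s v = χ s • v) {s : Γ} (hs : s ∈ IP) (v : V) :
    ρ s v - v ∈ L := by
  obtain ⟨c, hc, hd⟩ := exists_quotScalar hV (ρ s) hL (hLχ s hs)
  rw [hdet] at hd
  have hc1 : c = 1 := mul_left_cancel₀ (hom_ne_zero χ s) (hd.symm.trans (mul_one _).symm)
  simpa [hc1] using hc v

/-- Elements normalising the inertia at `p` stabilise the line. -/
theorem stable_line_of_normalizes (hV : finrank E V = 2) (hdet : ∀ g, LinearMap.det (ρ g) = χ g)
    {IP : Subgroup Γ} {L : Submodule E V} (hL : finrank E L = 1)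
    (hLχ : ∀ s ∈ IP, ∀ v ∈ L, ρ s v = χ s • v) (hχ : ∃ s ∈ IP, χ s ≠ 1)
    {g : Γ} (hg : ∀ s ∈ IP, g⁻¹ * s * g ∈ IP) {v : V} (hv : v ∈ L) : ρ g v ∈ L := by
  obtain ⟨s, hs, hs1⟩ := hχ
  have hχs : χ (g⁻¹ * s * g) = χ s := by
    rw [map_mul, map_mul, mul_right_comm, ← map_mul, inv_mul_cancel, map_one, one_mul]
  have heig : ρ s (ρ g v) = χ s • ρ g v := by
    have : ρ s * ρ g = ρ g * ρ (g⁻¹ * s * g) := by
      rw [← map_mul, ← map_mul]; group
    calc ρ s (ρ g v) = (ρ s * ρ g) v := rfl
      _ = ρ g (ρ (g⁻¹ * s * g) v) := by rw [this]; rfl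
      _ = χ s • ρ g v := by rw [hLχ _ (hg s hs) v hv, hχs, map_smul]
  have hmem := sub_mem_line hV hdet hL hLχ hs (ρ g v)
  rw [heig] at hmem
  nth_rewrite 2 [← one_smul E (ρ g v)] at hmem
  rw [← sub_smul] at hmem
  exact (Submodule.smul_mem_iff _ (sub_ne_zero.mpr hs1)).mp hmem

/-- If `g` acts by `b` on a line and by `c` on the quotient, then `b * c = χ g`. -/
theorem mul_eq_chi (hV : finrank E V = 2) (hdet : ∀ g, LinearMap.det (ρ g) = χ g)
    {L : Submodule E V} (hL : finrank E L = 1) {g : Γ} {b c : E}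
    (hb : ∀ v ∈ L, ρ g v = b • v) (hc : ∀ v, ρ g v - c • v ∈ L) : b * c = χ g := by
  obtain ⟨c', hc', hd⟩ := exists_quotScalar hV (ρ g) hL hb
  rw [hdet] at hd
  suffices c = c' by rw [this, hd]
  by_contra hne
  have htop : L = ⊤ := eq_top_iff.mpr fun w _ => by
    have hsub := L.sub_mem (hc' w) (hc w)
    rw [show ρ g w - c' • w - (ρ g w - c • w) = (c - c') • w by module] at hsub
    exact (Submodule.smul_mem_iff _ (sub_ne_zero.mpr hne)).mp hsub
  rw [htop, finrank_top, hV] at hL
  omega

/-- Square-zero `a`, `b` whose unipotents multiply to a unipotent anticommute. -/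
theorem anticomm_of_unipotent {R : Type*} [Ring R] {a b : R} (ha : a * a = 0) (hb : b * b = 0)
    (h : ((1 + a) * (1 + b) - 1) * ((1 + a) * (1 + b) - 1) = 0) : a * b + b * a = 0 := by
  have ha' : ∀ x, a * (a * x) = 0 := fun x => by rw [← mul_assoc, ha, zero_mul]
  have hx : a * b + b * a + b * (a * b) + a * (b * a) + a * (b * (a * b)) = 0 := by
    rw [← h, show (1 + a) * (1 + b) - 1 = a + b + a * b by noncomm_ring]
    simp only [mul_add, add_mul, mul_assoc, ha, hb, ha', mul_zero, zero_add, add_zero]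
    abel
  have h1 : a * (b * a) + a * (b * (a * b)) = 0 := by
    have := congrArg (a * ·) hx
    simpa [mul_add, ha, ha'] using this
  have h2 : a * (b * (a * b)) = 0 := by
    have := congrArg (· * b) h1
    simpa [add_mul, mul_assoc, hb] using this
  have h3 : b * (a * b) + a * (b * (a * b)) = 0 := by
    have := congrArg (· * b) hx
    simpa [add_mul, mul_assoc, hb] using this
  have h4 : a * (b * a) = 0 := by rw [h2, add_zero] at h1; exact h1
  have h5 : b * (a * b) = 0 := by rw [h2, add_zero] at h3; exact h3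
  rw [h2, h4, h5] at hx
  simpa using hx

/-- A nonzero square-zero endomorphism of a plane: its range is its kernel, and is a line. -/
theorem range_eq_ker_of_sq_zero (hV : finrank E V = 2) {M : Module.End E V} (hM : M * M = 0)
    (hM0 : M ≠ 0) :
    LinearMap.range M = LinearMap.ker M ∧ finrank E (LinearMap.ker M) = 1 := by
  have : FiniteDimensional E V := FiniteDimensional.of_finrank_pos (by omega)
  have hle : LinearMap.range M ≤ LinearMap.ker M := by
    rintro _ ⟨x, rfl⟩
    exact LinearMap.congr_fun hM x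
  have hsum := LinearMap.finrank_range_add_finrank_ker M
  have hpos : 1 ≤ finrank E (LinearMap.range M) :=
    Submodule.one_le_finrank_iff.mpr fun h => hM0 (LinearMap.range_eq_bot.mp h)
  have hmono := Submodule.finrank_mono hle
  rw [hV] at hsum
  exact ⟨Submodule.eq_of_le_of_finrank_le hle (by omega), by omega⟩

/-- The common line of a unipotent inertia group at the level. -/
theorem exists_unipotent_line (hV : finrank E V = 2) {IN : Subgroup Γ}
    (hIN : ∀ s ∈ IN, (ρ s - 1) * (ρ s - 1) = 0) (hne : ∃ s ∈ IN, ρ s ≠ 1) :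
    ∃ l : Submodule E V, finrank E l = 1 ∧ ∀ s ∈ IN,
      LinearMap.range (ρ s - 1) ≤ l ∧ l ≤ LinearMap.ker (ρ s - 1) ∧
      (ρ s ≠ 1 → LinearMap.range (ρ s - 1) = l ∧ LinearMap.ker (ρ s - 1) = l) := by
  have : FiniteDimensional E V := FiniteDimensional.of_finrank_pos (by omega)
  obtain ⟨s₁, hs₁, hne₁⟩ := hne
  set M := ρ s₁ - 1 with hMdef
  have hMM : M * M = 0 := hIN s₁ hs₁
  obtain ⟨hrk, hfr⟩ := range_eq_ker_of_sq_zero hV hMM (sub_ne_zero.mpr hne₁)
  refine ⟨LinearMap.ker M, hfr, fun s hs => ?_⟩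
  set A := ρ s - 1 with hAdef
  have hAA : A * A = 0 := hIN s hs
  have hanti : A * M + M * A = 0 := by
    refine anticomm_of_unipotent hAA hMM ?_
    rw [hAdef, hMdef, add_sub_cancel, add_sub_cancel, ← map_mul]
    exact hIN _ (IN.mul_mem hs hs₁)
  obtain ⟨v, hv, hspan⟩ := finrank_eq_one_iff'.mp hfr
  have hstab : ∀ x ∈ LinearMap.ker M, A x ∈ LinearMap.ker M := fun x hx => by
    have := LinearMap.congr_fun hanti x
    simp only [LinearMap.add_apply, Module.End.mul_apply, LinearMap.mem_ker.mp hx, map_zero,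
      zero_add, LinearMap.zero_apply] at this
    exact this
  have hker : LinearMap.ker M ≤ LinearMap.ker A := by
    intro x hx
    obtain ⟨c, hc⟩ := hspan ⟨A v, hstab v v.2⟩
    have hcv : A (v : V) = c • (v : V) := (congrArg Subtype.val hc).symm
    have hAAv : A (A (v : V)) = 0 := LinearMap.congr_fun hAA (v : V)
    rw [hcv, map_smul, hcv, smul_smul, smul_eq_zero] at hAAv
    have hc0 : c = 0 := by
      rcases hAAv with h | h
      · exact mul_self_eq_zero.mp h
      · exact absurd (Subtype.ext h) hv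
    obtain ⟨d, hd⟩ := hspan ⟨x, hx⟩
    have hxv : x = d • (v : V) := (congrArg Subtype.val hd).symm
    rw [LinearMap.mem_ker, hxv, map_smul, hcv, hc0, zero_smul, smul_zero]
  have hAM : A * M = 0 := by
    ext x
    exact hker (hrk ▸ LinearMap.mem_range_self M x)
  have hMA : M * A = 0 := by rwa [hAM, zero_add] at hanti
  have hrange : LinearMap.range A ≤ LinearMap.ker M := by
    rintro _ ⟨x, rfl⟩
    exact LinearMap.congr_fun hMA x
  refine ⟨hrange, hker, fun hs1 => ?_⟩
  obtain ⟨hrA, hfA⟩ := range_eq_ker_of_sq_zero hV hAA (sub_ne_zero.mpr hs1)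
  have hk : LinearMap.ker M = LinearMap.ker A :=
    Submodule.eq_of_le_of_finrank_le hker (by omega)
  exact ⟨hrA.trans hk.symm, hk.symm⟩

/-- A unipotent `u` with `(u - 1)² = 0` has `u ^ n = 1 + n (u - 1)`. -/
theorem pow_eq_one_add_nsmul {R : Type*} [Ring R] {u : R} (hu : (u - 1) * (u - 1) = 0) (n : ℕ) :
    u ^ n = 1 + n • (u - 1) := by
  induction n with
  | zero => simp
  | succ n ih =>
    rw [pow_succ, ih]
    have : (u - 1) * u = u - 1 := by
      calc (u - 1) * u = (u - 1) * (u - 1) + (u - 1) := by noncomm_ring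
        _ = u - 1 := by rw [hu, zero_add]
    rw [add_mul, one_mul, smul_mul_assoc, this, succ_nsmul]
    abel

/-- The action of `τ` with `τ s = s ^ N τ` on the line and on the quotient. -/
theorem exists_tau_scalar' [CharZero E] (hV : finrank E V = 2)
    (hdet : ∀ g, LinearMap.det (ρ g) = χ g) {N : ℕ} (hN : N ≠ 0) {s τ : Γ}
    (hτ : ρ (τ * s) = ρ (s ^ N * τ)) (hs : (ρ s - 1) * (ρ s - 1) = 0) (hs1 : ρ s ≠ 1)
    {l : Submodule E V} (hl : LinearMap.range (ρ s - 1) = l)
    (hl' : LinearMap.ker (ρ s - 1) = l) :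
    (∀ v ∈ l, ρ τ v ∈ l) ∧
    ∃ a : E, (∀ v, ρ τ v - a • v ∈ l) ∧ (∀ v ∈ l, ρ τ v = ((N : E) * a) • v) ∧
      (χ τ = (N : E) → a ^ 2 = 1) := by
  set M := ρ s - 1 with hM
  have hfr : finrank E l = 1 := hl' ▸ (range_eq_ker_of_sq_zero hV hs (sub_ne_zero.mpr hs1)).2
  have hcomm : ∀ x, ρ τ (M x) = (N : E) • M (ρ τ x) := by
    intro x
    have h := hτ
    rw [map_mul, map_mul, map_pow, pow_eq_one_add_nsmul hs, ← hM] at h
    have h' : ρ τ * M = N • (M * ρ τ) := by
      have : ρ τ * ρ s = ρ τ * M + ρ τ := by rw [hM, mul_sub, mul_one, sub_add_cancel]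
      rw [this, add_mul, one_mul, add_comm (ρ τ) ((N • M) * ρ τ)] at h
      rw [add_right_cancel h, smul_mul_assoc]
    have h'' := LinearMap.congr_fun h' x
    simpa [Nat.cast_smul_eq_nsmul] using h''
  have hstab : ∀ v ∈ l, ρ τ v ∈ l := by
    intro v hv
    rw [← hl] at hv ⊢
    obtain ⟨x, rfl⟩ := hv
    rw [hcomm]
    exact Submodule.smul_mem _ _ (LinearMap.mem_range_self M _)
  refine ⟨hstab, ?_⟩
  obtain ⟨v, hv, hspan⟩ := finrank_eq_one_iff'.mp hfr
  obtain ⟨b, hb⟩ := hspan ⟨ρ τ v, hstab v v.2⟩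
  have hb' : ∀ w ∈ l, ρ τ w = b • w := by
    intro w hw
    obtain ⟨d, hd⟩ := hspan ⟨w, hw⟩
    have : w = d • (v : V) := (congrArg Subtype.val hd).symm
    rw [this, map_smul, show ρ τ (v : V) = b • (v : V) from (congrArg Subtype.val hb).symm,
      smul_comm]
  obtain ⟨a, ha, hd⟩ := exists_quotScalar hV (ρ τ) hfr hb'
  have hline : ∀ w ∈ l, ρ τ w = ((N : E) * a) • w := by
    intro w hw
    rw [← hl] at hw
    obtain ⟨x, rfl⟩ := hw
    have h0 : M (ρ τ x - a • x) = 0 := by
      rw [← LinearMap.mem_ker, hl']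
      exact ha x
    rw [map_sub, map_smul, sub_eq_zero] at h0
    rw [hcomm, h0, smul_smul]
  refine ⟨a, ha, hline, fun hχ => ?_⟩
  have hmul := mul_eq_chi hV hdet hfr hline ha
  rw [hχ, mul_assoc, ← pow_two] at hmul
  exact mul_left_cancel₀ (Nat.cast_ne_zero.mpr hN) (hmul.trans (mul_one _).symm)

end Fermat.Agent.EisensteinDescent
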