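import Fermat.Agent.EisensteinDescent.Setup
import Fermat.Agent.EisensteinDescent.Rational
import Mathlib.LinearAlgebra.FreeModule.PID
import Mathlib.LinearAlgebra.Dimension.OrzechProperty
import Mathlib.LinearAlgebra.Dimension.Torsion.Finite
import Mathlib.NumberTheory.Padics.RingHoms

/-!
# The lattice line at the level

From unipotent inertia at `N` on each eigen-component of a Hecke-Galois lattice, a saturated
sublattice through which inertia acts (`exists_inertia_line`), and the order of the image of a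
saturated sublattice in a finite level (`card_map_of_saturated`).
-/

namespace Fermat.Agent.EisensteinDescent

open Module

section Algebra

variable {Γ : Type*} [Group Γ] {E V : Type*} [Field E] [AddCommGroup V] [Module E V]
  {ρ : Γ →* Module.End E V}

/-- Unipotents at `N` multiply by adding their nilpotent parts. -/
theorem sub_one_mul_sub_one_eq_zero (hV : finrank E V = 2) {IN : Subgroup Γ}
    (hIN : ∀ s ∈ IN, (ρ s - 1) * (ρ s - 1) = 0) {s s' : Γ} (hs : s ∈ IN) (hs' : s' ∈ IN) :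
    (ρ s - 1) * (ρ s' - 1) = 0 := by
  by_cases hne : ∃ t ∈ IN, ρ t ≠ 1
  · obtain ⟨l, -, hl⟩ := exists_unipotent_line hV hIN hne
    ext x
    exact (hl s hs).2.1 ((hl s' hs').1 (LinearMap.mem_range_self _ x))
  · push Not at hne
    rw [hne s hs, sub_self, zero_mul]

theorem sub_one_pow_mul (hV : finrank E V = 2) {IN : Subgroup Γ}
    (hIN : ∀ s ∈ IN, (ρ s - 1) * (ρ s - 1) = 0) {s u : Γ} (hs : s ∈ IN) (hu : u ∈ IN) (k : ℕ) :
    ρ (s ^ k * u) - 1 = k • (ρ s - 1) + (ρ u - 1) := by
  have h0 := sub_one_mul_sub_one_eq_zero hV hIN (pow_mem hs k) hu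
  rw [map_pow, pow_eq_one_add_nsmul (hIN s hs)] at h0
  rw [map_mul, map_pow, pow_eq_one_add_nsmul (hIN s hs)]
  simp only [add_sub_cancel_left] at h0
  calc (1 + k • (ρ s - 1)) * ρ u - 1
      = (k • (ρ s - 1)) * (ρ u - 1) + (k • (ρ s - 1) + (ρ u - 1)) := by noncomm_ring
    _ = _ := by rw [h0, zero_add]

/-- Two endomorphisms, one nonzero: at most one natural combination vanishes. -/
theorem nsmul_add_ne_zero_of_ne [CharZero E] {a b : Module.End E V} (h : a ≠ 0 ∨ b ≠ 0) {k k' : ℕ}
    (hk : k • a + b = 0) (hk' : k' • a + b = 0) : k = k' := by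
  by_contra hne
  have hd : ((k : E) - (k' : E)) • a = 0 := by
    rw [sub_smul, Nat.cast_smul_eq_nsmul, Nat.cast_smul_eq_nsmul,
      ← add_sub_add_right_eq_sub _ _ b, hk, hk', sub_zero]
  have ha : a = 0 := (smul_eq_zero.mp hd).resolve_left
    (sub_ne_zero.mpr fun e => hne (Nat.cast_injective e))
  rw [ha, smul_zero, zero_add] at hk
  exact h.elim (fun h => h ha) (fun h => h hk)

end Algebra

variable {Γ : Type*} [Group Γ] {p : ℕ} [Fact p.Prime] {T : Type*} [CommRing T]
  {Λ : Type*} [AddCommGroup Λ] [Module ℤ_[p] Λ] [DistribMulAction Γ Λ]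
  {act : T →+* Module.End ℤ_[p] Λ} {E : Type*} [Field E] [Algebra ℤ_[p] E]

namespace EigenData

variable (D : EigenData Γ act E)

include D in
theorem act_smul (t : T) (g : Γ) (x : Λ) : act t (g • x) = g • act t x := by
  refine D.coord_injective (funext fun i => ?_)
  rw [D.coord_act, D.coord_smul, D.coord_smul, D.coord_act, map_smul]

/-- An element unipotent on the lattice is unipotent on every component. -/
theorem rho_unipotent (i : D.ι) {s : Γ} (hs : ∀ x : Λ, s • (s • x - x) = s • x - x) :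
    (D.ρ i s - 1) * (D.ρ i s - 1) = 0 := by
  refine D.end_ext i fun x => ?_
  have h := congrFun (congrArg D.coord (hs x)) i
  rw [D.coord_smul, map_sub, Pi.sub_apply, D.coord_smul] at h
  simp only [Module.End.mul_apply, LinearMap.sub_apply, Module.End.one_apply, LinearMap.zero_apply]
  rw [h, sub_self]

theorem rho_mul_eq (i : D.ι) {s t : Γ} {N : ℕ} {τ : Γ}
    (h : ∀ x : Λ, τ • s • x = t ^ N • τ • x) : D.ρ i (τ * s) = D.ρ i (t ^ N * τ) := by
  refine D.end_ext i fun x => ?_
  rw [← D.coord_smul, ← D.coord_smul, mul_smul, mul_smul, h]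

/-- The rank of a sublattice is the dimension of the span of its coordinates. -/
theorem finrank_span_coord [CharZero E] [Module.Free ℤ_[p] Λ] [Module.Finite ℤ_[p] Λ]
    (S : Submodule ℤ_[p] Λ) :
    finrank E (Submodule.span E (D.coord '' (S : Set Λ))) = finrank ℤ_[p] S := by
  classical
  obtain ⟨m, snf⟩ := Submodule.smithNormalForm (Module.finBasis ℤ_[p] Λ) S
  have htop : ⊤ ≤ Submodule.span E (Set.range (D.coord ∘ snf.bM)) := by
    rw [← D.span_coord, Submodule.span_le]
    rintro _ ⟨x, rfl⟩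
    rw [← snf.bM.sum_repr x, map_sum]
    refine Submodule.sum_mem _ fun j _ => ?_
    rw [map_smul, ← algebraMap_smul E (snf.bM.repr x j)]
    exact Submodule.smul_mem _ _ (Submodule.subset_span ⟨j, rfl⟩)
  have hcard : Fintype.card (Fin (finrank ℤ_[p] Λ)) = finrank E (D.ι → Fin 2 → E) := by
    rw [Fintype.card_fin, D.finrank_eq]
    simp [Module.finrank_pi_fintype, mul_comm]
  have hli : LinearIndependent E (D.coord ∘ snf.bM) :=
    linearIndependent_of_top_le_span_of_card_eq_finrank htop hcard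
  have ha : ∀ j, algebraMap ℤ_[p] E (snf.a j) ≠ 0 := fun j h => by
    have h0 : snf.a j = 0 := algebraMap_padicInt_injective (h.trans (map_zero _).symm)
    refine snf.bN.ne_zero j (Subtype.ext ?_)
    rw [snf.snf, h0, zero_smul, ZeroMemClass.coe_zero]
  have hcoord : ∀ j, D.coord (snf.bN j : Λ) =
      algebraMap ℤ_[p] E (snf.a j) • D.coord (snf.bM (snf.f j)) := fun j => by
    rw [snf.snf, map_smul, algebraMap_smul]
  have hli' : LinearIndependent E fun j => D.coord (snf.bN j : Λ) := by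
    simp only [hcoord]
    exact (hli.comp snf.f snf.f.injective).units_smul fun j => Units.mk0 _ (ha j)
  have hspan : Submodule.span E (D.coord '' (S : Set Λ)) =
      Submodule.span E (Set.range fun j => D.coord (snf.bN j : Λ)) := by
    refine le_antisymm (Submodule.span_le.mpr ?_) (Submodule.span_mono ?_)
    · rintro _ ⟨x, hx, rfl⟩
      have h := congrArg (fun y : S => D.coord (y : Λ)) (snf.bN.sum_repr ⟨x, hx⟩)
      simp only [Submodule.coe_sum, Submodule.coe_smul, map_sum, map_smul] at h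
      rw [← h]
      refine Submodule.sum_mem _ fun j _ => ?_
      rw [← algebraMap_smul E]
      exact Submodule.smul_mem _ _ (Submodule.subset_span ⟨j, rfl⟩)
    · rintro _ ⟨j, rfl⟩
      exact ⟨_, (snf.bN j).2, rfl⟩
  rw [hspan, finrank_span_eq_card hli', Module.finrank_eq_card_basis snf.bN]

/-- One element of inertia is nontrivial on every component where inertia is. -/
theorem exists_mem_forall_ne_one [CharZero E] (hV : finrank E (Fin 2 → E) = 2) {IN : Subgroup Γ}
    (hsq : ∀ i, ∀ s ∈ IN, (D.ρ i s - 1) * (D.ρ i s - 1) = 0) (F : Finset D.ι)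
    (hF : ∀ i ∈ F, ∃ s ∈ IN, D.ρ i s ≠ 1) : ∃ s ∈ IN, ∀ i ∈ F, D.ρ i s ≠ 1 := by
  classical
  induction F using Finset.induction_on with
  | empty => exact ⟨1, IN.one_mem, fun i hi => by simp at hi⟩
  | @insert i F hi ih =>
    obtain ⟨s, hs, hsF⟩ := ih fun j hj => hF j (Finset.mem_insert_of_mem hj)
    obtain ⟨u, hu, hui⟩ := hF i (Finset.mem_insert_self i F)
    have hbad : ∀ j ∈ insert i F, {k : ℕ | D.ρ j (s ^ k * u) = 1}.Subsingleton := by
      intro j hj k hk k' hk'
      refine nsmul_add_ne_zero_of_ne (a := D.ρ j s - 1) (b := D.ρ j u - 1) ?_ ?_ ?_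
      · rcases Finset.mem_insert.mp hj with rfl | hj
        · exact Or.inr (sub_ne_zero.mpr hui)
        · exact Or.inl (sub_ne_zero.mpr (hsF j hj))
      · rw [← sub_one_pow_mul hV (hsq j) hs hu, (show D.ρ j (s ^ k * u) = 1 from hk), sub_self]
      · rw [← sub_one_pow_mul hV (hsq j) hs hu, (show D.ρ j (s ^ k' * u) = 1 from hk'), sub_self]
    obtain ⟨k, hk⟩ :=
      ((insert i F).finite_toSet.biUnion fun j hj => (hbad j hj).finite).exists_notMem
    exact ⟨s ^ k * u, IN.mul_mem (pow_mem hs k) hu,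
      fun j hj h => hk (Set.mem_biUnion (Finset.mem_coe.mpr hj) h)⟩

end EigenData

open EigenData in
/-- The lattice line at `N`: a saturated sublattice fixed by inertia containing all `s • x - x`,
of rank `card ι + e`; if `e = 0`, `τ` is an involution modulo it and one inertia element maps onto
it up to finite index. -/
theorem exists_inertia_line [CharZero E] [Module.Free ℤ_[p] Λ] [Module.Finite ℤ_[p] Λ]
    [SMulCommClass Γ ℤ_[p] Λ] (D : EigenData Γ act E) (χ : Γ →* E)
    (hdet : ∀ i g, LinearMap.det (D.ρ i g) = χ g) (IN : Subgroup Γ)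
    (hIN : ∀ s ∈ IN, ∀ x : Λ, s • (s • x - x) = s • x - x)
    {N : ℕ} (hN : 1 < N) (τ : Γ) (hτχ : χ τ = (N : E))
    (hτ : ∀ s ∈ IN, ∀ x : Λ, τ • s • x = s ^ N • τ • x) :
    ∃ (s₀ : Γ) (l : Submodule ℤ_[p] Λ) (e : ℕ), s₀ ∈ IN ∧
      (∀ x, (p : ℤ_[p]) • x ∈ l → x ∈ l) ∧ (∀ (t : T), ∀ x ∈ l, act t x ∈ l) ∧
      finrank ℤ_[p] l = Fintype.card D.ι + e ∧
      (∀ s ∈ IN, (∀ x ∈ l, s • x = x) ∧ ∀ x, s • x - x ∈ l) ∧ (∀ x ∈ l, τ • x ∈ l) ∧
      (e = 0 → (∀ x, τ • τ • x - x ∈ l) ∧
        ∃ a : ℕ, ∀ x ∈ l, ∃ m, p ^ a • x = s₀ • m - m) := by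
  classical
  have hV : finrank E (Fin 2 → E) = 2 := by simp
  have hsq : ∀ i, ∀ s ∈ IN, (D.ρ i s - 1) * (D.ρ i s - 1) = 0 :=
    fun i s hs => D.rho_unipotent i (hIN s hs)
  -- an element nontrivial on every component where inertia is
  let J : Finset D.ι := Finset.univ.filter fun i => ∃ s ∈ IN, D.ρ i s ≠ 1
  obtain ⟨s₀, hs₀I, hs₀J⟩ :=
    D.exists_mem_forall_ne_one hV hsq J fun i hi => (Finset.mem_filter.mp hi).2
  have hA : ∀ i, D.ρ i s₀ = 1 → ∀ s ∈ IN, D.ρ i s = 1 := fun i hi s hs => by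
    by_contra h
    exact hs₀J i (Finset.mem_filter.mpr ⟨Finset.mem_univ _, s, hs, h⟩) hi
  have hline : ∀ i, ∀ s ∈ IN, LinearMap.range (D.ρ i s - 1) ≤ LinearMap.ker (D.ρ i s₀ - 1) ∧
      LinearMap.ker (D.ρ i s₀ - 1) ≤ LinearMap.ker (D.ρ i s - 1) := by
    intro i s hs
    by_cases h : D.ρ i s₀ = 1
    · simp [h, hA i h s hs]
    · obtain ⟨L, -, hL⟩ := exists_unipotent_line hV (hsq i) ⟨s₀, hs₀I, h⟩
      rw [((hL s₀ hs₀I).2.2 h).2]
      exact ⟨(hL s hs).1, (hL s hs).2.1⟩
  have htau : ∀ i, (∀ v ∈ LinearMap.ker (D.ρ i s₀ - 1),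
      D.ρ i τ v ∈ LinearMap.ker (D.ρ i s₀ - 1)) ∧
      (∀ v, D.ρ i τ (D.ρ i τ v) - v ∈ LinearMap.ker (D.ρ i s₀ - 1)) := by
    intro i
    by_cases h : D.ρ i s₀ = 1
    · simp [h]
    obtain ⟨hrk, -⟩ := range_eq_ker_of_sq_zero hV (hsq i s₀ hs₀I) (sub_ne_zero.mpr h)
    have hrel : D.ρ i (τ * s₀) = D.ρ i (s₀ ^ N * τ) := D.rho_mul_eq i (hτ s₀ hs₀I)
    obtain ⟨hst, a, ha, -, ha2⟩ := exists_tau_scalar' hV (hdet i) (show N ≠ 0 by omega) hrel
      (hsq i s₀ hs₀I) h hrk rfl
    refine ⟨hst, fun v => ?_⟩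
    have h1 := Submodule.add_mem _ (hst _ (ha v)) (Submodule.smul_mem _ a (ha v))
    have h2 : D.ρ i τ (D.ρ i τ v - a • v) + a • (D.ρ i τ v - a • v) =
        D.ρ i τ (D.ρ i τ v) - a ^ 2 • v := by
      rw [map_sub, map_smul]
      module
    rwa [h2, ha2 hτχ, one_smul] at h1
  let A : Λ →ₗ[ℤ_[p]] Λ := DistribSMul.toLinearMap ℤ_[p] Λ s₀ - 1
  have hmem : ∀ x, x ∈ LinearMap.ker A ↔ ∀ i, D.coord x i ∈ LinearMap.ker (D.ρ i s₀ - 1) := by
    intro x
    rw [LinearMap.mem_ker]
    show s₀ • x - x = 0 ↔ _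
    rw [← D.coord_injective.eq_iff, map_zero, map_sub, funext_iff]
    simp [D.coord_smul]
  have hsmul : ∀ (g : Γ) (x : Λ) (i : D.ι),
      D.coord (g • x - x) i = (D.ρ i g - 1) (D.coord x i) := fun g x i => by
    simp [D.coord_smul]
  -- the rank
  let F : (D.ι → Fin 2 → E) →ₗ[E] (D.ι → Fin 2 → E) :=
    LinearMap.pi fun i => (D.ρ i s₀ - 1) ∘ₗ LinearMap.proj i
  have hspanR : Submodule.span E (D.coord '' (LinearMap.range A : Set Λ)) = LinearMap.range F := by
    rw [LinearMap.range_eq_map F, ← D.span_coord, Submodule.map_span, LinearMap.coe_range,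
      ← Set.range_comp, ← Set.range_comp]
    congr 2
    exact funext fun x => funext fun i => hsmul s₀ x i
  let G : (Π i, LinearMap.range (D.ρ i s₀ - 1)) →ₗ[E] (D.ι → Fin 2 → E) :=
    LinearMap.pi fun i => (LinearMap.range (D.ρ i s₀ - 1)).subtype ∘ₗ LinearMap.proj i
  have hGinj : Function.Injective G := fun x y h => funext fun i => Subtype.ext (congrFun h i)
  have hFG : LinearMap.range F = LinearMap.range G := by
    refine le_antisymm ?_ ?_
    · rintro _ ⟨v, rfl⟩
      exact ⟨fun i => ⟨_, LinearMap.mem_range_self _ (v i)⟩, rfl⟩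
    · rintro _ ⟨w, rfl⟩
      choose v hv using fun i => LinearMap.mem_range.mp (w i).2
      exact ⟨v, funext hv⟩
  let e : ℕ := (Finset.univ.filter fun i => D.ρ i s₀ = 1).card
  have hdimF : finrank E (LinearMap.range F) + e = Fintype.card D.ι := by
    have h1 : ∀ i, finrank E (LinearMap.range (D.ρ i s₀ - 1)) +
        (if D.ρ i s₀ = 1 then 1 else 0) = 1 := fun i => by
      split_ifs with h
      · simp [h]
      · obtain ⟨hr, hk⟩ := range_eq_ker_of_sq_zero hV (hsq i s₀ hs₀I) (sub_ne_zero.mpr h)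
        rw [hr, hk]
    rw [hFG, LinearMap.finrank_range_of_inj hGinj, Module.finrank_pi_fintype,
      show e = ∑ i, if D.ρ i s₀ = 1 then 1 else 0 from Finset.card_filter _ _,
      ← Finset.sum_add_distrib]
    simp [h1]
  have hrankR : finrank ℤ_[p] (LinearMap.range A) + e = Fintype.card D.ι := by
    rw [← D.finrank_span_coord, hspanR, hdimF]
  have hsum : finrank ℤ_[p] (LinearMap.range A) + finrank ℤ_[p] (LinearMap.ker A) =
      finrank ℤ_[p] Λ := by
    rw [← A.quotKerEquivRange.finrank_eq]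
    exact Submodule.finrank_quotient_add_finrank _
  have hsub : ∀ s ∈ IN, ∀ x, s • x - x ∈ LinearMap.ker A := fun s hs x => by
    rw [hmem]
    intro i
    rw [hsmul]
    exact (hline i s hs).1 (LinearMap.mem_range_self _ _)
  refine ⟨s₀, LinearMap.ker A, e, hs₀I, fun x hx => ?_, fun t x hx => ?_, ?_,
    fun s hs => ⟨fun x hx => ?_, hsub s hs⟩, fun x hx => ?_, fun he => ⟨fun x => ?_, ?_⟩⟩
  · rw [hmem] at hx ⊢
    intro i
    have := hx i
    rw [map_smul, Pi.smul_apply, ← algebraMap_smul E, Submodule.smul_mem_iff _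
      (by rw [map_natCast]; exact Nat.cast_ne_zero.mpr (Fact.out : p.Prime).ne_zero)] at this
    exact this
  · rw [LinearMap.mem_ker] at hx ⊢
    have hx' : s₀ • x - x = 0 := hx
    show s₀ • act t x - act t x = 0
    rw [← D.act_smul, ← map_sub, hx', map_zero]
  · have := D.finrank_eq
    omega
  · rw [hmem] at hx
    refine sub_eq_zero.mp (D.coord_injective (funext fun i => ?_))
    rw [hsmul, map_zero, Pi.zero_apply]
    exact (hline i s hs).2 (hx i)
  · rw [hmem] at hx ⊢
    intro i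
    rw [D.coord_smul]
    exact (htau i).1 _ (hx i)
  · rw [hmem]
    intro i
    rw [map_sub, Pi.sub_apply, D.coord_smul, D.coord_smul]
    exact (htau i).2 _
  · have hle : LinearMap.range A ≤ LinearMap.ker A := by
      rintro _ ⟨x, rfl⟩
      exact hsub s₀ hs₀I x
    let K := (LinearMap.range A).comap (LinearMap.ker A).subtype
    have hK : finrank ℤ_[p] K = finrank ℤ_[p] (LinearMap.range A) :=
      (Submodule.comapSubtypeEquivOfLe hle).finrank_eq
    have h0 : finrank ℤ_[p] (LinearMap.ker A ⧸ K) = 0 := by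
      have := Submodule.finrank_quotient_add_finrank K
      have := D.finrank_eq
      omega
    have htor := Module.finrank_eq_zero_iff_isTorsion.mp h0
    obtain ⟨d, hd, hdd⟩ := Submodule.annihilator_top_inter_nonZeroDivisors htor
    have hd0 : d ≠ 0 := nonZeroDivisors.ne_zero hdd
    refine ⟨d.valuation, fun x hx => ?_⟩
    have h1 : d • Submodule.Quotient.mk (p := K) ⟨x, hx⟩ = 0 :=
      Submodule.mem_annihilator.mp hd _ Submodule.mem_top
    rw [← Submodule.Quotient.mk_smul, Submodule.Quotient.mk_eq_zero] at h1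
    have h2 : d • x ∈ LinearMap.range A := h1
    have h3 : (p : ℤ_[p]) ^ d.valuation • x ∈ LinearMap.range A := by
      rwa [PadicInt.unitCoeff_spec hd0, mul_smul, ← Units.smul_def,
        Submodule.smul_mem_iff' _ (PadicInt.unitCoeff hd0)] at h2
    obtain ⟨m, hm⟩ := h3
    exact ⟨m, by rw [← Nat.cast_smul_eq_nsmul ℤ_[p], Nat.cast_pow, ← hm]; rfl⟩

/-- The image of a saturated sublattice in a finite level has `p ^ (r * rank)` elements, and its
kernel is `p ^ r` times the sublattice. -/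
theorem card_map_of_saturated [Module.Free ℤ_[p] Λ] [Module.Finite ℤ_[p] Λ] {M : Type*}
    [AddCommGroup M] [DistribMulAction Γ M] [Module T M] {r : ℕ} {π : Λ →+ M}
    (hπ : IsLevel Γ act r π) (S : Submodule ℤ_[p] Λ)
    (hS : ∀ x, (p : ℤ_[p]) • x ∈ S → x ∈ S) :
    Nat.card (S.toAddSubgroup.map π) = p ^ (r * finrank ℤ_[p] S) ∧
      ∀ x ∈ S, π x = 0 → ∃ y ∈ S, x = p ^ r • y := by
  have hsat : ∀ k : ℕ, ∀ y, (p : ℤ_[p]) ^ k • y ∈ S → y ∈ S := by
    intro k
    induction k with
    | zero => simp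
    | succ k ih =>
      intro y hy
      rw [pow_succ', mul_smul] at hy
      exact ih y (hS _ hy)
  have hker : ∀ x ∈ S, π x = 0 → ∃ y ∈ S, x = p ^ r • y := fun x hx h0 => by
    obtain ⟨y, rfl⟩ := (hπ.map_eq_zero x).mp h0
    rw [← Nat.cast_smul_eq_nsmul ℤ_[p], Nat.cast_pow] at hx
    exact ⟨y, hsat r y hx, rfl⟩
  refine ⟨?_, hker⟩
  let b := Module.finBasis ℤ_[p] S
  let f : S →+ M := π.comp S.subtype.toAddMonoidHom
  let g : S →+ (Fin (finrank ℤ_[p] S) → ZMod (p ^ r)) :=
    (AddMonoidHom.compLeft (PadicInt.toZModPow r).toAddMonoidHom _).comp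
      (b.equivFun.toLinearMap.toAddMonoidHom)
  have hg : Function.Surjective g := fun c => by
    choose d hd using fun i => ZMod.ringHom_surjective (PadicInt.toZModPow (p := p) r) (c i)
    exact ⟨b.equivFun.symm d, funext fun i => by
      show PadicInt.toZModPow r (b.equivFun (b.equivFun.symm d) i) = c i
      rw [LinearEquiv.apply_symm_apply, hd]⟩
  have heq : f.ker = g.ker := by
    ext x
    simp only [AddMonoidHom.mem_ker]
    constructor
    · intro hx
      obtain ⟨y, hy, hxy⟩ := hker x x.2 hx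
      have hx' : x = p ^ r • (⟨y, hy⟩ : S) := Subtype.ext (by rw [hxy]; rfl)
      rw [hx', map_nsmul]
      funext i
      simp
    · intro hx
      have hd : ∀ i, ∃ c, b.equivFun x i = (p : ℤ_[p]) ^ r * c := fun i => by
        have h1 : b.equivFun x i ∈ RingHom.ker (PadicInt.toZModPow (p := p) r) := congrFun hx i
        rwa [PadicInt.ker_toZModPow, Ideal.mem_span_singleton] at h1
      choose c hc using hd
      refine (hπ.map_eq_zero _).mpr ⟨(b.equivFun.symm c : S), ?_⟩
      have : x = p ^ r • b.equivFun.symm c := b.equivFun.injective <| funext fun i => by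
        rw [map_nsmul, LinearEquiv.apply_symm_apply, Pi.smul_apply, nsmul_eq_mul, hc i]
        push_cast
        rfl
      conv_lhs => rw [this]
      rfl
  have hcard : Nat.card f.range = Nat.card (Fin (finrank ℤ_[p] S) → ZMod (p ^ r)) := by
    rw [← Nat.card_congr (QuotientAddGroup.quotientKerEquivRange f).toEquiv, heq,
      Nat.card_congr (QuotientAddGroup.quotientKerEquivOfSurjective g hg).toEquiv]
  have hrange : S.toAddSubgroup.map π = f.range := by
    ext m
    simp [f]
  rw [hrange, hcard, Nat.card_pi]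
  simp [← pow_mul]

end Fermat.Agent.EisensteinDescent
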