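import Fermat.Agent.EisensteinDescent.LevelSystem
import Fermat.Agent.EisensteinDescent.Descent
import Fermat.Agent.EisensteinDescent.InertiaN
import Fermat.Agent.EisensteinDescent.NLattice
import Fermat.Agent.EisensteinDescent.Leaf
import Fermat.Agent.EisensteinDescent.Cyclo

/-!
# The core of Eisenstein descent

From the Hecke-Galois lattice of an Eisenstein prime, the sublattice at `p`, and the local
properties of the Kummer cocycles of `y`: a bounded `p`-power multiple of `e • y` is a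
`p ^ r`-multiple of a fixed point, for every `r`.
-/

namespace Fermat.Agent.EisensteinDescent

open GaloisBasics LocalInertia

variable {p : ℕ} [Fact p.Prime] {T : Type} [CommRing T] {J : Type} [AddCommGroup J]
  [DistribMulAction GalQ J] [Module T J] [SMulCommClass GalQ T J]
  {Λ : Type} [AddCommGroup Λ] [Module ℤ_[p] Λ] [DistribMulAction GalQ Λ]
  [SMulCommClass GalQ ℤ_[p] Λ] {act : T →+* Module.End ℤ_[p] Λ}
  {E : Type} [Field E] [Algebra ℤ_[p] E]

/-- The properties of the levels coming from good reduction and from the Eisenstein ideal. -/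
structure LevelFacts (S : LevelSystem act J) (P : Ideal T) (N : ℕ) (tq : ℕ → T) : Prop where
  natCast_mem : (p : T) ∈ P
  nilpotent : ∀ r, ∃ k, ∀ t ∈ P ^ k, ∀ x : S.Lev r, t • x = 0
  sub_mem : ∀ q : ℕ, q.Prime → q ≠ p → q ≠ N → tq q - (1 + (q : T)) ∈ P
  relation : ∀ q : ℕ, q.Prime → q ≠ p → q ≠ N → ∀ A : ValuationSubring Qbar, A.LiesOverPrime q →
    ∀ φ : GalQ, A.IsFrobeniusAt φ q → ∀ r, ∀ x : S.Lev r, φ • φ • x - tq q • φ • x + q • x = 0
  finiteLevel : ∀ r, ∃ L : IntermediateField ℚ Qbar, FiniteDimensional ℚ L ∧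
    ∀ σ : GalQ, (∀ x ∈ L, σ x = x) → ∀ x : S.Lev r, σ • x = x

variable {S : LevelSystem act J} {P : Ideal T} {N : ℕ} {tq : ℕ → T}

omit [SMulCommClass GalQ ℤ_[p] Λ] in
/-- Quadratic relations at every level. -/
theorem LevelFacts.quadratic (h : LevelFacts S P N tq) (r : ℕ) (hr : 0 < r) (g : GalQ) :
    ∃ t : T, t - (1 + ((levelCyclo p r g : ZMod (p ^ r)).val : T)) ∈ P ∧
      ∀ x : S.Lev r, g • g • x - t • g • x + (levelCyclo p r g : ZMod (p ^ r)).val • x = 0 := by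
  have hn : ((p ^ r : ℕ) : T) ∈ Module.annihilator T (S.Lev r) :=
    Module.mem_annihilator.mpr fun x ↦ by rw [Nat.cast_smul_eq_nsmul]; exact S.pow_nsmul_lev r x
  have hnP : ((p ^ r : ℕ) : T) ∈ P := by
    rw [Nat.cast_pow]
    exact P.pow_mem_of_mem h.natCast_mem r hr
  obtain ⟨L, hL, hLfix⟩ := h.finiteLevel r
  obtain ⟨L', hL', hL'fix⟩ := levelCyclo_finiteLevel (p := p) r
  refine exists_quadratic hn P hnP (levelCyclo p r)
    ⟨L ⊔ L', inferInstance, fun σ hσ ↦ ⟨hL'fix σ fun x hx ↦ hσ x (le_sup_right (a := L) hx),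
      hLfix σ fun x hx ↦ hσ x (le_sup_left (b := L') hx)⟩⟩
    {p, N} (fun q hq hqS A hA φ hφ ↦ ?_) g (ZMod.natCast_zmod_val _)
  simp only [Finset.mem_insert, Finset.mem_singleton, not_or] at hqS
  refine ⟨?_, tq q, h.sub_mem q hq hqS.1 hqS.2, h.relation q hq hqS.1 hqS.2 A hA φ hφ r⟩
  rw [coe_levelCyclo, padicCyclo_frobenius hA hq hqS.1 hφ, map_natCast]

omit [SMulCommClass GalQ ℤ_[p] Λ] in
/-- The levels are Eisenstein. -/
theorem LevelFacts.isEisenstein (h : LevelFacts S P N tq) (r : ℕ) :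
    IsEisenstein (modPCyclo p) (S.Lev r) := by
  obtain ⟨k, hk⟩ := h.nilpotent r
  rcases Nat.eq_zero_or_pos r with rfl | hr
  · intro g x
    have : ∀ y : S.Lev 0, y = 0 := fun y ↦ by simpa using S.pow_nsmul_lev 0 y
    exact ⟨0, this _⟩
  refine isEisenstein_of_quadratic (modPCyclo p) P hk fun g ↦ ?_
  obtain ⟨t, ht, hrel⟩ := h.quadratic r hr g
  refine ⟨t, _, ?_, ht, hrel⟩
  set m := (levelCyclo p r g : ZMod (p ^ r)).val with hm
  have hmod : ((m : ℤ) : ZMod p) = (((modPCyclo p g : ZMod p).val : ℤ) : ZMod p) := by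
    rw [Int.cast_natCast, Int.cast_natCast, ZMod.natCast_zmod_val, coe_modPCyclo]
    have hmem : ((m : ℤ_[p]) - padicCyclo p g) ∈ RingHom.ker (PadicInt.toZMod (p := p)) := by
      rw [PadicInt.ker_toZMod, PadicInt.maximalIdeal_eq_span_p]
      have h1 : ((m : ℤ_[p]) - padicCyclo p g) ∈ RingHom.ker (PadicInt.toZModPow (p := p) r) := by
        rw [RingHom.mem_ker, map_sub, map_natCast, hm, ← coe_levelCyclo, ZMod.natCast_zmod_val,
          sub_self]
      rw [PadicInt.ker_toZModPow, Ideal.mem_span_singleton] at h1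
      exact Ideal.mem_span_singleton.mpr ((dvd_pow_self _ hr.ne').trans h1)
    rw [RingHom.mem_ker, map_sub, map_natCast, sub_eq_zero] at hmem
    exact hmem
  obtain ⟨j, hj⟩ := (ZMod.intCast_eq_intCast_iff_dvd_sub _ _ p).mp hmod.symm
  have : (m : T) - ((modPCyclo p g : ZMod p).val : T) = (p : T) * (j : T) := by
    exact_mod_cast congrArg (Int.cast (R := T)) hj
  rw [this]
  exact P.mul_mem_right _ h.natCast_mem

/-- Exact quadratic relations on the components. -/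
theorem LevelFacts.component_trace [Module.Free ℤ_[p] Λ] [Module.Finite ℤ_[p] Λ]
    (h : LevelFacts S P N tq) (D : EigenData GalQ act E) (g : GalQ) (i : D.ι) :
    ∃ t : E, D.ρ i g * D.ρ i g - t • D.ρ i g +
      algebraMap ℤ_[p] E (padicCyclo p g) • (1 : Module.End E (Fin 2 → E)) = 0 := by
  refine exists_component_trace D g _ (fun r ↦ ?_) i
  set m := (levelCyclo p (r + 1) g : ZMod (p ^ (r + 1))).val with hm
  obtain ⟨t, -, hrel⟩ := h.quadratic (r + 1) (Nat.succ_pos r) g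
  have hker : padicCyclo p g - (m : ℤ_[p]) ∈ RingHom.ker (PadicInt.toZModPow (p := p) (r + 1)) := by
    rw [RingHom.mem_ker, map_sub, map_natCast, hm, ← coe_levelCyclo, ZMod.natCast_zmod_val,
      sub_self]
  rw [PadicInt.ker_toZModPow, Ideal.mem_span_singleton] at hker
  obtain ⟨d, hd⟩ := hker
  refine ⟨t, m, ⟨(p : ℤ_[p]) * d, by rw [hd, pow_succ, mul_assoc]⟩, fun x ↦ ?_⟩
  have h0 := hrel (S.proj (r + 1) x)
  rw [← (S.isLevel_proj _).map_smul, ← (S.isLevel_proj _).map_smul, ← (S.isLevel_proj _).map_act,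
    ← map_nsmul, ← map_sub, ← map_add, (S.isLevel_proj _).map_eq_zero] at h0
  obtain ⟨y, hy⟩ := h0
  exact ⟨p • y, by rw [hy, pow_succ, mul_smul]⟩

/-- The determinant on every component is cyclotomic. -/
theorem LevelFacts.det_component [Module.Free ℤ_[p] Λ] [Module.Finite ℤ_[p] Λ]
    (h : LevelFacts S P N tq) (D : EigenData GalQ act E) (hns : ∀ i, ∃ g, IsNonScalar (D.ρ i) g)
    (i : D.ι) (g : GalQ) :
    LinearMap.det (D.ρ i g) = algebraMap ℤ_[p] E (padicCyclo p g) := by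
  choose t ht using fun g ↦ h.component_trace D g i
  exact det_eq (χ := ((algebraMap ℤ_[p] E).toMonoidHom.comp (padicCyclo p))) (by simp) ht (hns i) g

omit [SMulCommClass GalQ T J] [SMulCommClass GalQ ℤ_[p] Λ] in
/-- A conjugation relation on the lattice from the ones at all levels. -/
theorem tau_conj [Module.Free ℤ_[p] Λ] (h : LevelFacts S P N tq) (hN : N.Prime) (hpN : p ≠ N)
    {AN : ValuationSubring Qbar} (hAN : AN.LiesOverPrime N)
    (huni : ∀ σ ∈ AN.inertiaSubgroupIn ℚ, ∀ X : Λ, σ • (σ • X - X) = σ • X - X)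
    {τ : GalQ} (hτ : AN.IsFrobeniusAt τ N) {σ : GalQ} (hσ : σ ∈ AN.inertiaSubgroupIn ℚ) (X : Λ) :
    τ • σ • X = σ ^ N • τ • X := by
  have hp : p.Prime := Fact.out
  have key : ∀ r, ∃ y, τ • σ • X - σ ^ N • τ • X = p ^ r • y := by
    intro r
    have hunir : ∀ s ∈ AN.inertiaSubgroupIn ℚ, ∀ x : S.Lev r, s • (s • x - x) = s • x - x := by
      intro s hs x
      obtain ⟨Y, rfl⟩ := S.proj_surjective r x
      rw [← (S.isLevel_proj r).map_smul, ← map_sub, ← (S.isLevel_proj r).map_smul, huni s hs]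
    have hc : ∀ s t : GalQ, (fun _ ↦ (0 : S.Lev r)) (s * t) =
        (fun _ ↦ (0 : S.Lev r)) s + s • (fun _ ↦ (0 : S.Lev r)) t := fun s t ↦ by simp
    obtain ⟨F, hF, hFfix⟩ := h.finiteLevel r
    obtain ⟨σr, hσr, hgen, hconj⟩ := exists_inertia_affine_generator hN hAN hp hpN
      (S.pow_nsmul_lev r) ⟨F, hF, hFfix⟩ hunir hτ (fun _ ↦ (0 : S.Lev r)) hc
      ⟨⊥, inferInstance, fun _ _ ↦ rfl⟩
    obtain ⟨j, hj⟩ := hgen σ hσ
    set f := affineHom (fun _ ↦ (0 : S.Lev r)) hc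
    have h1 : f (τ * σ) = f (σ ^ N * τ) := by
      rw [map_mul, map_mul, map_pow, hj, ← pow_mul, mul_comm j N, pow_mul, ← hconj, conj_pow,
        inv_mul_cancel_right]
    have h2 := (eq_of_affineHom_eq hc h1).2 (S.proj r X)
    rw [mul_smul, mul_smul] at h2
    simp only [← (S.isLevel_proj r).map_smul] at h2
    rw [← (S.isLevel_proj r).map_eq_zero, map_sub, h2, sub_self]
  rw [← sub_eq_zero]
  by_contra hne
  let b := Module.Free.chooseBasis ℤ_[p] Λ
  obtain ⟨i, hi⟩ : ∃ i, b.repr (τ • σ • X - σ ^ N • τ • X) i ≠ 0 := by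
    by_contra hall
    push Not at hall
    exact hne (b.repr.map_eq_zero_iff.mp (Finsupp.ext hall))
  refine hi (PadicInt.ext_of_toZModPow.mp fun r ↦ ?_)
  obtain ⟨y, hy⟩ := key r
  rw [hy, map_nsmul, Finsupp.smul_apply, nsmul_eq_mul, map_mul, map_natCast, ZMod.natCast_self,
    zero_mul, map_zero]

omit [SMulCommClass GalQ ℤ_[p] Λ] in
/-- Hecke elements nonzero on every component are injective on the lattice. -/
theorem act_injective (D : EigenData GalQ act E) {u : T} (hu : ∀ i, D.θ i u ≠ 0) :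
    Function.Injective (act u) := by
  rw [injective_iff_map_eq_zero]
  intro x hx
  refine D.coord_injective (funext fun i ↦ ?_)
  have := congrArg (fun y ↦ D.coord y i) hx
  simp only [D.coord_act, map_zero, Pi.zero_apply, smul_eq_zero] at this
  simpa using this.resolve_left (hu i)

omit [SMulCommClass GalQ T J] [SMulCommClass GalQ ℤ_[p] Λ] in
/-- The part of every level killed by `u` has bounded order. -/
theorem exists_bound_killed [Module.Free ℤ_[p] Λ] [Module.Finite ℤ_[p] Λ] (S : LevelSystem act J)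
    {u : T} (hu : Function.Injective (act u)) {K : ℕ}
    (hKu : ∀ X : Λ, ∃ Y, p ^ K • X = act u Y) :
    ∃ B : ℕ, ∀ r, ∀ H : AddSubgroup (S.Lev r), (∀ x ∈ H, u • x = 0) → Nat.card H ≤ p ^ B := by
  have := S.finite_lev K
  refine ⟨Nat.card (S.Lev K), fun r H hH ↦
    le_trans ?_ (Nat.lt_pow_self (Fact.out : p.Prime).one_lt).le⟩
  have hrep : ∀ x : H, ∃ Z : Λ, S.proj r (p ^ (r - K) • Z) = x := by
    intro x
    obtain ⟨X, hX⟩ := S.proj_surjective r x
    obtain ⟨Y, hY⟩ : ∃ Y, act u X = p ^ r • Y := by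
      rw [← (S.isLevel_proj r).map_eq_zero, (S.isLevel_proj r).map_act, hX]
      exact hH _ x.2
    obtain ⟨Z, hZ⟩ := hKu Y
    have h1 : p ^ K • X = p ^ r • Z := hu (by rw [map_nsmul, map_nsmul, hY, smul_comm, hZ])
    rcases le_or_gt r K with hrK | hrK
    · exact ⟨X, by rw [Nat.sub_eq_zero_of_le hrK, pow_zero, one_smul, hX]⟩
    · refine ⟨Z, ?_⟩
      rw [show r = r - K + K by omega, pow_add, mul_smul, smul_comm] at h1
      have h2 : ((p ^ K : ℕ) : ℤ_[p]) • X = ((p ^ K : ℕ) : ℤ_[p]) • (p ^ (r - K) • Z) := by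
        rw [Nat.cast_smul_eq_nsmul, Nat.cast_smul_eq_nsmul]; exact h1
      rw [← smul_right_injective Λ
        (Nat.cast_ne_zero.mpr (pow_ne_zero _ (Fact.out : p.Prime).ne_zero)) h2, hX]
  choose Z hZ using hrep
  refine Nat.card_le_card_of_injective (fun x ↦ S.proj K (Z x)) fun x x' hxx' ↦ ?_
  simp only at hxx'
  rw [← sub_eq_zero, ← map_sub, (S.isLevel_proj K).map_eq_zero] at hxx'
  obtain ⟨W, hW⟩ := hxx'
  refine Subtype.ext ?_
  rw [← hZ x, ← hZ x', ← sub_eq_zero, ← map_sub, ← smul_sub, hW, ← mul_smul, ← pow_add,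
    (S.isLevel_proj r).map_eq_zero]
  exact ⟨p ^ (r - K + K - r) • W, by rw [← mul_smul, ← pow_add]; congr 2; omega⟩

variable [CharZero E] [Module.Free ℤ_[p] Λ] [Module.Finite ℤ_[p] Λ]

/-- The main counting statement: for every `r` a bounded multiple of `e • y` is a `p ^ r`-th
multiple of a fixed point. -/
theorem exists_fixed_dvd (h : LevelFacts S P N tq) (D : EigenData GalQ act E)
    (hns : ∀ i, ∃ g, IsNonScalar (D.ρ i) g) (hN : N.Prime) (hpN : p ≠ N)
    {AN Ap : ValuationSubring Qbar} (hAN : AN.LiesOverPrime N) (hAp : Ap.LiesOverPrime p)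
    (huni : ∀ σ ∈ AN.inertiaSubgroupIn ℚ, ∀ X : Λ, σ • (σ • X - X) = σ • X - X)
    {u : T} (hu : ∀ i, D.θ i u ≠ 0) {K : ℕ} (hKu : ∀ X : Λ, ∃ Y, p ^ K • X = act u Y)
    (hfix : ∀ r, ∀ x : S.Lev r, (∀ g : GalQ, g • x = x) → u • x = 0)
    (L : Submodule ℤ_[p] Λ) (hLsat : ∀ x, (p : ℤ_[p]) • x ∈ L → x ∈ L)
    (hLrank : Module.finrank ℤ_[p] L = Fintype.card D.ι)
    (hgood : ∀ r, (galSys N p AN Ap).IsGood (S.sub r L))
    (e : ℕ → T) (he : ∀ r (x : J), p ^ r • x = 0 → e r • x ∈ S.carrier r) {y : J}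
    (hy : ∀ g : GalQ, g • y = y)
    (hsmooth : ∀ w : J, ∃ F : IntermediateField ℚ Qbar, FiniteDimensional ℚ F ∧
      ∀ σ : GalQ, (∀ x ∈ F, σ x = x) → σ • w = w)
    (hunram : ∀ I ∈ (galSys N p AN Ap).unram, ∀ σ ∈ I, ∀ r w, p ^ r • w = y → σ • w = w)
    (hpcond : ∀ r, ∃ w : J, p ^ r • w = y ∧ ∀ c : GalQ → S.Lev r,
      (∀ σ, ((c σ : S.Lev r) : J) = e r • (σ • w - w)) →
        (galSys N p AN Ap).PCond (S.sub r L) c) :
    ∃ K' : ℕ, ∀ r, ∃ z : J, (∀ g : GalQ, g • z = z) ∧ p ^ r • z = p ^ K' • e r • y := by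
  have hp : p.Prime := Fact.out
  obtain ⟨τ, hτ⟩ := exists_isFrobeniusAt hAN hN
  have hdet := h.det_component D hns
  obtain ⟨σ₀, l, ex, hσ₀, hlsat, hlact, hlrank, hl, hlτ, hl0⟩ :=
    exists_inertia_line D ((algebraMap ℤ_[p] E).toMonoidHom.comp (padicCyclo p)) hdet
      (AN.inertiaSubgroupIn ℚ) huni hN.one_lt τ
      (show algebraMap ℤ_[p] E (padicCyclo p τ) = (N : E) by
        rw [padicCyclo_frobenius hAN hN hpN.symm hτ, map_natCast])
      fun s hs X ↦ tau_conj h hN hpN hAN huni hτ hs X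
  have hleaf : LineBound.{0} (modPCyclo p) (galSys N p AN Ap) :=
    lineBound (modPCyclo p) hp hN hAN hAp modPCyclo_spec
  obtain ⟨B, hB⟩ := exists_bound_killed S (act_injective D hu) hKu
  have hfixB : ∀ r, Nat.card (Sys.fixedBy (⊤ : Subgroup GalQ) (S.Lev r)) ≤ p ^ B := fun r ↦
    hB r _ fun x hx ↦ hfix r x fun g ↦ hx g trivial
  have hlfix : ∀ r, ∀ σ ∈ AN.inertiaSubgroupIn ℚ, ∀ x ∈ S.sub r l, σ • x = x := by
    rintro r σ hσ _ ⟨a, ha, rfl⟩
    rw [← (S.isLevel_proj r).map_smul, (hl σ hσ).1 a ha]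
  -- inertia at `N` is nontrivial on every component
  have hex : ex = 0 := by
    set r := B + 1 with hr
    have := S.finite_lev r
    obtain ⟨k, hk⟩ := S.exists_card_eq_pow r
    obtain ⟨hfin, hcoh⟩ :=
      finite_coh_and_card_le_of_lineBound hleaf k (S.Lev r) (S.sub r L) hk (h.isEisenstein r)
        (hgood r)
    obtain ⟨hfin', hle⟩ := Sys.card_classes_mul_le (S := galSys N p AN Ap) (Mm := S.sub r L)
    have h1 : Nat.card (S.sub r l) ≤
        Nat.card (Sys.fixedBy (galSys N p AN Ap).atN (S.Lev r)) :=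
      Nat.card_le_card_of_injective
        (fun x : S.sub r l ↦ (⟨x.1, fun σ hσ ↦ hlfix r σ hσ x.1 x.2⟩ :
          Sys.fixedBy (galSys N p AN Ap).atN (S.Lev r)))
        fun a b hab ↦ Subtype.ext (congrArg Subtype.val hab :)
    have h2 : Nat.card (S.sub r l) ≤ Nat.card (S.sub r L) * p ^ B :=
      calc _ ≤ _ := h1
        _ = 1 * _ := (one_mul _).symm
        _ ≤ _ := Nat.mul_le_mul_right _ Nat.card_pos
        _ ≤ _ := hle
        _ ≤ _ := Nat.mul_le_mul hcoh (hfixB r)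
    rw [LevelSystem.sub, LevelSystem.sub, (card_map_of_saturated (S.isLevel_proj r) l hlsat).1,
      (card_map_of_saturated (S.isLevel_proj r) L hLsat).1, hlrank, hLrank, ← pow_add,
      Nat.pow_le_pow_iff_right hp.one_lt, mul_add] at h2
    by_contra hne
    have : r * 1 ≤ r * ex := Nat.mul_le_mul_left r (Nat.one_le_iff_ne_zero.mpr hne)
    omega
  obtain ⟨hlinv, a, ha⟩ := hl0 hex
  obtain ⟨b, hb⟩ : ∃ b : ℕ, ¬ ((p : ℤ) ^ (b + 1) ∣ (N : ℤ) ^ 2 - 1) := by
    refine ⟨N ^ 2, fun hd ↦ ?_⟩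
    have h2 := hN.two_le
    have hpos : (0 : ℤ) < (N : ℤ) ^ 2 - 1 := by nlinarith
    have h3 := Int.le_of_dvd hpos hd
    have h4 : ((N : ℤ) ^ 2) < (p : ℤ) ^ (N ^ 2 + 1) := by
      exact_mod_cast (Nat.lt_pow_self hp.one_lt).trans (Nat.pow_lt_pow_right hp.one_lt
        (Nat.lt_succ_self _))
    omega
  refine ⟨B + (a + b), fun r ↦ ?_⟩
  obtain ⟨w, hw, hwP⟩ := hpcond r
  obtain ⟨k, hk⟩ := S.exists_card_eq_pow r
  have := S.finite_lev r
  have hMr : ∀ x : S.Lev r, p ^ r • x = 0 := S.pow_nsmul_lev r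
  refine exists_fixed_of_local (galSys N p AN Ap) hleaf hk (h.isEisenstein r) (hgood r) (hfixB r)
    (S.sub r l) (hlfix r) ?_ ?_ (N := N) (τ := τ) ?_ ?_ hσ₀ (a := a) ?_ hb ?_
    (S.incl r) (S.incl_injective r) (e r) (fun x hx ↦ ?_) hMr hw hy ?_ ?_ hwP
  · rw [LevelSystem.sub, LevelSystem.sub, (card_map_of_saturated (S.isLevel_proj r) l hlsat).1,
      (card_map_of_saturated (S.isLevel_proj r) L hLsat).1, hlrank, hLrank, hex, add_zero]
  · intro σ hσ x
    obtain ⟨X, rfl⟩ := S.proj_surjective r x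
    exact ⟨σ • X - X, (hl σ hσ).2 X, by rw [map_sub, (S.isLevel_proj r).map_smul]⟩
  · intro x
    obtain ⟨X, rfl⟩ := S.proj_surjective r x
    exact ⟨τ • τ • X - X, hlinv X,
      by rw [map_sub, (S.isLevel_proj r).map_smul, (S.isLevel_proj r).map_smul]⟩
  · rintro _ ⟨X, hX, rfl⟩
    exact ⟨τ • X, hlτ X hX, (S.isLevel_proj r).map_smul τ X⟩
  · rintro _ ⟨X, hX, rfl⟩
    obtain ⟨m, hm⟩ := ha X hX
    exact ⟨S.proj r m, by rw [← map_nsmul, hm, map_sub, (S.isLevel_proj r).map_smul]⟩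
  · rintro c hc ⟨H, ⟨F, hF, rfl⟩, hH⟩
    obtain ⟨F', hF', hF'fix⟩ := h.finiteLevel r
    refine exists_inertia_affine_generator hN hAN hp hpN hMr ⟨F', hF', hF'fix⟩ ?_ hτ c hc
      ⟨F, hF, fun σ hσ ↦ hH σ ((IntermediateField.mem_fixingSubgroup_iff _ _).mpr hσ)⟩
    intro σ hσ x
    obtain ⟨X, rfl⟩ := S.proj_surjective r x
    rw [← (S.isLevel_proj r).map_smul, ← map_sub, ← (S.isLevel_proj r).map_smul, huni σ hσ]
  · exact ⟨⟨e r • x, he r x hx⟩, rfl⟩
  · obtain ⟨F, hF, hFw⟩ := hsmooth w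
    exact ⟨_, ⟨F, hF, rfl⟩, fun σ hσ ↦
      hFw σ ((IntermediateField.mem_fixingSubgroup_iff _ _).mp hσ)⟩
  · intro I hI σ hσ
    rw [hunram I hI σ hσ r w hw, sub_self, smul_zero]

end Fermat.Agent.EisensteinDescent
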