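import Fermat.Agent.HeckeAlg.EigenCharacter
import Mathlib.NumberTheory.ModularForms.Bounds

/-!
# A strict bound for weight-two Hecke eigenvalues

If `T_q f = a f` for a nonzero weight-two cusp form on `Γ₀(N)`, `q ∤ N`, then `‖a‖ < q + 1`:
the function `‖f‖ * im` attains its maximum, and equality would spread the maximum to the cusp.
-/

noncomputable section

open UpperHalfPlane hiding I
open Filter Topology ModularForm CongruenceSubgroup
open scoped MatrixGroups Modular

namespace Fermat.Agent.EisensteinDescent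

variable {N : ℕ}

/-- The invariant function `‖f τ‖ * im τ`. -/
def htFun (f : CuspForm (Gamma0 N) 2) (τ : ℍ) : ℝ := ‖f τ‖ * τ.im

theorem htFun_nonneg (f : CuspForm (Gamma0 N) 2) (τ : ℍ) : 0 ≤ htFun f τ :=
  mul_nonneg (norm_nonneg _) τ.im_pos.le

theorem sqrt_norm_petersson (f : CuspForm (Gamma0 N) 2) (τ : ℍ) :
    Real.sqrt ‖petersson 2 f f τ‖ = htFun f τ := by
  rw [← Real.sqrt_sq (htFun_nonneg f τ)]
  congr 1
  simp [petersson, htFun, abs_of_pos τ.im_pos]
  ring

theorem continuous_htFun (f : CuspForm (Gamma0 N) 2) : Continuous (htFun f) := by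
  have hf : Continuous (⇑f) := (CuspFormClass.holo f).continuous
  unfold htFun
  fun_prop

theorem htFun_smul (f : CuspForm (Gamma0 N) 2) {γ : SL(2, ℤ)} (hγ : γ ∈ Gamma0 N) (τ : ℍ) :
    htFun f (γ • τ) = htFun f τ := by
  rw [← sqrt_norm_petersson, ← sqrt_norm_petersson]
  congr 1
  exact SlashInvariantFormClass.norm_petersson_smul (Γ := (Gamma0 N : Subgroup (GL (Fin 2) ℝ)))
    (k := 2) (f := f) (f' := f) ⟨γ, hγ, rfl⟩

open ConjAct Pointwise in
theorem tendsto_htFun_smul [NeZero N] (f : CuspForm (Gamma0 N) 2) (g : SL(2, ℤ)) :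
    Tendsto (fun τ => htFun f (g • τ)) atImInfty (𝓝 0) := by
  have h : IsZeroAtImInfty fun τ => petersson 2 f f (g • τ) := by
    simp_rw [← UpperHalfPlane.petersson_slash_SL]
    have : ((toConjAct (g : GL (Fin 2) ℝ)⁻¹) •
        (Gamma0 N : Subgroup (GL (Fin 2) ℝ))).IsArithmetic := by
      simpa [(show Rat.castHom ℝ = algebraMap ℚ ℝ by rfl), map_inv,
        Matrix.SpecialLinearGroup.map_mapGL]
        using! Subgroup.IsArithmetic.conj (Gamma0 N : Subgroup (GL (Fin 2) ℝ))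
          (Matrix.SpecialLinearGroup.mapGL ℚ g)⁻¹
    exact (CuspFormClass.zero_at_infty <| CuspForm.translate f g).petersson_isZeroAtImInfty_left 2 _
      (CuspForm.translate f g)
  rw [IsZeroAtImInfty, ZeroAtFilter, tendsto_zero_iff_norm_tendsto_zero] at h
  simpa [Function.comp_def, sqrt_norm_petersson] using (Real.continuous_sqrt.tendsto 0).comp h

/-- `‖f‖ * im` attains a maximum. -/
theorem exists_max_htFun [NeZero N] (f : CuspForm (Gamma0 N) 2) :
    ∃ z₀ : ℍ, ∀ τ, htFun f τ ≤ htFun f z₀ := by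
  by_cases h0 : ∀ τ, htFun f τ ≤ 0
  · exact ⟨UpperHalfPlane.I, fun τ => (h0 τ).trans (htFun_nonneg f _)⟩
  push Not at h0
  obtain ⟨τ₀, hτ₀⟩ := h0
  let r : SL(2, ℤ) ⧸ Gamma0 N → SL(2, ℤ) := fun c => (Quotient.out c)⁻¹
  have : Finite (SL(2, ℤ) ⧸ Gamma0 N) := inferInstance
  have : Nonempty (SL(2, ℤ) ⧸ Gamma0 N) := inferInstance
  have hev : ∀ c, ∃ Y : ℝ, ∀ w : ℍ, Y ≤ w.im → htFun f (r c • w) < htFun f τ₀ := fun c => by
    obtain ⟨Y, hY⟩ :=
      (atImInfty_mem _).mp ((tendsto_htFun_smul f (r c)).eventually (eventually_lt_nhds hτ₀))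
    exact ⟨Y, fun w hw => hY w hw⟩
  choose Y hY using hev
  obtain ⟨c₀, hc₀⟩ := Finite.exists_max Y
  let K : Set ℍ :=
    insert τ₀ (⋃ c, (fun w => r c • w) '' ModularGroup.truncatedFundamentalDomain (Y c₀))
  have hK : IsCompact K := (isCompact_iUnion fun c =>
    (ModularGroup.isCompact_truncatedFundamentalDomain _).image
      (by simp only [MulAction.compHom_smul_def]; fun_prop)).insert τ₀
  obtain ⟨z₀, -, hz₀⟩ := hK.exists_isMaxOn ⟨τ₀, Set.mem_insert _ _⟩
    (continuous_htFun f).continuousOn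
  refine ⟨z₀, fun τ => ?_⟩
  obtain ⟨g, hg⟩ := ModularGroup.exists_smul_mem_fd τ
  set c : SL(2, ℤ) ⧸ Gamma0 N := (g : SL(2, ℤ) ⧸ Gamma0 N) with hc
  have hmem : (Quotient.out c)⁻¹ * g ∈ Gamma0 N :=
    QuotientGroup.eq.mp (QuotientGroup.out_eq' c)
  have hτ : htFun f τ = htFun f (r c • (g • τ)) := by
    rw [smul_smul]
    exact (htFun_smul f hmem τ).symm
  rw [hτ]
  rcases le_total (Y c₀) (g • τ).im with hle | hle
  · exact (hY c _ ((hc₀ c).trans hle)).le.trans (hz₀ (Set.mem_insert _ _))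
  · exact hz₀ (Set.mem_insert_of_mem _ (Set.mem_iUnion.mpr ⟨c, _, ⟨hg, hle⟩, rfl⟩))

/-- The triangle inequality for `T_q` on `‖f‖ * im`. -/
theorem norm_mul_htFun_le {q : ℕ} (hq : q ≠ 0) (f : CuspForm (Gamma0 N) 2) {a : ℂ}
    (h : ∀ τ, heckeT 2 q (⇑f) τ = a * f τ) (τ : ℍ) :
    ‖a‖ * htFun f τ ≤
      (∑ j ∈ Finset.range q, htFun f (heckeMatrix q j • τ)) + htFun f (heckeDiagMatrix q • τ) := by
  have hq' : (0 : ℝ) < q := Nat.cast_pos.mpr (Nat.pos_of_ne_zero hq)
  have him : ∀ j, (heckeMatrix q j • τ).im = τ.im / q := fun j => by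
    rw [UpperHalfPlane.im, coe_heckeMatrix_smul hq]
    simp
  have him' : (heckeDiagMatrix q • τ).im = q * τ.im := by
    rw [UpperHalfPlane.im, coe_heckeDiagMatrix_smul hq]
    simp
  have hn := congrArg norm (h τ)
  rw [heckeT_eq_heckeU_add, Pi.add_apply, heckeU_apply 2 hq, slash_heckeDiagMatrix_apply 2 hq,
    show (2 : ℤ) - 1 = 1 from rfl, zpow_one, norm_mul] at hn
  calc ‖a‖ * htFun f τ = (‖a‖ * ‖f τ‖) * τ.im := by rw [htFun]; ring
    _ ≤ ((q : ℝ)⁻¹ * (∑ j ∈ Finset.range q, ‖f (heckeMatrix q j • τ)‖) +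
        q * ‖f (heckeDiagMatrix q • τ)‖) * τ.im := by
      refine mul_le_mul_of_nonneg_right ?_ τ.im_pos.le
      rw [← hn]
      refine (norm_add_le _ _).trans ?_
      rw [norm_mul, norm_mul, norm_inv, Complex.norm_natCast]
      gcongr
      exact norm_sum_le _ _
    _ = _ := by
      simp only [htFun, him, him', add_mul, Finset.mul_sum, Finset.sum_mul]
      congr 1
      · exact Finset.sum_congr rfl fun j _ => by ring
      · ring

/-- A nonzero weight-two eigenvector of `T_q` has eigenvalue of norm less than `q + 1`. -/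
theorem norm_eigenvalue_lt_succ [NeZero N] {q : ℕ} (hq : q.Prime) (hqN : ¬ q ∣ N)
    {f : CuspForm (Gamma0 N) 2} (hf : f ≠ 0) {a : ℂ}
    (h : CuspForm.heckeTLin 2 hq hqN f = a • f) : ‖a‖ < q + 1 := by
  obtain ⟨z₀, hz₀⟩ := exists_max_htFun f
  have hpos : 0 < htFun f z₀ := by
    obtain ⟨τ, hτ⟩ : ∃ τ, f τ ≠ 0 := by
      by_contra hne
      push Not at hne
      exact hf (DFunLike.ext _ _ fun τ => by simpa using hne τ)
    exact (mul_pos (norm_pos_iff.mpr hτ) τ.im_pos).trans_le (hz₀ τ)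
  have hfun : ∀ τ, heckeT 2 q (⇑f) τ = a * f τ := fun τ => by
    rw [← CuspForm.coe_heckeTLin_apply 2 hq hqN f, h]
    rfl
  by_contra hle
  push Not at hle
  have hstep : ∀ τ, htFun f τ = htFun f z₀ → htFun f (heckeDiagMatrix q • τ) = htFun f z₀ := by
    intro τ hτ
    refine le_antisymm (hz₀ _) ?_
    have h1 := norm_mul_htFun_le hq.ne_zero f hfun τ
    have h2 : ∑ j ∈ Finset.range q, htFun f (heckeMatrix q j • τ) ≤ q * htFun f z₀ := by
      simpa using Finset.sum_le_sum (s := Finset.range q)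
        fun j _ => hz₀ (heckeMatrix q j • τ)
    have h3 := mul_le_mul_of_nonneg_right hle hpos.le
    rw [hτ] at h1
    nlinarith
  let w : ℕ → ℍ := fun n => (fun τ => heckeDiagMatrix q • τ)^[n] z₀
  have hw : ∀ n, htFun f (w n) = htFun f z₀ ∧ (w n).im = (q : ℝ) ^ n * z₀.im := fun n => by
    induction n with
    | zero => simp [w]
    | succ n ih =>
      have hw' : w (n + 1) = heckeDiagMatrix q • w n := Function.iterate_succ_apply' _ n z₀
      refine ⟨hw' ▸ hstep _ ih.1, ?_⟩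
      have him : (heckeDiagMatrix q • w n).im = q * (w n).im := by
        rw [UpperHalfPlane.im, coe_heckeDiagMatrix_smul hq.ne_zero]
        simp
      rw [hw', him, ih.2]
      ring
  have hlim : Tendsto w atTop atImInfty := by
    rw [atImInfty, tendsto_comap_iff]
    simp only [Function.comp_def, hw]
    exact (tendsto_pow_atTop_atTop_of_one_lt (by exact_mod_cast hq.one_lt)).atTop_mul_const
      z₀.im_pos
  have h0 : Tendsto (fun n => htFun f (w n)) atTop (𝓝 0) := by
    simpa [Function.comp_def] using (tendsto_htFun_smul f 1).comp hlim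
  simp only [hw] at h0
  exact hpos.ne' (tendsto_nhds_unique tendsto_const_nhds h0)

/-- `‖a_q‖ < q + 1` for a normalised weight-two eigenform and a prime `q` not dividing the
level. -/
theorem norm_qCoeff_lt_succ [NeZero N] {f : CuspForm (Gamma0 N) 2} (hf : f.IsNormalizedEigenform)
    {q : ℕ} (hq : q.Prime) (hqN : ¬ q ∣ N) : ‖ModularFormClass.qCoeff (⇑f) q‖ < q + 1 :=
  norm_eigenvalue_lt_succ hq hqN hf.ne_zero (HeckeAlg.heckeTLin_eq_qCoeff_smul hf hq hqN)

end Fermat.Agent.EisensteinDescent
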