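import Fermat.Agent.EisensteinDescent.JZeroLocal

/-!
# The Hecke elements and the Eisenstein ideal of `J₀(N)` used in the descent
-/

open scoped IsMulCommutative
open ModularCurve

namespace Fermat.Agent.EisensteinDescent

variable (N : ℕ) [NeZero N]

/-- `T_q` as an element of the anemic algebra (junk value `0` if `q` is not a prime `≠ N`). -/
noncomputable def awayTq (q : ℕ) : awayAlg N :=
  if h : q.Prime ∧ q ≠ N then awayT N ⟨q, h.1⟩ h.2 else 0

/-- `awayTq` at a prime other than `N` is `awayT`. -/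
theorem awayTq_eq {q : ℕ} (hq : q.Prime) (hqN : q ≠ N) :
    awayTq N q = awayT N ⟨q, hq⟩ hqN := dif_pos ⟨hq, hqN⟩

/-- `awayTq` acts on `J₀(N)` as the Hecke operator. -/
theorem awayTq_smul {q : ℕ} (hq : q.Prime) (hqN : q ≠ N) (x : JZero N) :
    awayTq N q • x = heckeOperatorBar N ⟨q, hq⟩ x := by
  rw [awayTq_eq N hq hqN, awayT_smul]

/-- The generators `p` and `T_q - (1 + q)` of the Eisenstein ideal. -/
noncomputable def eisensteinGens (p : ℕ) : Set (awayAlg N) :=
  insert (p : awayAlg N) {t | ∃ q : ℕ, q.Prime ∧ q ≠ N ∧ t = awayTq N q - (1 + (q : awayAlg N))}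

/-- The Eisenstein ideal above `p`. -/
noncomputable def eisensteinIdeal [IsMulCommutative (awayAlg N)] (p : ℕ) : Ideal (awayAlg N) :=
  Ideal.span (eisensteinGens N p)

/-- The Eisenstein ideal contains `p`. -/
theorem natCast_mem_eisensteinIdeal [IsMulCommutative (awayAlg N)] (p : ℕ) :
    (p : awayAlg N) ∈ eisensteinIdeal N p :=
  Ideal.subset_span (Set.mem_insert _ _)

/-- The Eisenstein ideal contains `T_q - (1 + q)`. -/
theorem sub_mem_eisensteinIdeal [IsMulCommutative (awayAlg N)] (p : ℕ) {q : ℕ} (hq : q.Prime)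
    (hqN : q ≠ N) : awayTq N q - (1 + (q : awayAlg N)) ∈ eisensteinIdeal N p :=
  Ideal.subset_span (Set.mem_insert_of_mem _ ⟨q, hq, hqN, rfl⟩)

end Fermat.Agent.EisensteinDescent
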