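import Fermat.Agent.EisensteinDescent.JZeroSmooth
import Fermat.Prelude.Def_ModularCurve_HeckeModule

/-!
# Local consequences of good reduction for `J₀(N)`

From the specialisations at the primes `q ∤ N p` we derive what the Eisenstein descent consumes:
inertia at `q` moves `p ^ r`-th roots of fixed points trivially, the torsion is unramified with
Frobenius satisfying the Eichler–Shimura relation, and the kernel of reduction is stable under the
Hecke algebra away from `N` and meets the `p`-power torsion trivially.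
-/


open scoped Pointwise
open Fermat.Agent.GaloisBasics ModularCurve

namespace Fermat.Agent.EisensteinDescent

variable (N : ℕ) [NeZero N]

/-- The Hecke operators of index prime to `N`. -/
def awayOperators : Set (Module.End ℤ (JZero N)) :=
  heckeOperatorBar N '' {q | (q : ℕ) ≠ N}

/-- The anemic Hecke algebra acting on `J₀(N)`, for prime `N`. -/
noncomputable def awayAlg : Subalgebra ℤ (Module.End ℤ (JZero N)) :=
  Algebra.adjoin ℤ (awayOperators N)

/-- The operator `T_q` in the anemic algebra. -/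
noncomputable def awayT (q : Nat.Primes) (hq : (q : ℕ) ≠ N) : awayAlg N :=
  ⟨heckeOperatorBar N q, Algebra.subset_adjoin ⟨q, hq, rfl⟩⟩

variable {N}

/-- The anemic algebra is commutative. -/
theorem isMulCommutative_awayAlg (h : HeckeOperatorsCommuteBar N) :
    IsMulCommutative (awayAlg N) :=
  Algebra.isMulCommutative_adjoin ℤ (by
    rintro _ ⟨a, -, rfl⟩ _ ⟨b, -, rfl⟩
    exact h a b)

/-- `awayT` acts on `J₀(N)` as the Hecke operator. -/
@[simp] theorem awayT_smul (q : Nat.Primes) (hq : (q : ℕ) ≠ N) (x : JZero N) :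
    awayT N q hq • x = heckeOperatorBar N q x := rfl

/-- Every operator of the anemic algebra is given by a polynomial in the Hecke operators. -/
theorem exists_heckeEvalBar_eq (h : HeckeOperatorsCommuteBar N) (t : awayAlg N) :
    ∃ P : HeckeAlg, heckeEvalBar h P = (t : Module.End ℤ (JZero N)) := by
  obtain ⟨t, ht⟩ := t
  induction ht using Algebra.adjoin_induction with
  | mem x hx =>
    obtain ⟨q, -, rfl⟩ := hx
    exact ⟨heckeGen q, heckeEvalBar_heckeGen h q⟩
  | algebraMap r => exact ⟨MvPolynomial.C r, by rw [heckeEvalBar_C]; rfl⟩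
  | add x y _ _ hx hy =>
    obtain ⟨P, hP⟩ := hx
    obtain ⟨Q, hQ⟩ := hy
    exact ⟨P + Q, by rw [map_add, hP, hQ]⟩
  | mul x y _ _ hx hy =>
    obtain ⟨P, hP⟩ := hx
    obtain ⟨Q, hQ⟩ := hy
    exact ⟨P * Q, ((heckeEvalBar h).map_mul P Q).trans (congrArg₂ (· * ·) hP hQ)⟩

/-- Galois commutes with the anemic algebra when it commutes with each operator. -/
theorem smulCommClass_awayAlg
    (hgal : ∀ (σ : GalQ) (q : Nat.Primes) (x : JZero N),
      σ • heckeOperatorBar N q x = heckeOperatorBar N q (σ • x)) :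
    SMulCommClass GalQ (awayAlg N) (JZero N) where
  smul_comm σ t x := by
    obtain ⟨t, ht⟩ := t
    show σ • t x = t (σ • x)
    induction ht using Algebra.adjoin_induction generalizing x with
    | mem y hy =>
      obtain ⟨q, -, rfl⟩ := hy
      exact hgal σ q x
    | algebraMap r =>
      rw [Module.algebraMap_end_apply, Module.algebraMap_end_apply]
      exact map_zsmul (DistribSMul.toAddMonoidHom (JZero N) σ) r x
    | add y z _ _ hy hz => rw [LinearMap.add_apply, LinearMap.add_apply, smul_add, hy, hz]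
    | mul y z _ _ hy hz => rw [Module.End.mul_apply, Module.End.mul_apply, hy, hz]

/-- The kernel of reduction at a place over `q ∤ N p`. -/
structure IsReductionKernel (p q : ℕ) (hq : q.Prime) (A : ValuationSubring Qbar)
    (Ker : AddSubgroup (JZero N)) : Prop where
  stable : ∀ (t : awayAlg N), ∀ x ∈ Ker, t • x ∈ Ker
  inertia : ∀ σ ∈ A.inertiaSubgroupIn ℚ, ∀ x : JZero N, σ • x - x ∈ Ker
  frobenius_stable : ∀ φ : GalQ, A.IsFrobeniusAt φ q → ∀ x ∈ Ker, φ • x ∈ Ker
  eichlerShimura : ∀ φ : GalQ, A.IsFrobeniusAt φ q → ∀ x : JZero N,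
    φ • φ • x - heckeOperatorBar N ⟨q, hq⟩ (φ • x) + q • x ∈ Ker
  torsion : ∀ x : JZero N, (∃ n : ℕ, p ^ n • x = 0) → x ∈ Ker → x = 0

/-- Specialisations give kernels of reduction. -/
theorem exists_isReductionKernel (h : HeckeOperatorsCommuteBar N) {p : ℕ}
    (hsc : letI := heckeModuleBar N; SMulCommClass GalQ HeckeAlg (JZero N))
    (hsp : letI := heckeModuleBar N; letI := hsc;
      SpecializationExists (K := ℚ) (L := Qbar) N p (JZero N))
    {q : ℕ} (hq : q.Prime) (hqN : ¬ q ∣ N) (hqp : ¬ q ∣ p) {A : ValuationSubring Qbar}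
    (hA : A.LiesOverPrime q) :
    ∃ Ker : AddSubgroup (JZero N), IsReductionKernel p q hq A Ker := by
  let := heckeModuleBar N
  have := hsc
  obtain ⟨J', hJ', hM, sp, F, hspec, hrel⟩ :=
    hsp q hq (fun hd ↦ (hq.dvd_mul.1 hd).elim hqN hqp) A hA
  refine ⟨sp.ker, ⟨fun t x hx ↦ ?_, fun σ hσ x ↦ ?_, fun φ hφ x hx ↦ ?_, fun φ hφ x ↦ ?_,
    fun x hx hker ↦ hspec.injective_torsion x hx hker⟩⟩
  · obtain ⟨P, hP⟩ := exists_heckeEvalBar_eq h t
    have hPx : t • x = P • x := by
      rw [heckeModuleBar_smul_def h, hP]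
      rfl
    rw [AddMonoidHom.mem_ker, hPx, hspec.hecke_comm, AddMonoidHom.mem_ker.1 hx, smul_zero]
  · rw [AddMonoidHom.mem_ker, map_sub, hspec.inertia_comm σ hσ, sub_self]
  · rw [AddMonoidHom.mem_ker, hspec.frobenius_comm φ hφ, AddMonoidHom.mem_ker.1 hx, map_zero]
  · have hT : heckeOperatorBar N ⟨q, hq⟩ (φ • x) = heckeGen ⟨q, hq⟩ • φ • x :=
      (heckeModuleBar_heckeGen_smul h _ _).symm
    rw [hT, AddMonoidHom.mem_ker, map_add, map_sub, map_nsmul,
      hspec.hecke_comm, hspec.frobenius_comm φ hφ, hspec.frobenius_comm φ hφ]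
    exact hrel (sp x)

namespace IsReductionKernel

variable {p q : ℕ} {hq : q.Prime} {A : ValuationSubring Qbar} {Ker : AddSubgroup (JZero N)}

omit [NeZero N] in
theorem galois_nsmul (σ : GalQ) (n : ℕ) (x : JZero N) : σ • n • x = n • σ • x :=
  map_nsmul (DistribSMul.toAddMonoidHom (JZero N) σ) n x

omit [NeZero N] in
/-- Galois fixes zero. -/
theorem galois_zero (σ : GalQ) : σ • (0 : JZero N) = 0 :=
  smul_zero (A := JZero N) σ

omit [NeZero N] in
/-- Galois preserves `n`-torsion. -/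
theorem smul_mem_torsion (σ : GalQ) {n : ℕ} {x : JZero N} (hx : n • x = 0) :
    n • σ • x = 0 := by
  rw [← galois_nsmul, hx, galois_zero]

/-- Inertia fixes every root of a point it fixes. -/
theorem smul_eq_of_nsmul_fixed (hK : IsReductionKernel p q hq A Ker) {σ : GalQ}
    (hσ : σ ∈ A.inertiaSubgroupIn ℚ) (r : ℕ) {w : JZero N} (hw : σ • p ^ r • w = p ^ r • w) :
    σ • w = w := by
  refine sub_eq_zero.1 (hK.torsion _ ⟨r, ?_⟩ (hK.inertia σ hσ w))
  rw [nsmul_sub, ← galois_nsmul, hw, sub_self]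

/-- Inertia fixes the torsion. -/
theorem smul_eq_of_torsion (hK : IsReductionKernel p q hq A Ker) {σ : GalQ}
    (hσ : σ ∈ A.inertiaSubgroupIn ℚ) {x : JZero N} (hx : ∃ n : ℕ, p ^ n • x = 0) : σ • x = x := by
  obtain ⟨n, hn⟩ := hx
  refine hK.smul_eq_of_nsmul_fixed hσ n ?_
  rw [hn, galois_zero]

/-- Frobenius satisfies the Eichler–Shimura relation on the torsion. -/
theorem frobenius_quadratic (hK : IsReductionKernel p q hq A Ker) {φ : GalQ}
    (hφ : A.IsFrobeniusAt φ q) {x : JZero N} (hx : ∃ n : ℕ, p ^ n • x = 0) :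
    φ • φ • x - heckeOperatorBar N ⟨q, hq⟩ (φ • x) + q • x = 0 := by
  obtain ⟨n, hn⟩ := hx
  refine hK.torsion _ ⟨n, ?_⟩ (hK.eichlerShimura φ hφ x)
  rw [nsmul_add, nsmul_sub, smul_mem_torsion φ (smul_mem_torsion φ hn), ← map_nsmul,
    smul_mem_torsion φ hn, map_zero, smul_comm (p ^ n) q x, hn, nsmul_zero, sub_zero, add_zero]

end IsReductionKernel

/-- The three local statements at every place over a prime `q ∤ N p`. -/
theorem jZero_local (h : HeckeOperatorsCommuteBar N) {p : ℕ}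
    (hsc : letI := heckeModuleBar N; SMulCommClass GalQ HeckeAlg (JZero N))
    (hsp : letI := heckeModuleBar N; letI := hsc;
      SpecializationExists (K := ℚ) (L := Qbar) N p (JZero N))
    {q : ℕ} (hq : q.Prime) (hqN : ¬ q ∣ N) (hqp : ¬ q ∣ p) {A : ValuationSubring Qbar}
    (hA : A.LiesOverPrime q) :
    (∀ σ ∈ A.inertiaSubgroupIn ℚ, ∀ (r : ℕ) (w : JZero N),
        (∀ g : GalQ, g • p ^ r • w = p ^ r • w) → σ • w = w) ∧
    (∀ σ ∈ A.inertiaSubgroupIn ℚ, ∀ x : JZero N, (∃ n : ℕ, p ^ n • x = 0) → σ • x = x) ∧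
    (∀ φ : GalQ, A.IsFrobeniusAt φ q → ∀ x : JZero N, (∃ n : ℕ, p ^ n • x = 0) →
      φ • φ • x - heckeOperatorBar N ⟨q, hq⟩ (φ • x) + q • x = 0) := by
  obtain ⟨Ker, hK⟩ := exists_isReductionKernel h hsc hsp hq hqN hqp hA
  exact ⟨fun σ hσ r w hw ↦ hK.smul_eq_of_nsmul_fixed hσ r (hw σ),
    fun σ hσ x hx ↦ hK.smul_eq_of_torsion hσ hx,
    fun φ hφ x hx ↦ hK.frobenius_quadratic hφ hx⟩

end Fermat.Agent.EisensteinDescent
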