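import Fermat.Agent.HeckeCommute
import Fermat.Agent.EisensteinDescent.JZeroLocal
import Fermat.Agent.Specialization.JZero

/-!
# The Hecke operators of `J₀(N)` commute with Galois

The degeneracy maps are defined over `ℚ`, so the norm transform of functions commutes with the
arithmetic action of Galois on `q`-expansions; two positive maps of divisors agreeing on principal
divisors agree on classes of degree zero.
-/


noncomputable section

open AlgebraicCurve ModularCurve
open Fermat.Agent.GaloisBasics Fermat.Agent.GoodReduction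

namespace Fermat.Agent.EisensteinDescent

/-- Norms commute with compatible automorphisms. -/
theorem norm_along_map {K F F' : Type*} [Field K] [Field F] [Field F'] [Algebra K F]
    [Algebra K F'] (φ : F →ₐ[K] F') (e₁ : F ≃+* F) (e₂ : F' ≃+* F')
    (h : ∀ x, φ (e₁ x) = e₂ (φ x)) (y : F') :
    (letI := algebraAlong φ; Algebra.norm F (e₂ y)) =
      e₁ (letI := algebraAlong φ; Algebra.norm F y) := by
  let := algebraAlong φ
  rw [Algebra.norm_eq_of_equiv_equiv e₁ e₂ (RingHom.ext h) y, RingEquiv.apply_symm_apply]

variable (N ℓ : ℕ) [NeZero N] [NeZero ℓ]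

/-- The norm transform commutes with Galois. -/
theorem heckeNorm_galois_smul (σ : GalQ) (f : modularFunctionFieldBar N) :
    Hecke.heckeNorm Qbar N ℓ (arithmeticGalois (modularFunctionFieldFull N) σ • f) =
      arithmeticGalois (modularFunctionFieldFull N) σ • Hecke.heckeNorm Qbar N ℓ f := by
  have h := norm_along_map (heckeAlphaBar Qbar N ℓ)
    (arithmeticRingAut (modularFunctionFieldFull N) σ)
    (arithmeticRingAut (modularFunctionFieldFull (N * ℓ)) σ)
    (fun x => Subtype.ext (by
      rw [coe_heckeAlphaBar, coe_arithmeticRingAut_apply, coe_arithmeticRingAut_apply,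
        coe_heckeAlphaBar]))
    (heckeBetaBar Qbar N ℓ f)
  have hβ : heckeBetaBar Qbar N ℓ (arithmeticRingAut (modularFunctionFieldFull N) σ f) =
      arithmeticRingAut (modularFunctionFieldFull (N * ℓ)) σ (heckeBetaBar Qbar N ℓ f) :=
    Subtype.ext (by
      rw [coe_heckeBetaBar, coe_arithmeticRingAut_apply, coe_arithmeticRingAut_apply,
        coe_heckeBetaBar, ModularFunctionField.coeffMap_qExpand'])
  rw [SemilinearAut.smul_def, SemilinearAut.smul_def, toRingAut_arithmeticGalois,
    Hecke.heckeNorm, Hecke.heckeNorm, hβ]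
  exact h

/-- Galois commutes with every Hecke operator on `J₀(N)`. -/
theorem galois_smul_heckeOperatorBar (σ : GalQ) (q : Nat.Primes) (x : JZero N) :
    σ • heckeOperatorBar N q x = heckeOperatorBar N q (σ • x) := by
  have : NeZero (q : ℕ) := ⟨q.2.ne_zero⟩
  obtain ⟨hα, hβ, hP, hfin, hFI, hNF, hop⟩ := Hecke.heckeOperatorAlong_eq_pic0 Qbar N (q : ℕ)
  obtain ⟨c₀, hc₀⟩ := exists_riemannData Qbar (modularFunctionFieldBar N)
  obtain ⟨E₀, hE⟩ := (hc₀ c₀ le_rfl).exists_effectiveUpTo
  set s := arithmeticGalois (modularFunctionFieldFull N) σ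
  obtain ⟨D, rfl⟩ := Pic0.mk_surjective x
  have hT : ∀ D : Divisor.degZero (K := Qbar) (F := modularFunctionFieldBar N),
      heckeOperatorBar N q (Pic0.mk D) = Pic0.mk ⟨heckeDivBar hα hβ D,
        Divisor.correspondence_mem_degZero _ _ hβ hα hFI D.2⟩ := fun D => by
    rw [heckeOperatorBar_apply, hop]
    exact Pic0.correspondence_mk _ _ hβ hα hFI hfin hNF D
  show s • heckeOperatorBar N q (Pic0.mk D) = heckeOperatorBar N q (s • Pic0.mk D)
  rw [hT, SemilinearAut.pic0_smul_mk, SemilinearAut.pic0_smul_mk, hT]
  refine congrArg Pic0.mk (Subtype.ext ?_)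
  have hS := Specialization.scales_heckeDivBar hα hβ hFI
  refine Scales.eq_on_degZero (ψ := (DistribSMul.toAddMonoidHom _ s).comp (heckeDivBar hα hβ))
    (ψ' := (heckeDivBar hα hβ).comp (DistribSMul.toAddMonoidHom _ s)) hE hE.deg_one
    (hS.comp (Scales.smul s)) ((Scales.smul s).comp hS) (fun E hE' => ?_)
    (Divisor.mem_degZero.mp D.2)
  obtain ⟨f, hf, hEf⟩ := hE'
  have hsmul : ∀ {g : modularFunctionFieldBar N}
      {E : Divisor Qbar (modularFunctionFieldBar N)},
      (∀ v, E v = v.ord g) → ∀ v, (s • E) v = v.ord (s • g) := fun {g E} h v => by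
    rw [SemilinearAut.divisor_smul_apply, h, ← SemilinearAut.ord_smul s (s⁻¹ • v) g, smul_inv_smul]
  refine Finsupp.ext fun v => ?_
  show (s • heckeDivBar hα hβ E) v = heckeDivBar hα hβ (s • E) v
  rw [hsmul (Hecke.heckeDivBar_principal hα hβ hfin hNF hf hEf) v,
    Hecke.heckeDivBar_principal hα hβ hfin hNF ((smul_ne_zero_iff_ne s).mpr hf) (hsmul hEf) v,
    heckeNorm_galois_smul]

variable {N}

/-- Galois commutes with the anemic algebra. -/
instance instSMulCommClassAwayAlg : SMulCommClass GalQ (awayAlg N) (JZero N) :=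
  smulCommClass_awayAlg (galois_smul_heckeOperatorBar N)

/-- The anemic algebra is commutative. -/
instance instIsMulCommutativeAwayAlg : IsMulCommutative (awayAlg N) :=
  isMulCommutative_awayAlg (HeckeCommute.heckeOperatorsCommuteBar N)

/-- The anemic algebra, as a commutative ring. -/
instance instCommRingAwayAlg : CommRing (awayAlg N) :=
  { (inferInstance : Ring (awayAlg N)) with
    mul_comm := fun a b => IsMulCommutative.is_comm.comm a b }

/-- Galois commutes with the full Hecke algebra. -/
theorem smulCommClass_heckeAlg :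
    letI := heckeModuleBar N
    SMulCommClass GalQ HeckeAlg (JZero N) := by
  let := heckeModuleBar N
  refine ⟨fun σ t x => ?_⟩
  have h := HeckeCommute.heckeOperatorsCommuteBar N
  induction t using MvPolynomial.induction_on generalizing x with
  | C a =>
    show σ • ((MvPolynomial.C a : HeckeAlg) • x) = (MvPolynomial.C a : HeckeAlg) • σ • x
    rw [heckeModuleBar_smul_def h, heckeModuleBar_smul_def h, heckeEvalBar_C]
    exact map_zsmul (DistribSMul.toAddMonoidHom (JZero N) σ) a x
  | add a b ha hb => rw [add_smul, add_smul, smul_add, ha, hb]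
  | mul_X a q ha =>
    rw [mul_smul, mul_smul, ha]
    congr 1
    show σ • (heckeGen q • x) = heckeGen q • σ • x
    rw [heckeModuleBar_heckeGen_smul h, heckeModuleBar_heckeGen_smul h]
    exact galois_smul_heckeOperatorBar N σ q x

end Fermat.Agent.EisensteinDescent
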