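import Fermat.Agent.MW.Modular.Main
import Fermat.Agent.MW.Weak.Divisible

/-!
# `J₀(N)(ℚ̄)` is divisible
-/

namespace Fermat.Agent.EisensteinDescent

/-- Multiplication by a positive integer is surjective on `J₀(N)(ℚ̄)`. -/
theorem exists_nsmul_eq_jZero (N : ℕ) [NeZero N] {m : ℕ} (hm : 0 < m)
    (x : ModularCurve.JZero N) : ∃ y : ModularCurve.JZero N, m • y = x := by
  obtain ⟨y, hy⟩ := ((MW.Modular.curveBasisQ N).baseChange _).exists_nsmul_eq hm
    (MW.Modular.jzeroEquiv N x)
  exact ⟨(MW.Modular.jzeroEquiv N).symm y, (MW.Modular.jzeroEquiv N).injective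
    (by rw [map_nsmul, AddEquiv.apply_symm_apply, hy])⟩

end Fermat.Agent.EisensteinDescent
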