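import Fermat.Agent.EisensteinDescent.Assembly
import Fermat.Agent.EisensteinDescent.EisensteinGen
import Fermat.Agent.EisensteinDescent.HeckeGalois
import Fermat.Agent.Specialization.Main
import Fermat.Agent.UnipotentInertia.DivisorMaps

/-!
# The inputs of Eisenstein descent hold for `J₀(N)`

Everything follows from good models at the primes `q ≠ N, p`, from unipotence of inertia at `N`
up to a bounded multiple, and from the divisibility of the `p`-power torsion.
-/


open scoped IsMulCommutative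
open Fermat.Agent.GaloisBasics ModularCurve Fermat.Agent.EisensteinTate

namespace Fermat.Agent.EisensteinDescent

/-- Bounded unipotence on divisible torsion is unipotence. -/
theorem smul_smul_sub_eq {J : Type*} [AddCommGroup J] [DistribMulAction GalQ J] {p D : ℕ}
    [Fact p.Prime] (h : HasTorsionRank J p D) (σ : GalQ) {C : ℕ} (hC : C ≠ 0)
    (hσ : ∀ (k : ℕ) (x : J), p ^ k • x = 0 → C • (σ • (σ • x - x) - (σ • x - x)) = 0)
    {r : ℕ} {x : J} (hx : p ^ r • x = 0) : σ • (σ • x - x) = σ • x - x := by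
  have hp : p.Prime := Fact.out
  obtain ⟨v, m, hm, rfl⟩ := Nat.exists_eq_pow_mul_and_not_dvd hC p hp.ne_one
  obtain ⟨y, hy, hy'⟩ : ∃ y : J, p ^ v • y = x ∧ p ^ (r + v) • y = 0 := by
    clear hσ hm hC
    induction v with
    | zero => exact ⟨x, by simp, by simpa using hx⟩
    | succ v ih =>
      obtain ⟨y, hy, hy'⟩ := ih
      obtain ⟨z, hz', hz⟩ := h.exists_smul_eq hy'
      exact ⟨z, by rw [pow_succ, mul_smul, hz, hy], by rw [← add_assoc, hz']⟩
  let f : J →+ J := DistribSMul.toAddMonoidHom J σ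
  let E : J →+ J := f.comp (f - AddMonoidHom.id J) - (f - AddMonoidHom.id J)
  have h1 : m • E x = 0 := by
    have := hσ (r + v) y hy'
    rw [← hy, map_nsmul, smul_smul, mul_comm]
    exact this
  have h2 : p ^ r • E x = 0 := by rw [← map_nsmul, hx, map_zero]
  have h3 : E x = 0 := by
    have hg := AddMonoid.addOrderOf_eq_one_iff.mp (Nat.eq_one_of_dvd_coprimes
      (Nat.Coprime.pow_left r ((hp.coprime_iff_not_dvd).mpr hm))
      (addOrderOf_dvd_of_nsmul_eq_zero h2) (addOrderOf_dvd_of_nsmul_eq_zero h1))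
    exact hg
  exact sub_eq_zero.mp h3

variable (N : ℕ) [NeZero N]

/-- **The descent inputs for `J₀(N)`.** -/
theorem descentInputs_jZero (hN : N.Prime) {p : ℕ} [Fact p.Prime] (hpN : p ≠ N) {D : ℕ}
    (hrank : HasTorsionRank (JZero N) p D)
    (hmodel : ∀ ℓ : ℕ, ℓ.Prime → ¬ ℓ ∣ N → ∀ A : ValuationSubring Qbar, A.LiesOverPrime ℓ →
      Specialization.HasGaussModel A (Specialization.auxLevel N ℓ))
    (hNu : UnipotentInertia.JacobianUnipotent N p N) :
    DescentInputs p N (JZero N) (eisensteinIdeal N p) (awayTq N) := by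
  have hcomm := HeckeCommute.heckeOperatorsCommuteBar N
  have hloc := fun (q : ℕ) (hq : q.Prime) (hqp : q ≠ p) (hqN : q ≠ N)
      (A : ValuationSubring Qbar) (hA : A.LiesOverPrime q) =>
    jZero_local hcomm smulCommClass_heckeAlg
      (Specialization.specializationExists_of_models N p hcomm hmodel smulCommClass_heckeAlg) hq
      (fun h => hqN ((Nat.prime_dvd_prime_iff_eq hq hN).mp h))
      (fun h => hqp ((Nat.prime_dvd_prime_iff_eq hq Fact.out).mp h)) hA
  refine ⟨hN, hpN, natCast_mem_eisensteinIdeal N p,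
    fun q hq _ hqN => sub_mem_eisensteinIdeal N p hq hqN, fun w => ?_, fun q hq hqp hqN A hA =>
    (hloc q hq hqp hqN A hA).1, fun q hq hqp hqN A hA φ hφ r x hx => ?_,
    fun A hA σ hσ r x hx => ?_⟩
  · obtain ⟨_, ⟨F, hF, rfl⟩, hfix⟩ := exists_level_jZero N w
    exact ⟨F, hF, fun σ hσ => hfix σ ((IntermediateField.mem_fixingSubgroup_iff F σ).mpr hσ)⟩
  · rw [awayTq_smul N hq hqN]
    exact (hloc q hq hqp hqN A hA).2.2 φ hφ x ⟨r, hx⟩
  · obtain ⟨C, hC, hu⟩ := hNu
    exact smul_smul_sub_eq hrank σ hC (fun k z hz => hu k A hA σ hσ z hz) hx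

end Fermat.Agent.EisensteinDescent
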