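import Fermat.Agent.EisensteinTate.Tate
import Fermat.Agent.CurveBaseChange.Reduction
import Fermat.Agent.CurveJacobian.Torsion
import Fermat.Agent.ModCurveGenus.Genus
import Fermat.Agent.UnipotentInertia.Assembly

/-!
# The rank of the Tate module of `J₀(N)` and unipotence at a prime level
-/


open AlgebraicCurve ModularCurve Fermat.Agent.GaloisBasics Fermat.Agent.EisensteinTate

namespace Fermat.Agent.EisensteinDescent

variable (N : ℕ) [NeZero N]

/-- `J₀(N)[p ^ k]` has `p ^ (2 g k)` elements. -/
theorem hasTorsionRank_jZero (p : ℕ) [Fact p.Prime] :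
    HasTorsionRank (JZero N) p (2 * genusFF Qbar (modularFunctionFieldBar N)) where
  card k := by
    have := ModCurveGenus.isFunctionField_FN N
    rw [mul_comm _ k, pow_mul, ← CurveBaseChange.natCard_torsion_eq (K := Qbar)
      (F := modularFunctionFieldBar N)
      (fun F _ _ _ _ m hm => CurveJacobian.natCard_torsion F m hm) (p ^ k)
      (pow_pos (Fact.out : p.Prime).pos k)]
    exact Nat.card_congr (Equiv.subtypeEquivRight fun x => by
      rw [mem_tors, Pic0.mem_torsion, natCast_zsmul])

/-- Unipotence at a prime level follows from unipotence at split levels. -/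
theorem jacobianUnipotent_prime (hcore : UnipotentInertia.UnipotentAtSplitLevels) (hN : N.Prime)
    {p : ℕ} (hp : p.Prime) (hpN : p ≠ N) : UnipotentInertia.JacobianUnipotent N p N :=
  UnipotentInertia.jacobianUnipotent_of_split hcore hp hN hpN dvd_rfl fun h => by
    have := Nat.le_of_dvd hN.pos h
    nlinarith [hN.two_le]

end Fermat.Agent.EisensteinDescent
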