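import Fermat.Agent.EisensteinDescent.GalSys
import Fermat.Agent.FunctionField.PrincipalDivisors
import Fermat.Agent.Hecke.Inputs
import Fermat.Prelude.Def_ModularCurve_ArithmeticGalois

/-!
# Every point of `J₀(N)(ℚ̄)` is defined over a number field

The stabilisers of functions, places, divisors and divisor classes contain the fixing subgroup of a
finite extension of `ℚ`.
-/


open scoped Pointwise
open Fermat.Agent.GaloisBasics AlgebraicCurve ModularCurve

namespace Fermat.Agent.EisensteinDescent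

/-- A finite family of levels has a common level. -/
theorem exists_common_level {ι : Type*} {s : Set ι} (hs : s.Finite) (P : ι → GalQ → Prop)
    (h : ∀ i ∈ s, ∃ H ∈ finLevels, ∀ σ ∈ H, P i σ) :
    ∃ H ∈ finLevels, ∀ σ ∈ H, ∀ i ∈ s, P i σ := by
  induction s, hs using Set.Finite.induction_on with
  | empty =>
    obtain ⟨H, hH⟩ := finLevels_nonempty
    exact ⟨H, hH, fun _ _ i hi ↦ absurd hi (Set.notMem_empty i)⟩
  | @insert a t _ _ ih =>
    obtain ⟨H₁, hH₁, h₁⟩ := h a (Set.mem_insert a t)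
    obtain ⟨H₂, hH₂, h₂⟩ := ih fun i hi ↦ h i (Set.mem_insert_of_mem a hi)
    obtain ⟨H, hH, le₁, le₂⟩ := finLevels_inter hH₁ hH₂
    refine ⟨H, hH, fun σ hσ i hi ↦ ?_⟩
    rcases hi with rfl | hi
    · exact h₁ σ (le₁ hσ)
    · exact h₂ σ (le₂ hσ) i hi

section Functions

variable (F₀ : IntermediateField ℚ (LaurentSeries ℚ))

/-- Each series in the base change is fixed at a finite level. -/
theorem exists_level_laurent {x : LaurentSeries Qbar} (hx : x ∈ laurentBaseChange Qbar F₀) :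
    ∃ H ∈ finLevels, ∀ σ ∈ H, coeffMap (σ : Qbar →+* Qbar) x = x := by
  rw [mem_laurentBaseChange_iff] at hx
  induction hx using Subfield.closure_induction with
  | mem y hy =>
    rcases hy with ⟨a, rfl⟩ | ⟨z, hz, rfl⟩
    · refine ⟨_, ⟨IntermediateField.adjoin ℚ {a},
        IntermediateField.adjoin.finiteDimensional (Algebra.IsIntegral.isIntegral a), rfl⟩,
        fun σ hσ ↦ ?_⟩
      rw [coeffMap_algebraMap]
      exact congrArg _ ((IntermediateField.mem_fixingSubgroup_iff _ σ).1 hσ a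
        (IntermediateField.mem_adjoin_simple_self ℚ a))
    · obtain ⟨H, hH⟩ := finLevels_nonempty
      exact ⟨H, hH, fun σ _ ↦ coeffMap_coeffEmb _ z⟩
  | one =>
    obtain ⟨H, hH⟩ := finLevels_nonempty
    exact ⟨H, hH, fun σ _ ↦ map_one _⟩
  | add x y _ _ hx hy =>
    obtain ⟨H₁, hH₁, h₁⟩ := hx
    obtain ⟨H₂, hH₂, h₂⟩ := hy
    obtain ⟨H, hH, le₁, le₂⟩ := finLevels_inter hH₁ hH₂
    exact ⟨H, hH, fun σ hσ ↦ by rw [map_add, h₁ σ (le₁ hσ), h₂ σ (le₂ hσ)]⟩
  | neg x _ hx =>
    obtain ⟨H, hH, h⟩ := hx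
    exact ⟨H, hH, fun σ hσ ↦ by rw [map_neg, h σ hσ]⟩
  | inv x _ hx =>
    obtain ⟨H, hH, h⟩ := hx
    exact ⟨H, hH, fun σ hσ ↦ by rw [map_inv₀, h σ hσ]⟩
  | mul x y _ _ hx hy =>
    obtain ⟨H₁, hH₁, h₁⟩ := hx
    obtain ⟨H₂, hH₂, h₂⟩ := hy
    obtain ⟨H, hH, le₁, le₂⟩ := finLevels_inter hH₁ hH₂
    exact ⟨H, hH, fun σ hσ ↦ by rw [map_mul, h₁ σ (le₁ hσ), h₂ σ (le₂ hσ)]⟩

/-- Each function is fixed at a finite level. -/
theorem exists_level_function (x : laurentBaseChange Qbar F₀) :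
    ∃ H ∈ finLevels, ∀ σ ∈ H, arithmeticGalois F₀ σ • x = x := by
  obtain ⟨H, hH, h⟩ := exists_level_laurent F₀ x.2
  exact ⟨H, hH, fun σ hσ ↦ Subtype.ext
    ((coe_arithmeticGalois_smul F₀ σ x).trans (h σ hσ))⟩

variable [FunctionField.IsFunctionField Qbar (laurentBaseChange Qbar F₀)]

/-- Each place is fixed at a finite level. -/
theorem exists_level_place (v : Place Qbar (laurentBaseChange Qbar F₀)) :
    ∃ H ∈ finLevels, ∀ σ ∈ H, arithmeticGalois F₀ σ • v = v := by
  classical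
  obtain ⟨t, ht0, ht⟩ := FunctionField.exists_ord_eq v 1
  set S : Set (Place Qbar (laurentBaseChange Qbar F₀)) := {w | 0 < w.ord t} with hS
  have hfin : S.Finite := FunctionField.finite_ord_pos t
  obtain ⟨H₁, hH₁, hfix⟩ := exists_level_function F₀ t
  obtain ⟨H₂, hH₂, hsep⟩ := exists_common_level hfin
    (fun w σ ↦ w ≠ v → arithmeticGalois F₀ σ • v ≠ w) fun w _ ↦ by
      by_cases hw : w = v
      · obtain ⟨H, hH⟩ := finLevels_nonempty
        exact ⟨H, hH, fun σ _ hne ↦ absurd hw hne⟩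
      obtain ⟨a, hav, haw⟩ := FunctionField.exists_mem_notMem (Ne.symm hw)
      obtain ⟨H, hH, ha⟩ := exists_level_function F₀ a
      refine ⟨H, hH, fun σ hσ _ heq ↦ not_le.2 haw ?_⟩
      rw [← FunctionField.mem_iff_adicValuation_le_one, ← heq,
        SemilinearAut.smul_toValuationSubring]
      have hmem : a ∈ v.toValuationSubring :=
        (FunctionField.mem_iff_adicValuation_le_one v).2 hav
      have := ValuationSubring.smul_mem_pointwise_smul (arithmeticGalois F₀ σ) a _ hmem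
      rwa [ha σ hσ] at this
  obtain ⟨H, hH, le₁, le₂⟩ := finLevels_inter hH₁ hH₂
  refine ⟨H, hH, fun σ hσ ↦ ?_⟩
  by_contra hne
  refine hsep σ (le₂ hσ) _ ?_ hne rfl
  show 0 < (arithmeticGalois F₀ σ • v).ord t
  have h1 := SemilinearAut.ord_smul (arithmeticGalois F₀ σ) v t
  rw [hfix σ (le₁ hσ), ht] at h1
  omega

/-- Each divisor class of degree zero is fixed at a finite level. -/
theorem exists_level_pic (x : Pic0 Qbar (laurentBaseChange Qbar F₀)) :
    ∃ H ∈ finLevels, ∀ σ ∈ H, σ • x = x := by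
  classical
  obtain ⟨D, rfl⟩ := Pic0.mk_surjective x
  obtain ⟨H, hH, h⟩ := exists_common_level
    (D : Divisor Qbar (laurentBaseChange Qbar F₀)).support.finite_toSet
    (fun v σ ↦ arithmeticGalois F₀ σ • v = v) fun v _ ↦ exists_level_place F₀ v
  refine ⟨H, hH, fun σ hσ ↦ ?_⟩
  rw [galois_smul_pic0_def, SemilinearAut.pic0_smul_mk]
  congr 1
  refine Subtype.ext ?_
  rw [SemilinearAut.coe_degZeroSMulHom, SemilinearAut.divisor_smul_def]
  conv_rhs => rw [← Finsupp.mapDomain_id (v := (D : Divisor Qbar (laurentBaseChange Qbar F₀)))]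
  exact Finsupp.mapDomain_congr fun v hv ↦ h σ hσ v hv

end Functions

variable (N : ℕ) [NeZero N]

/-- Every point of `J₀(N)` is fixed at a finite level. -/
theorem exists_level_jZero (x : JZero N) : ∃ H ∈ finLevels, ∀ σ ∈ H, σ • x = x :=
  exists_level_pic (modularFunctionFieldFull N) x

end Fermat.Agent.EisensteinDescent
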