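import Fermat.Agent.EisensteinDescent.Setup
import Fermat.Agent.EisensteinDescent.Rational
import Fermat.Agent.EisensteinDescent.Sys
import Mathlib.NumberTheory.Padics.RingHoms
import Mathlib.LinearAlgebra.FreeModule.PID
import Mathlib.LinearAlgebra.Dimension.RankNullity
import Mathlib.RingTheory.PrincipalIdealDomain
import Mathlib.RingTheory.Noetherian.Basic

/-!
# The lattice at the residue characteristic, and flatness

Inside the Hecke lattice `Λ`, the elements on which inertia at `p` acts through the cyclotomic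
character form a saturated lattice of half rank, stable under `T` and the decomposition element
`τ`. If the unit root `A` (with scalar `a i` in the component `i`) satisfies `a i ^ 2 ≠ 1`, every
extension class cut out by this lattice is the class of a unit; the only property of the units
used is that `τ • u - u` is a unit for every `u`.
-/

namespace Fermat.Agent.EisensteinDescent

open Module

variable {Γ : Type*} [Group Γ] {p : ℕ} [Fact p.Prime] {T : Type*} [CommRing T]
  {Λ : Type*} [AddCommGroup Λ] [Module ℤ_[p] Λ] [DistribMulAction Γ Λ]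
  {act : T →+* Module.End ℤ_[p] Λ} {E : Type*} [Field E] [Algebra ℤ_[p] E]

namespace EigenData

variable (D : EigenData Γ act E)

lemma ext_coord {x y : Λ} (h : ∀ i, D.coord x i = D.coord y i) : x = y :=
  D.coord_injective (funext h)

include D in
lemma smul_comm_scalar (g : Γ) (z : ℤ_[p]) (x : Λ) : g • z • x = z • g • x :=
  D.ext_coord fun i ↦ by
    simp only [D.coord_smul, map_smul, Pi.smul_apply]
    rw [← algebraMap_smul E z (D.coord x i), map_smul, algebraMap_smul]

end EigenData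

/-- The data at `p`: inertia `IP`, an element `τ` normalising it and the unit root `A`. -/
structure Ordinary (D : EigenData Γ act E) (χ : Γ →* ℤ_[p]) (IP : Subgroup Γ) (τ : Γ)
    (A : Module.End ℤ_[p] Λ) (a : D.ι → E) : Prop where
  det : ∀ i g, LinearMap.det (D.ρ i g) = algebraMap ℤ_[p] E (χ g)
  chi_ne : ∃ s ∈ IP, χ s ≠ 1
  coord_op : ∀ x i, D.coord (A x) i = a i • D.coord x i
  exists_line : ∀ i, ∃ x : Λ, (∀ s ∈ IP, s • x = χ s • x) ∧ A (τ • x) = χ τ • x ∧
    D.coord x i ≠ 0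
  normal : ∀ s ∈ IP, τ⁻¹ * s * τ ∈ IP
  sq_ne : ∀ i, a i ^ 2 ≠ 1

namespace Ordinary

variable {D : EigenData Γ act E} {χ : Γ →* ℤ_[p]} {IP : Subgroup Γ} {τ : Γ}
  {A : Module.End ℤ_[p] Λ} {a : D.ι → E}

/-- The elements on which `IP` acts through `χ`. -/
def lattice (D : EigenData Γ act E) (χ : Γ →* ℤ_[p]) (IP : Subgroup Γ) : Submodule ℤ_[p] Λ where
  carrier := {x | ∀ s ∈ IP, s • x = χ s • x}
  zero_mem' s _ := by rw [smul_zero, smul_zero]
  add_mem' {x y} hx hy s hs := by rw [smul_add, smul_add, hx s hs, hy s hs]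
  smul_mem' z x hx s hs := by rw [D.smul_comm_scalar, hx s hs, smul_comm]

/-- The line at the component `i`. -/
def lineAt (D : EigenData Γ act E) (χ : Γ →* ℤ_[p]) (IP : Subgroup Γ) (i : D.ι) :
    Submodule E (Fin 2 → E) :=
  Submodule.span E ((fun x ↦ D.coord x i) '' (lattice D χ IP : Set Λ))

lemma coord_mem_lineAt {x : Λ} (hx : x ∈ lattice D χ IP) (i : D.ι) :
    D.coord x i ∈ lineAt D χ IP i :=
  Submodule.subset_span ⟨x, hx, rfl⟩

lemma coord_scalar (z : ℤ_[p]) (x : Λ) (i : D.ι) :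
    D.coord (z • x) i = algebraMap ℤ_[p] E z • D.coord x i := by
  rw [map_smul, Pi.smul_apply, algebraMap_smul]

/-- The character with values in `E`. -/
noncomputable def chiE (E : Type*) [Field E] [Algebra ℤ_[p] E] (χ : Γ →* ℤ_[p]) : Γ →* E :=
  ((algebraMap ℤ_[p] E) : ℤ_[p] →* E).comp χ

lemma rho_lineAt {i : D.ι} {s : Γ} (hs : s ∈ IP) {v : Fin 2 → E} (hv : v ∈ lineAt D χ IP i) :
    D.ρ i s v = chiE E χ s • v := by
  induction hv using Submodule.span_induction with
  | mem v hv =>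
    obtain ⟨x, hx, rfl⟩ := hv
    show _ = algebraMap ℤ_[p] E (χ s) • _
    rw [← D.coord_smul, hx s hs, coord_scalar]
  | zero => rw [map_zero, smul_zero]
  | add v w _ _ hv hw => rw [map_add, hv, hw, smul_add]
  | smul c v _ hv => rw [map_smul, hv, smul_comm]

lemma finrank_fin_two : finrank E (Fin 2 → E) = 2 := Module.finrank_fin_fun E

variable [CharZero E] (h : Ordinary D χ IP τ A a)

include h

lemma chiE_ne : ∃ s ∈ IP, chiE E χ s ≠ 1 := by
  obtain ⟨s, hs, h1⟩ := h.chi_ne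
  exact ⟨s, hs, fun he ↦ h1 (algebraMap_padicInt_injective (he.trans (map_one _).symm))⟩

/-- On each component the lattice spans a line. -/
lemma finrank_lineAt (i : D.ι) : finrank E (lineAt D χ IP i) = 1 := by
  refine finrank_line_eq_one finrank_fin_two (χ := chiE E χ) (h.det i) ?_
    (fun s hs v hv ↦ rho_lineAt hs hv) h.chiE_ne
  obtain ⟨x, hx, -, hxi⟩ := h.exists_line i
  exact fun hbot ↦ hxi ((Submodule.mem_bot E).mp (hbot ▸ coord_mem_lineAt hx i))

lemma rho_sub_mem (i : D.ι) {s : Γ} (hs : s ∈ IP) (v : Fin 2 → E) :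
    D.ρ i s v - v ∈ lineAt D χ IP i :=
  sub_mem_line finrank_fin_two (χ := chiE E χ) (h.det i) (h.finrank_lineAt i)
    (fun _ hs _ hv ↦ rho_lineAt hs hv) hs v

omit h [CharZero E] in
/-- The lattice is cut out componentwise by the lines. -/
lemma mem_lattice_iff {x : Λ} :
    x ∈ lattice D χ IP ↔ ∀ i, D.coord x i ∈ lineAt D χ IP i := by
  refine ⟨fun hx i ↦ coord_mem_lineAt hx i, fun hx s hs ↦ D.ext_coord fun i ↦ ?_⟩
  rw [D.coord_smul, rho_lineAt hs (hx i), coord_scalar]
  rfl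

/-- Inertia at `p` acts trivially on the quotient by the lattice. -/
theorem smul_sub_mem {s : Γ} (hs : s ∈ IP) (x : Λ) : s • x - x ∈ lattice D χ IP := by
  refine mem_lattice_iff.mpr fun i ↦ ?_
  rw [map_sub, Pi.sub_apply, D.coord_smul]
  exact h.rho_sub_mem i hs _

omit h in
/-- The lattice is saturated. -/
theorem mem_of_smul_mem {z : ℤ_[p]} (hz : z ≠ 0) {x : Λ} (hx : z • x ∈ lattice D χ IP) :
    x ∈ lattice D χ IP := by
  refine mem_lattice_iff.mpr fun i ↦ ?_
  have := coord_mem_lineAt hx i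
  rw [coord_scalar] at this
  exact
    (Submodule.smul_mem_iff _ ((map_ne_zero_iff _ algebraMap_padicInt_injective).mpr hz)).mp this

omit h in
theorem mem_of_pow_nsmul_mem {k : ℕ} {x : Λ} (hx : p ^ k • x ∈ lattice D χ IP) :
    x ∈ lattice D χ IP :=
  mem_of_smul_mem (z := ((p ^ k : ℕ) : ℤ_[p]))
    (Nat.cast_ne_zero.mpr (pow_ne_zero _ (Fact.out : p.Prime).ne_zero))
    (by rwa [Nat.cast_smul_eq_nsmul])

omit [CharZero E] in
/-- `A` preserves the lattice. -/
theorem op_mem {x : Λ} (hx : x ∈ lattice D χ IP) : A x ∈ lattice D χ IP :=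
  mem_lattice_iff.mpr fun i ↦ by
    rw [h.coord_op]
    exact Submodule.smul_mem _ _ (coord_mem_lineAt hx i)

omit [CharZero E] in
lemma smul_comm_op (g : Γ) (x : Λ) : g • A x = A (g • x) :=
  D.ext_coord fun i ↦ by rw [D.coord_smul, h.coord_op, map_smul, h.coord_op, D.coord_smul]

/-- `τ` preserves the lattice. -/
theorem tau_mem {x : Λ} (hx : x ∈ lattice D χ IP) : τ • x ∈ lattice D χ IP := by
  refine mem_lattice_iff.mpr fun i ↦ ?_
  rw [D.coord_smul]
  exact stable_line_of_normalizes finrank_fin_two (χ := chiE E χ) (h.det i) (h.finrank_lineAt i)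
    (fun _ hs _ hv ↦ rho_lineAt hs hv) h.chiE_ne h.normal (coord_mem_lineAt hx i)

lemma op_smul_rho_tau (i : D.ι) {v : Fin 2 → E} (hv : v ∈ lineAt D χ IP i) :
    a i • D.ρ i τ v = chiE E χ τ • v := by
  obtain ⟨x, hx, hxτ, hxi⟩ := h.exists_line i
  obtain ⟨c, hc⟩ := (finrank_eq_one_iff_of_nonzero' (⟨_, coord_mem_lineAt hx i⟩ :
    lineAt D χ IP i) (fun h0 ↦ hxi (congrArg Subtype.val h0))).mp (h.finrank_lineAt i) ⟨v, hv⟩
  have hv' : c • D.coord x i = v := congrArg Subtype.val hc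
  have h0 := congrArg (fun y ↦ D.coord y i) hxτ
  simp only [h.coord_op, D.coord_smul, coord_scalar] at h0
  rw [← hv', map_smul, smul_comm, h0, smul_comm]
  rfl

lemma scalar_ne_zero (i : D.ι) : a i ≠ 0 := by
  intro h0
  obtain ⟨x, hx, -, hxi⟩ := h.exists_line i
  have := h.op_smul_rho_tau i (coord_mem_lineAt hx i)
  rw [h0, zero_smul, eq_comm, smul_eq_zero] at this
  exact this.elim (hom_ne_zero (chiE E χ) τ) hxi

/-- On the lattice, `A τ` is the character. -/
theorem op_tau {x : Λ} (hx : x ∈ lattice D χ IP) : A (τ • x) = χ τ • x :=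
  D.ext_coord fun i ↦ by
    rw [h.coord_op, D.coord_smul, coord_scalar, h.op_smul_rho_tau i (coord_mem_lineAt hx i)]
    rfl

/-- Modulo the lattice, `τ` is `A`. -/
theorem tau_sub_op_mem (x : Λ) : τ • x - A x ∈ lattice D χ IP := by
  refine mem_lattice_iff.mpr fun i ↦ ?_
  rw [map_sub, Pi.sub_apply, D.coord_smul, h.coord_op]
  have hne := h.scalar_ne_zero i
  obtain ⟨c, hc, hdet⟩ := exists_quotScalar finrank_fin_two (D.ρ i τ) (h.finrank_lineAt i)
    (b := (a i)⁻¹ * chiE E χ τ) fun v hv ↦ by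
      rw [mul_smul, ← h.op_smul_rho_tau i hv, smul_smul, inv_mul_cancel₀ hne, one_smul]
  have hc' : c = a i := by
    rw [h.det i τ] at hdet
    change chiE E χ τ = _ at hdet
    refine mul_left_cancel₀ (mul_ne_zero (inv_ne_zero hne) (hom_ne_zero (chiE E χ) τ)) ?_
    rw [← hdet]
    field_simp
  exact hc' ▸ hc _

omit h in
/-- A submodule whose coordinates span a space has at least that rank. -/
lemma finrank_span_coord_le [Module.Finite ℤ_[p] Λ] (S : Submodule ℤ_[p] Λ) :
    finrank E (Submodule.span E (D.coord '' (S : Set Λ))) ≤ finrank ℤ_[p] S := by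
  classical
  have : Module.IsTorsionFree ℤ_[p] Λ := by
    refine Module.IsTorsionFree.of_smul_eq_zero fun z x hzx ↦ or_iff_not_imp_left.mpr fun hz ↦ ?_
    refine D.ext_coord fun i ↦ ?_
    have := congrArg (fun y ↦ D.coord y i) hzx
    simp only [coord_scalar, map_zero, Pi.zero_apply, smul_eq_zero] at this
    rw [map_zero, Pi.zero_apply]
    exact this.resolve_left ((map_ne_zero_iff _ algebraMap_padicInt_injective).mpr hz)
  let b := Module.Free.chooseBasis ℤ_[p] S
  have : Submodule.span E (D.coord '' (S : Set Λ)) ≤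
      Submodule.span E (Set.range fun j ↦ D.coord (b j : Λ)) := by
    rw [Submodule.span_le]
    rintro _ ⟨x, hx, rfl⟩
    have hsum := congrArg (fun y : S ↦ D.coord (y : Λ)) (b.sum_repr ⟨x, hx⟩)
    simp only [Submodule.coe_sum, Submodule.coe_smul, map_sum, map_smul] at hsum
    rw [SetLike.mem_coe, ← hsum]
    refine Submodule.sum_mem _ fun j _ ↦ ?_
    rw [← algebraMap_smul E (b.repr ⟨x, hx⟩ j)]
    exact Submodule.smul_mem _ _ (Submodule.subset_span (Set.mem_range_self j))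
  refine (Submodule.finrank_mono this).trans ((finrank_range_le_card _).trans ?_)
  rw [Module.finrank_eq_card_chooseBasisIndex]

omit h in
/-- The coordinates of the image of an operator. -/
lemma card_le_finrank_range [Module.Finite ℤ_[p] Λ] (B : Module.End ℤ_[p] Λ)
    (Ai : D.ι → Module.End E (Fin 2 → E))
    (hA : ∀ x i, D.coord (B x) i = Ai i (D.coord x i)) (hne : ∀ i, Ai i ≠ 0) :
    Fintype.card D.ι ≤ finrank ℤ_[p] (LinearMap.range B) := by
  classical
  refine le_trans ?_ (finrank_span_coord_le (D := D) (LinearMap.range B))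
  choose v hv using fun i ↦ show ∃ v, Ai i v ≠ 0 by
    by_contra hc
    push Not at hc
    exact hne i (LinearMap.ext hc)
  let w : D.ι → D.ι → Fin 2 → E := fun i ↦ Pi.single i (Ai i (v i))
  have hw : ∀ i, w i ∈ Submodule.span E (D.coord '' (LinearMap.range B : Set Λ)) := by
    intro i
    let AE : (D.ι → Fin 2 → E) →ₗ[E] (D.ι → Fin 2 → E) :=
      LinearMap.pi fun j ↦ (Ai j).comp (LinearMap.proj j)
    have hmap : Submodule.map AE (Submodule.span E (Set.range D.coord)) ≤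
        Submodule.span E (D.coord '' (LinearMap.range B : Set Λ)) := by
      rw [Submodule.map_span]
      refine Submodule.span_mono ?_
      rintro _ ⟨_, ⟨x, rfl⟩, rfl⟩
      exact ⟨B x, LinearMap.mem_range_self B x, funext fun j ↦ hA x j⟩
    refine hmap ⟨Pi.single i (v i), by rw [D.span_coord]; trivial, funext fun j ↦ ?_⟩
    rcases eq_or_ne j i with rfl | hji
    · simp [w, AE]
    · simp [w, AE, Pi.single_eq_of_ne hji]
  have hli : LinearIndependent E w := by
    rw [Fintype.linearIndependent_iff]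
    intro c hc i
    have := congrFun hc i
    simp only [Finset.sum_apply, Pi.smul_apply, Pi.zero_apply, w] at this
    rw [Finset.sum_eq_single i (fun j _ hj ↦ by rw [Pi.single_eq_of_ne hj.symm, smul_zero])
      (fun hi ↦ absurd (Finset.mem_univ i) hi), Pi.single_eq_same, smul_eq_zero] at this
    exact this.resolve_right (hv i)
  have hli' : LinearIndependent E
      fun i ↦ (⟨w i, hw i⟩ : Submodule.span E (D.coord '' (LinearMap.range B : Set Λ))) :=
    LinearIndependent.of_comp (Submodule.subtype _) hli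
  exact hli'.fintype_card_le_finrank

omit [CharZero E] h in
/-- The action of a group element, `ℤ_p`-linearly. -/
def toEnd (D : EigenData Γ act E) (g : Γ) : Module.End ℤ_[p] Λ where
  toFun x := g • x
  map_add' := smul_add g
  map_smul' z x := D.smul_comm_scalar g z x

/-- The lattice has half rank. -/
theorem finrank_lattice [Module.Finite ℤ_[p] Λ] :
    finrank ℤ_[p] (lattice D χ IP) = Fintype.card D.ι := by
  obtain ⟨s, hs, hs1⟩ := h.chi_ne
  let A : Module.End ℤ_[p] Λ := toEnd D s - χ s • (1 : Module.End ℤ_[p] Λ)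
  let B : Module.End ℤ_[p] Λ := toEnd D s - 1
  have hcE : chiE E χ s ≠ 1 := fun he ↦
    hs1 (algebraMap_padicInt_injective (he.trans (map_one _).symm))
  have hkey : ∀ (i : D.ι) (v : Fin 2 → E), D.ρ i s v = chiE E χ s • v → v ∈ lineAt D χ IP i := by
    intro i v hv
    have := h.rho_sub_mem i hs v
    rw [hv] at this
    nth_rewrite 2 [← one_smul E v] at this
    rw [← sub_smul] at this
    exact (Submodule.smul_mem_iff _ (sub_ne_zero.mpr hcE)).mp this
  have hA : ∀ x i, D.coord (A x) i =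
      (D.ρ i s - chiE E χ s • (1 : Module.End E (Fin 2 → E))) (D.coord x i) := fun x i ↦ by
    show D.coord (s • x - χ s • x) i = _
    rw [map_sub, Pi.sub_apply, D.coord_smul, coord_scalar]
    rfl
  have hB : ∀ x i, D.coord (B x) i = (D.ρ i s - 1) (D.coord x i) := fun x i ↦ by
    show D.coord (s • x - x) i = _
    rw [map_sub, Pi.sub_apply, D.coord_smul]
    rfl
  have hker : LinearMap.ker A = lattice D χ IP := by
    ext x
    refine ⟨fun hx ↦ mem_lattice_iff.mpr fun i ↦ hkey i _ ?_, fun hx ↦ ?_⟩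
    · have := hA x i
      rw [LinearMap.mem_ker.mp hx, map_zero, Pi.zero_apply, eq_comm] at this
      exact sub_eq_zero.mp this
    · exact sub_eq_zero.mpr (hx s hs)
  have hBle : LinearMap.range B ≤ lattice D χ IP := by
    rintro _ ⟨x, rfl⟩
    exact h.smul_sub_mem hs x
  have hneA : ∀ i, D.ρ i s - chiE E χ s • (1 : Module.End E (Fin 2 → E)) ≠ 0 := by
    intro i h0
    have h1 := h.finrank_lineAt i
    rw [show lineAt D χ IP i = ⊤ from eq_top_iff.mpr fun v _ ↦ hkey i v
      (sub_eq_zero.mp (LinearMap.congr_fun h0 v)), finrank_top, finrank_fin_two] at h1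
    omega
  have hneB : ∀ i, D.ρ i s - 1 ≠ 0 := by
    intro i h0
    obtain ⟨x, hx, -, hxi⟩ := h.exists_line i
    have h1 := rho_lineAt hs (coord_mem_lineAt hx i)
    rw [sub_eq_zero.mp h0, Module.End.one_apply, eq_comm] at h1
    refine hxi ((smul_eq_zero.mp ?_).resolve_left (sub_ne_zero.mpr hcE))
    rw [sub_smul, one_smul, h1, sub_self]
  have hrkA := card_le_finrank_range A _ hA hneA
  have hrkB := (card_le_finrank_range B _ hB hneB).trans (Submodule.finrank_mono hBle)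
  have hsum := Submodule.finrank_quotient_add_finrank (LinearMap.ker A)
  rw [LinearEquiv.finrank_eq (LinearMap.quotKerEquivRange A), D.finrank_eq, hker] at hsum
  omega

section Flat

variable {G : Type*} [AddCommGroup G] [DistribMulAction Γ G]

omit [DistribMulAction Γ Λ] [DistribMulAction Γ G] [CharZero E] h in
/-- An additive map to `p ^ n`-torsion is linear for scalars modulo `p ^ n`. -/
lemma map_scalar {L : Submodule ℤ_[p] Λ} (φ : L →+ G) {n : ℕ} (hφ : ∀ l, p ^ n • φ l = 0)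
    (z : ℤ_[p]) (l : L) : φ (z • l) = z.appr n • φ l := by
  obtain ⟨w, hw⟩ := Ideal.mem_span_singleton.mp (PadicInt.appr_spec n z)
  have hz : z = (z.appr n : ℤ_[p]) + ((p ^ n : ℕ) : ℤ_[p]) * w := by
    rw [Nat.cast_pow, ← hw]; ring
  conv_lhs => rw [hz]
  rw [add_smul, Nat.cast_smul_eq_nsmul, mul_smul, Nat.cast_smul_eq_nsmul, map_add, map_nsmul,
    map_nsmul, hφ, add_zero]

omit [CharZero E] h in
/-- A torsion valued additive map is equivariant on the lattice. -/
lemma map_smul_of_cyc (hcyc : ∀ (g : Γ) (n : ℕ) (d : G), p ^ n • d = 0 → g • d = (χ g).appr n • d)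
    (φ : lattice D χ IP →+ G) {n : ℕ} (hφ : ∀ l, p ^ n • φ l = 0) {s : Γ} (hs : s ∈ IP)
    (l : lattice D χ IP) (l' : lattice D χ IP) (hl : (l' : Λ) = s • (l : Λ)) :
    φ l' = s • φ l := by
  rw [hcyc s n _ (hφ l), ← map_scalar φ hφ]
  congr 1
  exact Subtype.ext (hl.trans (l.2 s hs))

/-- The endomorphism `A ^ 2 - 1` of the lattice. -/
noncomputable def eps : Module.End ℤ_[p] (lattice D χ IP) :=
  ((A * A).restrict fun _ hx ↦ h.op_mem (h.op_mem hx)) - 1

omit [DistribMulAction Γ G] [CharZero E] in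
/-- `A ^ 2 - 1` is injective on the lattice. -/
lemma eps_injective : Function.Injective h.eps := by
  rw [injective_iff_map_eq_zero]
  intro l hl
  have h0 : A (A (l : Λ)) = (l : Λ) := sub_eq_zero.mp (congrArg Subtype.val hl)
  refine Subtype.ext (D.ext_coord fun i ↦ ?_)
  have := congrArg (fun y ↦ D.coord y i) h0
  rw [h.coord_op, h.coord_op, smul_smul] at this
  have h1 : (a i * a i - 1) • D.coord (l : Λ) i = 0 := by
    rw [sub_smul, this, one_smul, sub_self]
  rw [ZeroMemClass.coe_zero, map_zero, Pi.zero_apply]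
  exact (smul_eq_zero.mp h1).resolve_left (sub_ne_zero.mpr (by rw [← pow_two]; exact h.sq_ne i))

omit [DistribMulAction Γ G] [CharZero E] in
/-- The image of `A ^ 2 - 1` contains a power of `p`. -/
lemma exists_pow_mem_range [Module.Finite ℤ_[p] Λ] :
    ∃ m : ℕ, ∀ l : lattice D χ IP, p ^ m • l ∈ LinearMap.range h.eps := by
  classical
  set R := LinearMap.range h.eps
  have hq : Module.finrank ℤ_[p] (lattice D χ IP ⧸ R) = 0 := by
    have := Submodule.finrank_quotient_add_finrank R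
    rw [LinearMap.finrank_range_of_inj h.eps_injective] at this
    omega
  have hone : ∀ l : lattice D χ IP, ∃ k : ℕ, p ^ k • l ∈ R := by
    intro l
    obtain ⟨z, hz, hzl⟩ := Module.finrank_eq_zero_iff.mp hq (Submodule.Quotient.mk l)
    rw [← Submodule.Quotient.mk_smul, Submodule.Quotient.mk_eq_zero,
      PadicInt.unitCoeff_spec hz, mul_smul] at hzl
    refine ⟨z.valuation, ?_⟩
    have h2 := R.smul_mem (↑(PadicInt.unitCoeff hz)⁻¹ : ℤ_[p]) hzl
    rwa [smul_smul, Units.inv_mul, one_smul, ← Nat.cast_pow, Nat.cast_smul_eq_nsmul] at h2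
  obtain ⟨S, hS⟩ := (IsNoetherian.noetherian (⊤ : Submodule ℤ_[p] (lattice D χ IP)))
  choose k hk using hone
  refine ⟨S.sup k, fun l ↦ ?_⟩
  have hl : l ∈ Submodule.span ℤ_[p] (S : Set (lattice D χ IP)) := hS ▸ Submodule.mem_top
  induction hl using Submodule.span_induction with
  | mem x hx =>
    rw [← Nat.sub_add_cancel (Finset.le_sup (f := k) hx), pow_add, mul_smul]
    exact nsmul_mem (hk x) _
  | zero => rw [nsmul_zero]; exact zero_mem _
  | add a b _ _ ha hb => rw [nsmul_add]; exact add_mem ha hb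
  | smul c a _ ha => rw [smul_comm]; exact R.smul_mem c ha

variable [DivisibleBy G ℤ] {units : AddSubgroup G}

/-- **Flatness**: every extension class cut out by the lattice is the class of a unit. -/
theorem exists_unit [Module.Finite ℤ_[p] Λ] {fin : Set (Subgroup Γ)}
    (hsmooth : ∀ (n : ℕ) (x : Λ), ∃ H ∈ fin, ∀ g ∈ H, ∃ y : Λ, g • x - x = p ^ n • y)
    (hH90 : ∀ (n : ℕ) (c : Γ → G), (∀ s ∈ IP, ∀ t ∈ IP, c (s * t) = c s + s • c t) →
      (∀ s ∈ IP, p ^ n • c s = 0) → (∃ H ∈ fin, ∀ s ∈ H, s ∈ IP → c s = 0) →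
      ∃ u : G, ∀ s ∈ IP, c s = s • u - u)
    (hτ : ∀ u : G, τ • u - u ∈ units)
    (htors : ∀ (n : ℕ) (d : G), p ^ n • d = 0 → d ∈ units)
    (hcyc : ∀ (g : Γ) (n : ℕ) (d : G), p ^ n • d = 0 → g • d = (χ g).appr n • d)
    (x : Λ) (φ : lattice D χ IP →+ G) {n : ℕ} (hφ : ∀ l, p ^ n • φ l = 0) :
    ∃ u ∈ units, ∀ s, ∀ hs : s ∈ IP, φ ⟨s • x - x, h.smul_sub_mem hs x⟩ = s • u - u := by
  classical
  obtain ⟨m, hm⟩ := h.exists_pow_mem_range
  obtain ⟨ψ, hψ⟩ := Sys.exists_extend h.eps.toAddMonoidHom h.eps_injective φ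
  have hψn : ∀ l, p ^ (m + n) • ψ l = 0 := fun l ↦ by
    obtain ⟨l', hl'⟩ := hm l
    rw [pow_add, mul_comm, mul_smul, ← map_nsmul, ← hl']
    exact (congrArg _ (hψ l')).trans (hφ l')
  let c : Γ → G := fun s ↦ if hs : s ∈ IP then ψ ⟨s • x - x, h.smul_sub_mem hs x⟩ else 0
  have hc : ∀ s (hs : s ∈ IP), c s = ψ ⟨s • x - x, h.smul_sub_mem hs x⟩ := fun s hs ↦ dif_pos hs
  obtain ⟨u, hu⟩ : ∃ u : G, ∀ s ∈ IP, c s = s • u - u := by
    refine hH90 (m + n) c (fun s hs t ht ↦ ?_) (fun s hs ↦ by rw [hc s hs]; exact hψn _) ?_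
    · have hmem : s • (t • x - x) ∈ lattice D χ IP := by
        rw [h.smul_sub_mem ht x s hs]; exact Submodule.smul_mem _ _ (h.smul_sub_mem ht x)
      rw [hc _ (IP.mul_mem hs ht), hc s hs, hc t ht,
        ← map_smul_of_cyc hcyc ψ hψn hs ⟨_, h.smul_sub_mem ht x⟩ ⟨_, hmem⟩ rfl, ← map_add]
      congr 1
      refine Subtype.ext ?_
      simp only [Submodule.coe_add, mul_smul, smul_sub]
      abel
    · obtain ⟨H, hH, hHx⟩ := hsmooth (m + n) x
      refine ⟨H, hH, fun s hsH hs ↦ ?_⟩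
      obtain ⟨y, hy⟩ := hHx s hsH
      have hyL : y ∈ lattice D χ IP := mem_of_pow_nsmul_mem (hy ▸ h.smul_sub_mem hs x)
      rw [hc s hs, show (⟨s • x - x, h.smul_sub_mem hs x⟩ : lattice D χ IP) =
        p ^ (m + n) • ⟨y, hyL⟩ from Subtype.ext hy, map_nsmul]
      exact hψn _
  set l₀ : lattice D χ IP := ⟨τ • x - A x, h.tau_sub_op_mem x⟩
  set w := ψ ⟨A (l₀ : Λ), h.op_mem l₀.2⟩
  refine ⟨τ • u - u - w, sub_mem (hτ u) (htors _ _ (hψn _)), fun s hs ↦ ?_⟩
  have hs' := h.normal s hs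
  set e : lattice D χ IP := ⟨(τ⁻¹ * s * τ) • x - x, h.smul_sub_mem hs' x⟩ with ha
  set b : lattice D χ IP := ⟨s • x - x, h.smul_sub_mem hs x⟩ with hb
  have hsL : ∀ l : lattice D χ IP, s • (l : Λ) ∈ lattice D χ IP := fun l ↦ by
    rw [l.2 s hs]; exact Submodule.smul_mem _ _ l.2
  -- `τ` moves the class of `x` to the class of `A x`
  have e1 : s • τ • u - τ • u =
      ψ ⟨A (A (b : Λ)), h.op_mem (h.op_mem b.2)⟩ + (s • w - w) := by
    have hτa : s • τ • u - τ • u = τ • ψ e := by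
      rw [ha, ← hc _ hs', hu _ hs', smul_sub, ← mul_smul, ← mul_smul,
        show τ * (τ⁻¹ * s * τ) = s * τ by group]
    rw [hτa, hcyc τ (m + n) _ (hψn _), ← map_scalar ψ hψn,
      show χ τ • e = ⟨A (τ • (e : Λ)), h.op_mem (h.tau_mem e.2)⟩ from
        Subtype.ext (h.op_tau e.2).symm,
      ← map_smul_of_cyc hcyc ψ hψn hs ⟨A (l₀ : Λ), h.op_mem l₀.2⟩ ⟨_, hsL _⟩ rfl,
      ← map_sub, ← map_add]
    congr 1
    refine Subtype.ext ?_
    simp only [Submodule.coe_add, Submodule.coe_sub, ha, hb, l₀]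
    rw [smul_sub τ, ← mul_smul, show τ * (τ⁻¹ * s * τ) = s * τ by group, mul_smul]
    simp only [map_sub, smul_sub, h.smul_comm_op]
    abel
  have e2 : φ b = ψ ⟨A (A (b : Λ)), h.op_mem (h.op_mem b.2)⟩ - ψ b := by
    rw [← hψ b, ← map_sub]
    rfl
  show φ b = _
  rw [e2, hb, ← hc s hs, hu s hs]
  simp only [smul_sub]
  rw [sub_sub_sub_comm, ← sub_eq_iff_eq_add.mpr e1]
  abel

variable {M : Type*} [AddCommGroup M] [DistribMulAction Γ M] [Module T M]

/-- **The module at level `r` is good**, with the image of the lattice as multiplicative part. -/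
theorem isGood [Module.Finite ℤ_[p] Λ] (S : Sys Γ G) (hIP : S.atP = IP) {r : ℕ} {π : Λ →+ M}
    (hπ : IsLevel Γ act r π)
    (hsmooth : ∀ (n : ℕ) (x : Λ), ∃ H ∈ S.fin, ∀ g ∈ H, ∃ y : Λ, g • x - x = p ^ n • y)
    (hunram : ∀ I ∈ S.unram, ∀ g ∈ I, ∀ v : M, g • v = v)
    (hH90 : ∀ (n : ℕ) (c : Γ → G), (∀ s ∈ IP, ∀ t ∈ IP, c (s * t) = c s + s • c t) →
      (∀ s ∈ IP, p ^ n • c s = 0) → (∃ H ∈ S.fin, ∀ s ∈ H, s ∈ IP → c s = 0) →
      ∃ u : G, ∀ s ∈ IP, c s = s • u - u)
    (hτ : ∀ u : G, τ • u - u ∈ S.units)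
    (htors : ∀ (n : ℕ) (d : G), p ^ n • d = 0 → d ∈ S.units)
    (hcyc : ∀ (g : Γ) (n : ℕ) (d : G), p ^ n • d = 0 → g • d = (χ g).appr n • d) :
    S.IsGood ((lattice D χ IP).toAddSubgroup.map π) := by
  subst hIP
  set Mm := (lattice D χ S.atP).toAddSubgroup.map π
  have hpull : ∀ φ : Mm →+ G, ∃ φL : lattice D χ S.atP →+ G, (∀ l, p ^ r • φL l = 0) ∧
      ∀ (l : lattice D χ S.atP) (hl : π (l : Λ) ∈ Mm), φL l = φ ⟨π (l : Λ), hl⟩ := by
    intro φ
    let j : lattice D χ S.atP →+ Mm :=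
      (π.comp (lattice D χ S.atP).subtype.toAddMonoidHom).codRestrict _
        fun l ↦ ⟨l, l.2, rfl⟩
    refine ⟨φ.comp j, fun l ↦ ?_, fun l hl ↦ rfl⟩
    rw [← map_nsmul, AddMonoidHom.comp_apply]
    refine (congrArg φ (Subtype.ext ?_)).trans (map_zero φ)
    exact (hπ.map_eq_zero _).mpr ⟨l, rfl⟩
  have hmem : ∀ s ∈ S.atP, ∀ x : Λ, π (s • x) - π x ∈ Mm := fun s hs x ↦ by
    rw [← map_sub]; exact ⟨_, h.smul_sub_mem hs x, rfl⟩
  refine ⟨hunram, fun v ↦ ?_, fun s hs v ↦ ?_, fun s hs φ v hv hv' ↦ ?_, fun v ↦ ?_⟩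
  · obtain ⟨x, rfl⟩ := hπ.surjective v
    obtain ⟨H, hH, hHx⟩ := hsmooth r x
    refine ⟨H, hH, fun g hg ↦ ?_⟩
    obtain ⟨y, hy⟩ := hHx g hg
    rw [← hπ.map_smul, ← sub_eq_zero, ← map_sub]
    exact (hπ.map_eq_zero _).mpr ⟨y, hy⟩
  · obtain ⟨x, rfl⟩ := hπ.surjective v
    rw [← hπ.map_smul]
    exact hmem s hs x
  · obtain ⟨l, hl, rfl⟩ := hv
    obtain ⟨φL, hφr, hφL⟩ := hpull φ
    have hsl : s • l ∈ lattice D χ S.atP := by
      rw [hl s hs]; exact Submodule.smul_mem _ _ hl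
    have := map_smul_of_cyc hcyc φL hφr hs ⟨l, hl⟩ ⟨_, hsl⟩ rfl
    rw [hφL ⟨l, hl⟩ ⟨l, hl, rfl⟩, hφL ⟨s • l, hsl⟩ ⟨s • l, hsl, rfl⟩] at this
    refine Eq.trans ?_ this
    congr 1
    exact Subtype.ext (hπ.map_smul s l).symm
  · obtain ⟨x, rfl⟩ := hπ.surjective v
    refine ⟨fun s hs ↦ by show s • π x - π x ∈ Mm; rw [← hπ.map_smul]; exact hmem s hs x,
      fun φ ↦ ?_⟩
    obtain ⟨φL, hφr, hφL⟩ := hpull φ
    obtain ⟨u, hu, huc⟩ := h.exists_unit hsmooth hH90 hτ htors hcyc x φL hφr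
    refine ⟨u, hu, fun s hs ↦ ?_⟩
    rw [← huc s hs, hφL _ ⟨_, h.smul_sub_mem hs x, rfl⟩]
    congr 1
    exact Subtype.ext (((map_sub π (s • x) x).trans
      (congrArg (· - π x) (hπ.map_smul s x))).symm)

end Flat

end Ordinary

end Fermat.Agent.EisensteinDescent
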