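import Mathlib.NumberTheory.Padics.PadicIntegers
import Mathlib.LinearAlgebra.Dimension.Finite
import Mathlib.LinearAlgebra.FreeModule.Finite.Basic
import Mathlib.Algebra.Module.LinearMap.End
import Mathlib.Algebra.Algebra.Defs

/-!
# Common vocabulary for the lattice part of Eisenstein descent

`EigenData` splits a Hecke-Galois lattice `Λ` over an extension `E` into two-dimensional pieces.
`IsLevel` says that a finite module `M` is `Λ / p ^ r Λ`, compatibly with both actions.
-/

namespace Fermat.Agent.EisensteinDescent

variable (Γ : Type*) [Group Γ] {p : ℕ} [Fact p.Prime] {T : Type*} [CommRing T]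
  {Λ : Type*} [AddCommGroup Λ] [Module ℤ_[p] Λ] [DistribMulAction Γ Λ]

/-- Eigen-coordinates of a lattice. -/
structure EigenData (act : T →+* Module.End ℤ_[p] Λ) (E : Type*) [Field E] [Algebra ℤ_[p] E] where
  /-- index of the eigencharacters -/
  ι : Type
  [fintype : Fintype ι]
  /-- the eigencharacters -/
  θ : ι → T →+* E
  /-- coordinates in the eigenspaces -/
  coord : Λ →ₗ[ℤ_[p]] ι → Fin 2 → E
  coord_injective : Function.Injective coord
  span_coord : Submodule.span E (Set.range coord) = ⊤
  finrank_eq : Module.finrank ℤ_[p] Λ = 2 * Fintype.card ι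
  /-- the representations on the eigenspaces -/
  ρ : ι → Γ →* Module.End E (Fin 2 → E)
  coord_smul : ∀ (g : Γ) (x : Λ) (i : ι), coord (g • x) i = ρ i g (coord x i)
  coord_act : ∀ (t : T) (x : Λ) (i : ι), coord (act t x) i = θ i t • coord x i

attribute [instance] EigenData.fintype

/-- The structure map from `ℤ_p` to a field of characteristic zero is injective. -/
theorem algebraMap_padicInt_injective {E : Type*} [Field E] [Algebra ℤ_[p] E] [CharZero E] :
    Function.Injective (algebraMap ℤ_[p] E) := by
  rw [injective_iff_map_eq_zero]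
  intro x hx
  by_contra h
  rw [PadicInt.unitCoeff_spec h, map_mul, map_pow, map_natCast, mul_eq_zero] at hx
  rcases hx with hx | hx
  · exact ((PadicInt.unitCoeff h).isUnit.map (algebraMap ℤ_[p] E)).ne_zero hx
  · exact pow_ne_zero _ (Nat.cast_ne_zero.mpr (Fact.out : p.Prime).ne_zero) hx

variable {Γ} {act : T →+* Module.End ℤ_[p] Λ} {E : Type*} [Field E] [Algebra ℤ_[p] E]

/-- The coordinates of the lattice span every component. -/
theorem EigenData.span_coord_apply (D : EigenData Γ act E) (i : D.ι) :
    Submodule.span E (Set.range fun x => D.coord x i) = ⊤ := by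
  have h := congrArg (Submodule.map (LinearMap.proj i : (D.ι → Fin 2 → E) →ₗ[E] Fin 2 → E))
    D.span_coord
  rw [Submodule.map_span, Submodule.map_top, ← Set.range_comp,
    LinearMap.range_eq_top.mpr (LinearMap.proj_surjective i)] at h
  exact h

/-- Endomorphisms of a component are determined on the coordinates of the lattice. -/
theorem EigenData.end_ext (D : EigenData Γ act E) (i : D.ι) {f g : Module.End E (Fin 2 → E)}
    (h : ∀ x, f (D.coord x i) = g (D.coord x i)) : f = g :=
  LinearMap.ext_on_range (D.span_coord_apply i) h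

variable (Γ)

/-- `M` is the reduction of `Λ` modulo `p ^ r`. -/
structure IsLevel (act : T →+* Module.End ℤ_[p] Λ) {M : Type*} [AddCommGroup M]
    [DistribMulAction Γ M] [Module T M] (r : ℕ) (π : Λ →+ M) : Prop where
  surjective : Function.Surjective π
  map_eq_zero : ∀ x, π x = 0 ↔ ∃ y, x = p ^ r • y
  map_smul : ∀ (g : Γ) x, π (g • x) = g • π x
  map_act : ∀ (t : T) x, π (act t x) = t • π x

end Fermat.Agent.EisensteinDescent
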